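import Fermat.Agent.LevelLowering.Avoid.Start
import Fermat.Agent.Lifting.MinimalData
import Fermat.Agent.Lifting.AuxPrimes
import Fermat.Agent.Lifting.LevelExtras
import Fermat.Agent.Lifting.DatumConditions
import Fermat.Agent.Oddness.Det
import Mathlib.RingTheory.Polynomial.Cyclotomic.Roots

/-!
# Ihara avoidance: the start data exist

The coefficients of a congruent eigenform of level `B ∏E`, together with the roots of unity of
orders `p ^ v₀` and `p² - 1`, map to a complete discrete valuation ring; the form gives the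
residual system, and a system at level `B` lifts to a congruent eigenform there.
-/

set_option autoImplicit false

noncomputable section

open IsLocalRing CuspForm CongruenceSubgroup ModularFormClass

namespace Fermat.Agent.LevelLowering.Avoid

open Lifting (opT levelLoc)

local notation "Z̄" => integralClosure ℤ ℂ

/-- The coefficient ring of an eigenform with two roots of unity. -/
theorem exists_coefficientRing {N : ℕ} [NeZero N] {f : CuspForm (Gamma0 N) 2}
    (hf : f.IsNormalizedEigenform) (𝔪 : Ideal Z̄) [𝔪.IsPrime] (p : ℕ) [Fact p.Prime]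
    (hp : (p : Z̄) ∈ 𝔪) (v : ℕ) :
    ∃ (O : Type) (_ : CommRing O) (_ : IsDomain O) (_ : IsDiscreteValuationRing O)
      (_ : IsAdicComplete (maximalIdeal O) O) (_ : Finite (ResidueField O)) (_ : CharZero O)
      (_ : Algebra (ZMod p) (ResidueField O)) (_ : GaloisField p 2 →+* ResidueField O) (ζ : O)
      (char : heckeAlgebra N 2 (∅ : Set ℕ) →+* O),
      (p : O) ∈ maximalIdeal O ∧ IsPrimitiveRoot ζ (p ^ v) ∧
      ∀ (l : Nat.Primes) (m : ℤ), (∃ b : Z̄, (b : ℂ) = qCoeff f l ∧ b - (m : Z̄) ∈ 𝔪) →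
        residue O (char (opT N l)) = (m : ResidueField O) := by
  classical
  have hp' : p.Prime := Fact.out
  have : Algebra.IsIntegral ℤ Z̄ := IsIntegralClosure.isIntegral_algebra ℤ ℂ
  have : Module.Finite ℤ (heckeAlgebra N 2 (∅ : Set ℕ)) :=
    EichlerPeriods.moduleFinite_heckeAlgebra 2 ∅
  let χ : heckeAlgebra N 2 (∅ : Set ℕ) →+* Z̄ :=
    HeckeEigen.eigenCharInt (CuspIntStr.hasIntegralStructure N 2) hf ∅
  have root : ∀ n : ℕ, n ≠ 0 → ∃ z : Z̄, IsPrimitiveRoot z n := fun n hn =>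
    have h := Complex.isPrimitiveRoot_exp n hn
    ⟨⟨_, h.isIntegral (Nat.pos_of_ne_zero hn)⟩,
      IsPrimitiveRoot.of_map_of_injective (f := (integralClosure ℤ ℂ).val) h Subtype.val_injective⟩
  obtain ⟨z₁, hz₁⟩ := root (p ^ v) (pow_ne_zero _ hp'.ne_zero)
  have hn0 : p ^ 2 - 1 ≠ 0 := by
    have := Nat.one_lt_pow two_ne_zero hp'.one_lt
    omega
  obtain ⟨z₂, hz₂⟩ := root (p ^ 2 - 1) hn0
  obtain ⟨t, ht⟩ := Module.Finite.fg_top (R := ℤ) (M := heckeAlgebra N 2 (∅ : Set ℕ))
  let A : Subalgebra ℤ Z̄ :=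
    Algebra.adjoin ℤ (χ '' (t : Set (heckeAlgebra N 2 (∅ : Set ℕ))) ∪ {z₁, z₂})
  have hχA : ∀ x, χ x ∈ A := fun x => by
    have hx : x ∈ Submodule.span ℤ (t : Set (heckeAlgebra N 2 (∅ : Set ℕ))) := by
      rw [ht]; trivial
    induction hx using Submodule.span_induction with
    | mem y hy => exact Algebra.subset_adjoin (Or.inl ⟨y, hy, rfl⟩)
    | zero => rw [map_zero]; exact zero_mem A
    | add a b _ _ ha hb => rw [map_add]; exact add_mem ha hb
    | smul m a _ ha => rw [map_zsmul]; exact zsmul_mem ha m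
  have : Module.Finite ℤ A := Algebra.finite_adjoin_of_finite_of_isIntegral
    ((t.finite_toSet.image χ).union (Set.toFinite _)) fun x _ => Algebra.IsIntegral.isIntegral x
  let R : Subring Z̄ := A.toSubring
  have : Module.Finite ℤ R :=
    Module.Finite.of_surjective
      (({ toFun := fun x => ⟨x.1, x.2⟩, map_zero' := rfl, map_add' := fun _ _ => rfl } :
        A →+ R).toIntLinearMap) fun x => ⟨⟨x.1, x.2⟩, rfl⟩
  have : CharZero R := charZero_of_injective_ringHom (f := (Int.castRingHom R))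
    (fun a b h => by simpa using congrArg (fun x : R => ((x : Z̄) : ℂ)) h)
  let P : Ideal R := 𝔪.comap R.subtype
  have : P.IsPrime := Ideal.comap_isPrime _ _
  obtain ⟨O, _, _, _, _, _, _, ι, hι, hιP, hpO⟩ :=
    HeckeAlg.exists_completeDVR R P hp'.ne_zero (by rw [Ideal.mem_comap, map_natCast]; exact hp)
  have : CharP (ResidueField O) p := (CharP.charP_iff_prime_eq_zero hp').mpr
    (by rw [← map_natCast (residue O)]; exact (residue_eq_zero_iff _).mpr hpO)
  let : Algebra (ZMod p) (ResidueField O) := ZMod.algebra _ p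
  let w₁ : R := ⟨z₁, Algebra.subset_adjoin (Or.inr (Or.inl rfl))⟩
  let w₂ : R := ⟨z₂, Algebra.subset_adjoin (Or.inr (Or.inr rfl))⟩
  have hw₁ : IsPrimitiveRoot w₁ (p ^ v) :=
    IsPrimitiveRoot.of_map_of_injective (f := R.subtype) hz₁ Subtype.val_injective
  have hw₂ : IsPrimitiveRoot (ι w₂) (p ^ 2 - 1) :=
    (IsPrimitiveRoot.of_map_of_injective (f := R.subtype) hz₂
      Subtype.val_injective).map_of_injective hι
  have : NeZero ((p ^ 2 - 1 : ℕ) : ResidueField O) := ⟨fun h => by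
    rw [CharP.cast_eq_zero_iff _ p] at h
    have hpn : p ∣ p ^ 2 - 1 + 1 := by
      rw [Nat.sub_add_cancel (Nat.one_le_pow _ _ hp'.pos)]
      exact dvd_pow_self p two_ne_zero
    exact hp'.not_dvd_one ((Nat.dvd_add_right h).mp hpn)⟩
  have hz : IsPrimitiveRoot (residue O (ι w₂)) (p ^ 2 - 1) := by
    rw [← Polynomial.isRoot_cyclotomic_iff, ← Polynomial.map_cyclotomic _ (residue O)]
    exact (hw₂.isRoot_cyclotomic (Nat.pos_of_ne_zero hn0)).map
  obtain ⟨emb⟩ := Lifting.nonempty_galoisField_hom hz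
  obtain ⟨eig, heig⟩ := Lifting.exists_eig hf R fun l =>
    ⟨χ (opT N l), hχA _, Lifting.eigenChar_opT hf l⟩
  refine ⟨O, inferInstance, inferInstance, inferInstance, inferInstance, inferInstance,
    inferInstance, inferInstance, emb, ι w₁, ι.comp eig, hpO, hw₁.map_of_injective hι, ?_⟩
  rintro l m ⟨b, hb, hbm⟩
  have hb' : ((eig (opT N l)) : Z̄) = b := Subtype.ext ((heig l).trans hb.symm)
  rw [← map_intCast ((residue O).comp ι), ← sub_eq_zero]
  simp only [RingHom.comp_apply]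
  rw [← map_sub, ← map_sub, residue_eq_zero_iff, ← Ideal.mem_comap, hιP, Ideal.mem_comap]
  rw [map_sub, map_intCast]
  show ((eig (opT N l)) : Z̄) - (m : Z̄) ∈ 𝔪
  rw [hb']
  exact hbm

/-- A non-Eisenstein system at a level lifts to a congruent eigenform there. -/
theorem cofiniteResModular_of_nontrivial {p : ℕ} [Fact p.Prime] {O : Type} [CommRing O]
    [IsDomain O] [IsDiscreteValuationRing O] [IsAdicComplete (maximalIdeal O) O] [CharZero O]
    [Finite (ResidueField O)] (hpO : (p : O) ∈ maximalIdeal O) {W : WeierstrassCurve ℤ} {B : ℕ}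
    [NeZero B] (a : Nat.Primes → ResidueField O) (S₀ : Finset ℕ)
    (ha : ∀ l : Nat.Primes, (l : ℕ) ∉ S₀ → a l = ((W.apOfModel l : ℤ) : ResidueField O))
    (hne : ∃ l : Nat.Primes, ((l : ℕ) : ZMod B) = 1 ∧ a l ≠ ((l : ℕ) : ResidueField O) + 1)
    (h : Nontrivial (levelLoc O B a)) : CofiniteResModular W p B := by
  classical
  obtain ⟨θ, hθ⟩ := Lifting.exists_levelHyp (S := B.primeFactors) a dvd_rfl
    (fun q hq hqB => Nat.mem_primeFactors.mpr ⟨hq, hqB, NeZero.ne B⟩) hne
  have : Finite θ.range := Finite.of_injective _ Subtype.val_injective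
  let : Field θ.range := (Finite.isField_of_domain θ.range).toField
  obtain ⟨g, hg, Q, hQ, hint, hT, -⟩ := HeckeEigen.exists_eigenform_congruent
    (CuspIntStr.hasIntegralStructure B 2) θ.rangeRestrict θ.rangeRestrict_surjective
  refine ⟨g, Q, hg, hQ, ?_, S₀ ∪ B.primeFactors, fun l hl hlS => ?_⟩
  · have := hint (p : ℤ) (Subtype.ext (by
      push_cast
      rw [← map_natCast (residue O)]
      exact (residue_eq_zero_iff _).mpr hpO))
    simpa using this
  · rw [Finset.mem_union, not_or, Nat.mem_primeFactors] at hlS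
    have hlB : ¬ l ∣ B := fun hd => hlS.2 ⟨hl, hd, NeZero.ne B⟩
    refine hT l hl hlB (fun hm => hlS.2 (Nat.mem_primeFactors.mp hm)) (W.apOfModel l)
      (Subtype.ext ?_)
    rw [RingHom.coe_rangeRestrict, hθ.theta_T l hl hlB, ha ⟨l, hl⟩ hlS.1]
    push_cast
    rfl

/-- A congruence at level `B ∏E` gives the data. -/
theorem startExists : StartExists := by
  intro W p _ hΔ hW hp2 hirr B E hB hE hmod v₀
  classical
  have hp' : p.Prime := Fact.out
  have hN : B * ∏ q ∈ E, q ≠ 0 :=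
    mul_ne_zero hB.ne_zero (Finset.prod_ne_zero_iff.2 fun q hq => (hE q hq).1.1.ne_zero)
  obtain ⟨f, 𝔪, hf, hmax, hp𝔪, S₀, hS₀⟩ := hmod
  set N : ℕ := B * ∏ q ∈ E, q with hNdef
  have : NeZero N := ⟨hN⟩
  have : NeZero B := ⟨hB.ne_zero⟩
  have := hmax.isPrime
  obtain ⟨O, _, _, _, _, _, _, alg, emb, ζ, char, hpO, hζ, hchar⟩ :=
    exists_coefficientRing hf 𝔪 p hp𝔪 v₀
  let a : Nat.Primes → ResidueField O := fun l => residue O (char (opT N l))
  have ha : ∀ l : Nat.Primes, (l : ℕ) ∉ S₀ → a l = ((W.apOfModel l : ℤ) : ResidueField O) :=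
    fun l hl => hchar l _ (hS₀ l l.2 hl)
  have ha' : ∀ l : Nat.Primes, (l : ℕ) ∉ S₀ → W.IsGoodPrimeFor l →
      a l = algebraMap (ZMod p) (ResidueField O) (W.apOfModel l : ZMod p) := fun l hl _ => by
    rw [map_intCast]
    exact ha l hl
  have hmemE : ∀ q ∈ E, q.Prime ∧ p ∣ q - 1 ∧ ¬ q ∣ B := fun q hq =>
    ⟨(hE q hq).1.1, by
      rw [← ZMod.natCast_eq_zero_iff, Nat.cast_sub (hE q hq).1.1.one_le, (hE q hq).1.2.2.1,
        Nat.cast_one, sub_self], (hE q hq).2⟩
  let X : AvoidSetup p O :=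
    { B := B, E := E, a := a, ne_two := hp2, p_mem := hpO, B_ne_zero := hB.ne_zero,
      mem_E := hmemE }
  have hset : Residual.ResidualSetup W p O := ⟨hΔ, hW, hp2, hirr, ⟨emb⟩⟩
  have hnon : ∀ M : ℕ, M ≠ 0 → ∀ S : Finset ℕ, ∃ ℓ : Nat.Primes, (ℓ : ℕ) ∉ S ∧
      ((ℓ : ℕ) : ZMod M) = 1 ∧ a ℓ ≠ ((ℓ : ℕ) : ResidueField O) + 1 := fun M hM S =>
    have : NeZero M := ⟨hM⟩
    Lifting.exists_nonEisenstein_prime hΔ hp2 hirr a S₀ ha' M S
  have hthree : IsUnit (3 : O) ∨ ∀ S : Finset ℕ, ∃ ℓ : Nat.Primes, (ℓ : ℕ) ∉ S ∧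
      (ℓ : ℕ) % 3 = 2 ∧ a ℓ ≠ 0 := by
    by_cases h3 : p = 3
    · subst h3
      exact Or.inr fun S => Lifting.exists_prime_two_mod_three_ne_zero hΔ hW hirr a S₀ ha' S
    · refine Or.inl (not_not.mp fun h => h3 ?_)
      have : CharP (ResidueField O) p :=
        charP_of_injective_algebraMap (algebraMap (ZMod p) (ResidueField O)).injective p
      have h3' : ((3 : ℕ) : ResidueField O) = 0 := by
        rw [← map_natCast (residue O), residue_eq_zero_iff]
        exact_mod_cast h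
      rw [CharP.cast_eq_zero_iff _ p] at h3'
      exact (Nat.prime_dvd_prime_iff_eq hp' Nat.prime_three).mp h3'
  let S : Finset ℕ := insert p N.primeFactors
  have hNS : ∀ q : ℕ, q.Prime → q ∣ N → q ∈ S := fun q hq hqN =>
    Finset.mem_insert_of_mem (Nat.mem_primeFactors.mpr ⟨hq, hqN, hN⟩)
  have hres : X.IsResidual hset.rhobar :=
    { absIrr := hset.absIrr
      odd := Oddness.isOdd_of_detIsCyclotomic hp'.ne_zero hset.detIsCyclotomic
      frob := fun l hlp hlB hlE P hP σ hσ => by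
        have hlN : ¬ (l : ℕ) ∣ N := fun hd => (l.2.dvd_mul.mp hd).elim hlB fun h => by
          obtain ⟨q, hq, hlq⟩ := (l.2.prime.dvd_finsetProd_iff _).mp h
          exact hlE (((Nat.prime_dvd_prime_iff_eq l.2 (hE q hq).1.1).mp hlq).symm ▸ hq)
        have hlS : (l : ℕ) ∉ (↑S : Set ℕ) := by
          simp only [S, Finset.coe_insert, Set.mem_insert_iff, Finset.mem_coe,
            Nat.mem_primeFactors, not_or, not_and]
          exact ⟨hlp, fun _ hd => absurd hd hlN⟩
        have h := Lifting.charpoly_residualOver_eq_theta (N := N) (S := S)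
          (θ := Lifting.thetaOf char dvd_rfl hNS) hpO (Finset.mem_insert_self p _) hNS W hΔ hW hp2
          hirr S₀ (fun ℓ hℓ hℓN hℓS hℓR _ => by
            rw [Lifting.thetaOf_T]
            exact ha ⟨ℓ, hℓ⟩ hℓR) l l.2 hlN hlS P hP σ hσ
        rw [Lifting.thetaOf_T] at h
        exact h }
  refine ⟨{ O := O, X := X, B_eq := rfl, E_eq := rfl, setup := hset, ζ := ζ, hζ := hζ,
            witness := ⟨hnon, hthree⟩, isResidual := hres,
            base := Lifting.nontrivial_levelLoc (N := N) char fun _ => rfl,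
            bottom := fun h => ?_ }⟩
  obtain ⟨l, hlE, hl1, hl⟩ := hnon B hB.ne_zero E
  have hsys : ∀ ℓ : Nat.Primes, (ℓ : ℕ) ∉ E → X.bottomSys ℓ = a ℓ := fun ℓ hℓ => if_neg hℓ
  refine cofiniteResModular_of_nontrivial hpO X.bottomSys (S₀ ∪ E) (fun ℓ hℓ => ?_) ⟨l, hl1, ?_⟩ h
  · rw [Finset.mem_union, not_or] at hℓ
    rw [hsys ℓ hℓ.2]
    exact ha ℓ hℓ.1
  · rw [hsys l hlE]
    exact hl

end Fermat.Agent.LevelLowering.Avoid
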