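import Fermat.Agent.LevelLowering.Avoid.Assembly.Main
import Fermat.Agent.LevelLowering.Avoid.StartProof
import Fermat.Agent.LevelLowering.Avoid.Level.Free
import Fermat.Agent.LevelLowering.Avoid.Level.Hecke
import Fermat.Agent.LevelLowering.Avoid.Level.FormPoint
import Fermat.Agent.LevelLowering.Avoid.Level.Trivial
import Fermat.Agent.LevelLowering.Avoid.Level.Galois
import Fermat.Agent.PoitouTate.GlobalInputsProof
import Fermat.Agent.TWEuler.Inputs
import Fermat.Agent.TWEuler.RightExactInputs
import Fermat.Agent.S32
import Fermat.Agent.S33
import Fermat.Agent.S34
import Fermat.Agent.S35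
import Fermat.Agent.S36

/-!
# The exceptional primes are removed

For a semistable curve `W` and an odd prime `p` with `W[p]` irreducible, all exceptional primes
are removed at once from a level at which `W[p]` is modular: the theorems on the levels, duality,
and the local properties of the Galois representations of newforms feed the avoidance argument.
-/

set_option autoImplicit false

noncomputable section

namespace Fermat.Agent.LevelLowering.Avoid

/-- The modules of the levels have the properties used by the avoidance argument. -/
theorem levelTheorems : LevelTheorems := fun _ _ _ _ _ _ _ _ T =>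
  ⟨T.freeLevel, T.heckeLevel, T.formAtPoint, T.trivialPoint, fun _ _ DQ => T.galoisLevel DQ⟩

/-- Poitou–Tate duality at an odd prime. -/
theorem dualityInputs {p : ℕ} [Fact p.Prime] (hp2 : p ≠ 2) : DualityInputs p := by
  obtain ⟨I⟩ := PoitouTate.nonempty_invSystem (p := p) hp2
  have hG : ∀ T : Finset Nat.Primes, ExtCitation.pPrime p ∈ T → PoitouTate.GlobalInputs I T :=
    fun T hT => PoitouTate.globalInputs hp2 hT I
  exact ⟨I, hG, fun T hT => TWEuler.rightExact_of_inputs hp2 I hT (hG T hT),
    fun T hT => TWEuler.allWeights_of_inputs hp2 I hT (hG T hT)⟩

/-- **The exceptional primes are removed**, at every odd prime. -/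
theorem removeExceptional_semistable (W : WeierstrassCurve ℤ) (p : ℕ) [Fact p.Prime] (hΔ : W.Δ ≠ 0)
    (hW : W.IsSemistableModel) (hp2 : p ≠ 2) : RemoveExceptional W p :=
  removeExceptional levelTheorems startExists @S32.result @S33.result @S34.result @S35.result
    @S36.result W p (dualityInputs hp2) hΔ hW hp2

end Fermat.Agent.LevelLowering.Avoid
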