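import Fermat.Agent.LevelLowering.Avoid.Setup
import Fermat.Agent.TangentBound.Cocycle
import Fermat.Agent.TangentBound.Trace
import Mathlib.RingTheory.MvPowerSeries.Rename

/-!
# Ihara avoidance: presentation of the deformation ring by local coordinates

If the tangent cocycles vanishing at chosen Frobenius and inertia elements at the primes of `ι`
span at most `#σ` dimensions modulo coboundaries, then the deformation ring is a quotient of the
coordinate ring, the coordinates at `i` going to the trace-zero parts of the universal matrices of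
those two elements.
-/

set_option autoImplicit false

noncomputable section

open IsLocalRing Module
open Fermat.Agent.TangentBound

namespace Fermat.Agent.LevelLowering.Avoid

/-- The three entries `a, b, c` of the trace-zero part of a matrix. -/
def traceFreeEntry {R : Type} [CommRing R] (M : Mat2 R) : Fin 3 → R :=
  ![Ring.inverse 2 * (M 0 0 - M 1 1), M 0 1, M 1 0]

variable {𝒪 : Type} [CommRing 𝒪] [IsDomain 𝒪] [IsDiscreteValuationRing 𝒪]
  [IsAdicComplete (maximalIdeal 𝒪) 𝒪]
  {ρbar : ResidualGaloisRep (ResidueField 𝒪)}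
  {𝒟 : ∀ ⦃A : Type⦄ [CommRing A] [IsLocalRing A] [Algebra 𝒪 A], GaloisRepAdic A → Prop}
  (DQ : GaloisRep.DeformationRingData 𝒪 ρbar 𝒟)

/-- The six coordinates attached to an inertia element `s` and a Frobenius `f`. -/
def localCoord (s f : GQ) (j : Fin 6) : DQ.R :=
  Fin.append (traceFreeEntry (univMat DQ s)) (traceFreeEntry (univMat DQ f)) j

theorem traceFreeEntry_mem {σ : GQ} (hσ : ∃ x : ResidueField 𝒪, barMat DQ σ = x • (1 : Mat2 (ResidueField 𝒪)))
    (j : Fin 3) : traceFreeEntry (univMat DQ σ) j ∈ maximalIdeal DQ.R := by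
  obtain ⟨x, hx⟩ := hσ
  have h : ∀ a b, resK DQ.residue_surjective (univMat DQ σ a b) =
      (x • (1 : Mat2 (ResidueField 𝒪))) a b := fun a b => by
    rw [← hx, barMat_apply, Matrix.map_apply]
  rw [← resK_eq_zero_iff DQ.residue_surjective]
  fin_cases j <;> simp [traceFreeEntry, h]

theorem tangentCocycle_eq_zero_of_entries (p : ℕ) [Fact p.Prime]
    (hdet : DQ.ρ.DetIsCyclotomic p) (h2 : IsUnit (2 : 𝒪)) (d : derSpace DQ.residue_surjective)
    {σ : GQ} (hσ : ∃ x : ResidueField 𝒪, barMat DQ σ = x • (1 : Mat2 (ResidueField 𝒪)))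
    (h : ∀ j, (d : DQ.R →ₗ[𝒪] ResidueField 𝒪) (traceFreeEntry (univMat DQ σ) j) = 0) :
    tangentCocycle DQ d σ = 0 := by
  obtain ⟨x, hx⟩ := hσ
  set M := univMat DQ σ
  set D := M.map (d : DQ.R →ₗ[𝒪] ResidueField 𝒪) with hD
  have h01 : D 0 1 = 0 := h 1
  have h10 : D 1 0 = 0 := h 2
  have h00 : D 0 0 = D 1 1 := by
    have h0 := h 0
    have h2R : Ring.inverse (2 : DQ.R) * 2 = 1 := by
      refine Ring.inverse_mul_cancel _ ?_
      have := h2.map (algebraMap 𝒪 DQ.R)
      rwa [map_ofNat] at this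
    have hres2 := congrArg (resK DQ.residue_surjective) h2R
    rw [map_mul, map_one] at hres2
    have hk : resK DQ.residue_surjective (M 0 0 - M 1 1) = 0 := by
      have e : ∀ a b, resK DQ.residue_surjective (M a b) =
          (x • (1 : Mat2 (ResidueField 𝒪))) a b := fun a b => by
        rw [← hx, barMat_apply, Matrix.map_apply]
      rw [map_sub, e, e]
      simp
    simp only [traceFreeEntry, Matrix.cons_val_zero] at h0
    rw [d.2, hk, zero_mul, add_zero, mul_eq_zero] at h0
    rcases h0 with h0 | h0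
    · rw [h0, zero_mul] at hres2
      exact absurd hres2 zero_ne_one
    · rwa [map_sub, sub_eq_zero] at h0
  have hDs : D = D 0 0 • (1 : Mat2 (ResidueField 𝒪)) := by
    ext a b
    fin_cases a <;> fin_cases b <;> simp [h01, h10, h00]
  have hc : tangentCocycle DQ d σ = D * barMat DQ σ⁻¹ := tangentCocycle_apply DQ d σ
  have hinv := barMat_mul_inv DQ σ
  rw [hx, smul_mul_assoc, one_mul] at hinv
  have htr := tangentCocycle_trace DQ p hdet d σ
  rw [hc, hDs, smul_mul_assoc, one_mul, Matrix.trace_smul, smul_eq_mul] at htr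
  have hx0 : x ≠ 0 := by
    rintro rfl
    rw [zero_smul] at hinv
    exact zero_ne_one hinv
  have hBinv : barMat DQ σ⁻¹ = x⁻¹ • (1 : Mat2 (ResidueField 𝒪)) := by
    rw [← hinv, smul_smul, inv_mul_cancel₀ hx0, one_smul]
  have h2k : (2 : ResidueField 𝒪) ≠ 0 := by
    have := (h2.map (residue 𝒪)).ne_zero
    rwa [map_ofNat] at this
  rw [hBinv, Matrix.trace_smul, Matrix.trace_one, Fintype.card_fin, smul_eq_mul] at htr
  have hD0 : D 0 0 = 0 := by
    rcases mul_eq_zero.1 htr with e | e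
    · exact e
    · exact absurd e (mul_ne_zero (inv_ne_zero hx0) (by simpa using h2k))
  rw [hc, hDs, hD0, zero_smul, zero_mul]

variable {ι σ : Type} [Fintype ι] [Fintype σ]

/-- Presentation of the deformation ring by local coordinates. -/
theorem exists_coordRing_surjective
    (h𝒟 : ∀ (φ : DQ.R →ₐ[𝒪] DualNumber (ResidueField 𝒪))
      (hφ : IsLocalHom (φ : DQ.R →+* DualNumber (ResidueField 𝒪))), Function.Surjective φ →
        𝒟 (DQ.ρ.baseChangeAlong (φ : DQ.R →+* DualNumber (ResidueField 𝒪)) hφ))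
    (p : ℕ) [Fact p.Prime] (hdet : DQ.ρ.DetIsCyclotomic p) (h2 : IsUnit (2 : 𝒪))
    (s f : ι → GQ)
    (hs : ∀ i, ∃ x : ResidueField 𝒪, barMat DQ (s i) = x • (1 : Mat2 (ResidueField 𝒪)))
    (hf : ∀ i, ∃ x : ResidueField 𝒪, barMat DQ (f i) = x • (1 : Mat2 (ResidueField 𝒪)))
    (Y : Submodule (ResidueField 𝒪) (GQ → Mat2 (ResidueField 𝒪)))
    [FiniteDimensional (ResidueField 𝒪) Y]
    (hY : finrank (ResidueField 𝒪) Y ≤ Fintype.card σ)
    (hmem : ∀ d, (∀ i, tangentCocycle DQ d (s i) = 0 ∧ tangentCocycle DQ d (f i) = 0) →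
      tangentCocycle DQ d ∈ Y ⊔ LinearMap.range (coboundary DQ)) :
    ∃ γ : CoordRing 𝒪 ι σ →ₐ[𝒪] DQ.R, Function.Surjective γ ∧
      ∀ i j, γ (coord i j) = localCoord DQ (s i) (f i) j := by
  classical
  set E := ι × Fin 6
  let z : E → DQ.R := fun e => localCoord DQ (s e.1) (f e.1) e.2
  have hz : ∀ e, z e ∈ maximalIdeal DQ.R := fun e => by
    refine Fin.addCases (fun j => ?_) (fun j => ?_) (m := 3) (n := 3) e.2
      (motive := fun j => localCoord DQ (s e.1) (f e.1) j ∈ maximalIdeal DQ.R)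
    · rw [localCoord, Fin.append_left]; exact traceFreeEntry_mem DQ (hs _) j
    · rw [localCoord, Fin.append_right]; exact traceFreeEntry_mem DQ (hf _) j
  let ev : DQ.R → Module.Dual (ResidueField 𝒪) (derSpace DQ.residue_surjective) := fun y =>
    { toFun := fun d => (d : DQ.R →ₗ[𝒪] (ResidueField 𝒪)) y
      map_add' := fun _ _ => rfl
      map_smul' := fun _ _ => rfl }
  let D₀ : Submodule (ResidueField 𝒪) (derSpace DQ.residue_surjective) := ⨅ e, LinearMap.ker (ev (z e))
  let _ : AddCommGroup D₀ := Submodule.addCommGroup (R := ResidueField 𝒪) (M := ↥(derSpace DQ.residue_surjective)) D₀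
  have hD₀ : ∀ d : derSpace DQ.residue_surjective,
      d ∈ D₀ ↔ ∀ e, (d : DQ.R →ₗ[𝒪] (ResidueField 𝒪)) (z e) = 0 := fun d => by
    simp only [D₀, Submodule.mem_iInf, LinearMap.mem_ker]
    rfl
  set B := LinearMap.range (coboundary DQ)
  let g : D₀ →ₗ[(ResidueField 𝒪)] Y.map B.mkQ :=
    ((B.mkQ ∘ₗ tangentCocycle DQ) ∘ₗ D₀.subtype).codRestrict (Y.map B.mkQ) fun d => by
      have hd := (hD₀ d.1).1 d.2
      obtain ⟨y, hy, b, hb, hyb⟩ := Submodule.mem_sup.1 (hmem d.1 fun i =>
        ⟨tangentCocycle_eq_zero_of_entries DQ p hdet h2 d.1 (hs i) fun j => by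
            simpa [z, localCoord, Fin.append_left] using hd (i, Fin.castAdd 3 j),
          tangentCocycle_eq_zero_of_entries DQ p hdet h2 d.1 (hf i) fun j => by
            simpa only [z, localCoord, Fin.append_right] using hd (i, Fin.natAdd 3 j)⟩)
      refine ⟨y, hy, ?_⟩
      simp only [LinearMap.comp_apply, Submodule.subtype_apply]
      rw [← hyb, map_add, show B.mkQ b = 0 from (Submodule.Quotient.mk_eq_zero B).2 hb, add_zero]
  have hg : Function.Injective g := by
    refine (injective_iff_map_eq_zero g).2 fun d hd => ?_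
    exact Subtype.ext (eq_zero_of_tangentCocycle_mem_range DQ h𝒟 d.1
      ((Submodule.Quotient.mk_eq_zero B).1 (congrArg Subtype.val hd)))
  have : FiniteDimensional (ResidueField 𝒪) D₀ := Module.Finite.of_injective g hg
  have hr : finrank (ResidueField 𝒪) D₀ ≤ Fintype.card σ :=
    ((LinearMap.finrank_le_finrank_of_injective hg).trans (Submodule.finrank_map_le B.mkQ Y)).trans
      hY
  obtain ⟨x, hxm, hxsep⟩ := exists_fin_separating (k := ResidueField 𝒪) (D := D₀) hr
    (maximalIdeal DQ.R : Set DQ.R) (fun y => (ev y).comp D₀.subtype) (zero_mem _)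
  let eσ := Fintype.equivFin σ
  let w : Coord ι σ → DQ.R := Sum.elim z fun t => x (eσ t)
  let e := Fintype.equivFin (Coord ι σ)
  have hw : ∀ l, w (e.symm l) ∈ maximalIdeal DQ.R := fun l => by
    rcases e.symm l with a | t
    · exact hz a
    · exact hxm _
  have hsep : ∀ d : derSpace DQ.residue_surjective,
      (∀ l, (d : DQ.R →ₗ[𝒪] (ResidueField 𝒪)) (w (e.symm l)) = 0) → d = 0 := by
    intro d hd
    have hd' : ∀ c, (d : DQ.R →ₗ[𝒪] (ResidueField 𝒪)) (w c) = 0 := fun c => by simpa using hd (e c)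
    have hdm : d ∈ D₀ := (hD₀ d).2 fun a => hd' (Sum.inl a)
    refine derSpace_ext_maximalIdeal DQ.residue_surjective d
      (hxsep ⟨d, hdm⟩ fun l => ?_)
    show (d : DQ.R →ₗ[𝒪] ResidueField 𝒪) (x l) = 0
    simpa [w, eσ] using hd' (Sum.inr (eσ.symm l))
  obtain ⟨γ, hγ, hγX⟩ : ∃ γ : MvPowerSeries (Fin (Fintype.card (Coord ι σ))) 𝒪 →ₐ[𝒪] DQ.R,
      Function.Surjective γ ∧ ∀ l, γ (MvPowerSeries.X l) = w (e.symm l) :=
    ⟨evalHom _ hw, evalHom_surjective DQ.residue_surjective _ hw
      (le_span_of_separating DQ.residue_surjective _ hw hsep), evalHom_X _ hw⟩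
  refine ⟨γ.comp (MvPowerSeries.renameEquiv 𝒪 e).toAlgHom, ?_, fun i j => ?_⟩
  · exact hγ.comp (MvPowerSeries.renameEquiv 𝒪 e).surjective
  · simp [coord, MvPowerSeries.renameEquiv, hγX, w, z]

end Fermat.Agent.LevelLowering.Avoid
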