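import Fermat.Agent.TWAssembly.Selmer
import Fermat.Agent.TWLocal.Away
import Fermat.Agent.LocalInertia.Kummer

/-!
# Ihara avoidance: vanishing of a class on a decomposition group with scalar residual action

Where the residual representation is scalar, a class is a homomorphism on the decomposition
group, so it vanishes there as soon as it vanishes at a Frobenius and at one element of inertia
moving a `p`-th root of `q`.
-/

set_option autoImplicit false

noncomputable section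

open Fermat.Agent.GaloisBasics Fermat.Agent.LocalInertia Fermat.Agent.TWLocal
open Fermat.Agent.TWAssembly
open scoped Pointwise

namespace Fermat.Agent.LevelLowering.Avoid

/-- An element of inertia moving a `p`-th root of `q`. -/
def MovesRoot (A : ValuationSubring Qbar) (p q : ℕ) (s : GalQ) : Prop :=
  s ∈ A.inertiaSubgroupIn ℚ ∧ ∃ π : Qbar, π ^ p = q ∧ s π ≠ π

/-- Some element of inertia at `q` moves a `p`-th root of `q`. -/
theorem exists_movesRoot {A : ValuationSubring Qbar} {p q : ℕ} (hA : A.LiesOverPrime q)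
    (hq : q.Prime) (hp : p.Prime) (hqp : q ≠ p) : ∃ s, MovesRoot A p q s := by
  obtain ⟨π, hπ⟩ := IsAlgClosed.exists_pow_nat_eq (q : Qbar) hp.pos
  have : NeZero p := ⟨hp.ne_zero⟩
  have : NeZero (p : Qbar) := ⟨Nat.cast_ne_zero.2 hp.ne_zero⟩
  obtain ⟨ζ, hζ⟩ := HasEnoughRootsOfUnity.exists_primitiveRoot Qbar p
  obtain ⟨s, hs, hsπ⟩ := exists_inertia_apply_root hA hq
    (fun h => hqp ((Nat.prime_dvd_prime_iff_eq hq hp).1 h)) hπ hζ.pow_eq_one
  refine ⟨s, hs, π, hπ, fun h => hζ.ne_one hp.one_lt ?_⟩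
  rw [hsπ] at h
  have hπ0 : π ≠ 0 := by
    rintro rfl
    rw [zero_pow hp.ne_zero] at hπ
    exact hq.ne_zero (by exact_mod_cast hπ.symm)
  exact mul_left_eq_self₀.1 h |>.resolve_right hπ0

variable {k : Type} [Field k] {rb : GalQ →* M2 k}

/-- A class on a decomposition group with scalar residual action, vanishing at a Frobenius and at
an element moving a `p`-th root of `q`, is zero. -/
theorem eq_zero_of_movesRoot {A : ValuationSubring Qbar} {p q : ℕ} (hA : A.LiesOverPrime q)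
    (hq : q.Prime) (hp : p.Prime) (hqp : q ≠ p) (hqk : (q : k) ≠ 0) (hpk : (p : k) = 0)
    (hrb : ∃ F : IntermediateField ℚ Qbar, FiniteDimensional ℚ F ∧
      ∀ σ : GalQ, (∀ x ∈ F, σ x = x) → rb σ = 1)
    (hI : ∀ σ ∈ A.inertiaSubgroupIn ℚ, rb σ = 1)
    {s φ : GalQ} (hs : MovesRoot A p q s) (hφ : A.IsFrobeniusAt φ q)
    {c : ↥(A.decompositionSubgroup ℚ) → M2 k} (hc : c ∈ Z1 rb (A.decompositionSubgroup ℚ))
    (hcs : c ⟨s, inertia_le hs.1⟩ = 0) (hcφ : c ⟨φ, hφ.mem_decompositionSubgroup⟩ = 0) :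
    c = 0 := by
  classical
  obtain ⟨hsI, π, hπ, hsπ⟩ := hs
  obtain ⟨F₁, hF₁, hF₁rb⟩ := hrb
  obtain ⟨F₂, hF₂, hF₂c⟩ := hc.2.2
  have hπint : IsIntegral ℚ π := (Algebra.IsAlgebraic.isAlgebraic π).isIntegral
  have : FiniteDimensional ℚ ↥(IntermediateField.adjoin ℚ {π}) :=
    IntermediateField.adjoin.finiteDimensional hπint
  obtain ⟨F, hle, hF, hFn⟩ := exists_normal_level (F₁ ⊔ F₂ ⊔ IntermediateField.adjoin ℚ {π})
  have hle1 : F₁ ≤ F := (le_sup_left.trans le_sup_left).trans hle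
  have hle2 : F₂ ≤ F := (le_sup_right.trans le_sup_left).trans hle
  have hπF : π ∈ F := hle ((le_sup_right : IntermediateField.adjoin ℚ {π} ≤ _)
    (IntermediateField.mem_adjoin_simple_self ℚ π))
  have hcF := hF₂c.mono hle2
  have hrbF : ∀ σ : GalQ, (∀ x ∈ F, σ x = x) → rb σ = 1 :=
    fun σ hσ => hF₁rb σ fun x hx => hσ x (hle1 hx)
  have hord : ∀ σ ∈ A.inertiaSubgroupIn ℚ, rb σ ^ p = 1 := fun σ hσ => by
    rw [hI σ hσ, one_pow]
  have hqp' : ¬ q ∣ p := fun h => hqp ((Nat.prime_dvd_prime_iff_eq hq hp).1 h)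
  have hπ0 : π ≠ 0 := by
    rintro rfl
    exact hsπ (map_zero s)
  obtain ⟨t, ht, hgen⟩ := exists_inertia_generator hq hA F
  set T : A.decompositionSubgroup ℚ := ⟨t, inertia_le ht⟩
  have hsplit : ∀ σ (hσ : σ ∈ A.inertiaSubgroupIn ℚ), ∃ j : ℕ, ∃ w ∈ A.inertiaSubgroupIn ℚ,
      σ = t ^ j * w ∧ w π = π ∧ c ⟨σ, inertia_le hσ⟩ = j • c T := by
    intro σ hσ
    obtain ⟨j, j', hjk⟩ := hgen σ hσ
    set w := (t ^ j)⁻¹ * σ with hw
    have hwI : w ∈ A.inertiaSubgroupIn ℚ := mul_mem (inv_mem (pow_mem ht j)) hσ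
    refine ⟨j, w, hwI, (mul_inv_cancel_left _ _).symm, ?_, ?_⟩
    · have hμ : (w π / π) ^ p = 1 := by
        rw [div_pow, ← map_pow, hπ, map_natCast, div_self (Nat.cast_ne_zero.2 hq.ne_zero)]
      have hwμ := inertia_apply_of_pow_eq_one hA hq hqp' hwI hμ
      have hiter : ∀ i : ℕ, (w ^ i) π = (w π / π) ^ i * π := by
        intro i
        induction i with
        | zero => simp
        | succ i ih =>
          rw [pow_succ', AlgEquiv.mul_apply, ih, map_mul, map_pow, hwμ, pow_succ, mul_assoc,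
            div_mul_cancel₀ _ hπ0]
      have h1 := hjk π hπF
      rw [hiter] at h1
      have h2 : w π / π = 1 := eq_one_of_pow_eq_one_of_coprime
        (((Nat.coprime_primes hq hp).2 hqp).pow_left j')
        ((mul_left_eq_self₀.1 h1).resolve_right hπ0) hμ
      rwa [div_eq_one_iff_eq hπ0] at h2
    · have h0 := (eq_one_and_cocycle_eq_zero hq hp hqp hqk hrbF hord hc hcF hwI hjk).2
      have e : (⟨σ, inertia_le hσ⟩ : A.decompositionSubgroup ℚ) = T ^ j * ⟨w, inertia_le hwI⟩ :=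
        Subtype.ext (mul_inv_cancel_left (t ^ j) σ).symm
      rw [e, hc.1, h0, map_zero, add_zero, cocycle_pow_of_eq_one hc (hI t ht)]
  have hT : c T = 0 := by
    obtain ⟨j, w, hwI, hsw, hwπ, hcs'⟩ := hsplit s hsI
    rw [hcs] at hcs'
    by_cases hj : (j : k) = 0
    · exfalso
      apply hsπ
      have hμ : (t π / π) ^ p = 1 := by
        rw [div_pow, ← map_pow, hπ, map_natCast, div_self (Nat.cast_ne_zero.2 hq.ne_zero)]
      have htμ := inertia_apply_of_pow_eq_one hA hq hqp' ht hμ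
      have hiter : ∀ i : ℕ, (t ^ i) π = (t π / π) ^ i * π := by
        intro i
        induction i with
        | zero => simp
        | succ i ih =>
          rw [pow_succ', AlgEquiv.mul_apply, ih, map_mul, map_pow, htμ, pow_succ, mul_assoc,
            div_mul_cancel₀ _ hπ0]
      have : CharP k p := (CharP.charP_iff_prime_eq_zero hp).2 hpk
      obtain ⟨i, rfl⟩ := (CharP.cast_eq_zero_iff k p j).1 hj
      rw [hsw, AlgEquiv.mul_apply, hwπ, hiter, pow_mul, hμ, one_pow, one_mul]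
    · rw [← Nat.cast_smul_eq_nsmul k] at hcs'
      exact (smul_eq_zero.1 hcs'.symm).resolve_left hj
  refine eq_zero_of_frobenius_inertia hA hq hc hcF hφ hcφ fun σ hσ => ?_
  obtain ⟨j, w, -, -, -, hcσ⟩ := hsplit σ hσ
  rw [hcσ, hT, smul_zero]

/-- The restriction of a global class to a decomposition group is a local class. -/
theorem resPlace_mem_Z1 {c : GalQ → M2 k} (hc : c ∈ adCocycles rb)
    (A : ValuationSubring Qbar) :
    resPlace A c ∈ Z1 rb (A.decompositionSubgroup ℚ) := by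
  obtain ⟨h1, h2, F, hF, h3⟩ := hc
  refine ⟨fun σ τ => h1 σ τ, fun σ => h2 σ, F, hF, fun σ hσ => ?_⟩
  have h0 : c 1 = 0 := by
    have h := h1 1 1
    simp only [mul_one, map_one, inv_one, one_mul] at h
    exact left_eq_add.1 h
  have h := h3 1 σ ((IntermediateField.mem_fixingSubgroup_iff F _).2 hσ)
  rwa [one_mul, h0] at h

/-- A global class with scalar residual action at every place over `q`, trivial on one
decomposition group, is trivial on all of them. -/
theorem resPlace_eq_zero_of_conj {c : GalQ → M2 k} (hc : c ∈ adCocycles rb)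
    {A B : ValuationSubring Qbar} {q : ℕ} (hA : A.LiesOverPrime q) (hB : B.LiesOverPrime q)
    (hq : q.Prime)
    (hscal : ∀ σ ∈ A.decompositionSubgroup ℚ, ∃ x : k, rb σ = x • (1 : M2 k))
    (h : resPlace A c = 0) : resPlace B c = 0 := by
  obtain ⟨g, rfl⟩ := exists_smul_eq hA hB hq
  funext ⟨σ, hσ⟩
  have hσ' : g⁻¹ * σ * g ∈ A.decompositionSubgroup ℚ := by
    rw [MulAction.mem_stabilizer_iff] at hσ ⊢
    rw [mul_smul, mul_smul, hσ, inv_smul_smul]
  have h0 : c (g⁻¹ * σ * g) = 0 := congrFun h ⟨_, hσ'⟩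
  obtain ⟨x, hx⟩ := hscal _ hσ'
  have hc1 : c 1 = 0 := by
    have h := hc.1 1 1
    simp only [mul_one, map_one, inv_one, one_mul] at h
    exact left_eq_add.1 h
  have e : σ = g * (g⁻¹ * σ * g) * g⁻¹ := by group
  show c σ = 0
  have hinv := hc.1 g g⁻¹
  rw [mul_inv_cancel, hc1] at hinv
  have hx' : rb σ = x • (1 : M2 k) := by
    rw [e, map_mul, map_mul, hx, mul_smul_comm, mul_one, smul_mul_assoc, rb_mul_inv]
  have h2 := hc.1 (g * (g⁻¹ * σ * g)) g⁻¹
  rw [← e, hc.1 g (g⁻¹ * σ * g), h0, mul_zero, zero_mul, add_zero] at h2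
  have h3 : rb (g * (g⁻¹ * σ * g)) * c g⁻¹ * rb (g * (g⁻¹ * σ * g))⁻¹ =
      rb g * c g⁻¹ * rb g⁻¹ := by
    have h4 := rb_mul_inv rb (g⁻¹ * σ * g)
    rw [hx, smul_mul_assoc, one_mul] at h4
    rw [map_mul rb g (g⁻¹ * σ * g), mul_inv_rev g (g⁻¹ * σ * g),
      map_mul rb (g⁻¹ * σ * g)⁻¹ g⁻¹, hx, mul_smul_comm, mul_one, smul_mul_assoc, smul_mul_assoc,
      ← mul_smul_comm, ← smul_mul_assoc, h4, one_mul]
  rw [h2, h3, ← hinv]

end Fermat.Agent.LevelLowering.Avoid
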