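import Fermat.Agent.LevelLowering.Avoid.Setup
import Fermat.Agent.TangentBound.PowerSeries
import Fermat.Agent.Patching.PowerSeriesTopology
import Mathlib.RingTheory.MvPowerSeries.Rename
import Mathlib.RingTheory.MvPowerSeries.NoZeroDivisors
import Mathlib.RingTheory.DiscreteValuationRing.Basic

/-!
# Ihara avoidance: the series detecting the Steinberg condition

`marker q` is the product over `i` of `(tr Φᵢ)² - (qᵢ + 1)²`, where `(tr Φᵢ)² = 4 (qᵢ + u² + v w)`
by the determinant condition.  It lies outside `specialIdeal` when every `qᵢ = 1` modulo the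
uniformiser and `2` is a unit.
-/

set_option autoImplicit false

noncomputable section

open IsLocalRing

namespace Fermat.Agent.LevelLowering.Avoid

variable {O : Type} [CommRing O] {ι σ : Type} [Fintype ι]

/-- The product of `4 (qᵢ + uᵢ² + vᵢ wᵢ) - (qᵢ + 1)²`. -/
def marker (q : ι → ℕ) : CoordRing O ι σ :=
  ∏ i, (4 * ((q i : CoordRing O ι σ) + coord i 3 * coord i 3 + coord i 4 * coord i 5) -
    ((q i : CoordRing O ι σ) + 1) ^ 2)

variable [IsDomain O] [IsDiscreteValuationRing O] [IsAdicComplete (maximalIdeal O) O] [Finite σ]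

/-- The marker series lies outside the special ideal. -/
theorem marker_notMem_specialIdeal {ϖ : O} (hϖ : maximalIdeal O = Ideal.span {ϖ})
    (h2 : IsUnit (2 : O)) (q : ι → ℕ) (hq : ∀ i, (q i : O) - 1 ∈ maximalIdeal O) :
    (marker q : CoordRing O ι σ) ∉ specialIdeal ι σ ϖ := by
  classical
  have := Fintype.ofFinite σ
  let T : MvPowerSeries (Fin 1) O := MvPowerSeries.X 0
  have hT : T ∈ maximalIdeal (MvPowerSeries (Fin 1) O) := by
    simp [T, mem_maximalIdeal, MvPowerSeries.isUnit_iff_constantCoeff]
  let e := Fintype.equivFin (Coord ι σ)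
  let x : Coord ι σ → MvPowerSeries (Fin 1) O :=
    Sum.elim (fun ij => if ij.2 = 3 then T else 0) fun _ => 0
  have hx : ∀ k, x (e.symm k) ∈ maximalIdeal (MvPowerSeries (Fin 1) O) := fun k => by
    rcases e.symm k with ⟨i, j⟩ | s
    · show (if j = 3 then T else 0) ∈ _
      split
      · exact hT
      · exact zero_mem _
    · exact zero_mem _
  let ψ : CoordRing O ι σ →+* MvPowerSeries (Fin 1) (ResidueField O) :=
    (MvPowerSeries.map (residue O)).comp
      ((TangentBound.evalHom (fun k => x (e.symm k)) hx).comp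
        (MvPowerSeries.renameEquiv O e).toAlgHom).toRingHom
  have hψ : ∀ i j, ψ (coord i j) = MvPowerSeries.map (residue O) (x (Sum.inl (i, j))) := by
    intro i j
    simp [ψ, coord, MvPowerSeries.renameEquiv, TangentBound.evalHom_X]
  have hψC : ψ (MvPowerSeries.C ϖ) = 0 := by
    have h : (MvPowerSeries.C ϖ : CoordRing O ι σ) = algebraMap O _ ϖ := rfl
    simp only [ψ, RingHom.comp_apply, h, AlgHom.toRingHom_eq_coe, RingHom.coe_coe,
      AlgHom.commutes]
    rw [MvPowerSeries.algebraMap_apply, Algebra.algebraMap_self, RingHom.id_apply,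
      MvPowerSeries.map_C, show residue O ϖ = 0 from Ideal.Quotient.eq_zero_iff_mem.mpr
        (hϖ ▸ Ideal.mem_span_singleton_self ϖ), map_zero]
  have hsp : specialIdeal ι σ ϖ ≤ RingHom.ker ψ := by
    refine Ideal.span_le.mpr ?_
    rintro y (rfl | ⟨i, rfl | rfl | rfl⟩) <;> rw [SetLike.mem_coe, RingHom.mem_ker]
    · exact hψC
    all_goals simp [hψ, x]
  intro hmem
  have h0 : ψ (marker q) = 0 := hsp hmem
  have hq' : ∀ i, ψ (q i : CoordRing O ι σ) = 1 := fun i => by
    rw [map_natCast, ← map_natCast (MvPowerSeries.C (R := ResidueField O) (σ := Fin 1)),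
      ← map_natCast (residue O), ← map_one (MvPowerSeries.C (R := ResidueField O) (σ := Fin 1))]
    congr 1
    rw [← map_one (residue O)]
    exact Ideal.Quotient.eq.mpr (hq i)
  set Y : MvPowerSeries (Fin 1) (ResidueField O) := MvPowerSeries.X 0
  have hY : MvPowerSeries.map (residue O) T = Y := MvPowerSeries.map_X _ _
  have h4 : (4 : MvPowerSeries (Fin 1) (ResidueField O)) ≠ 0 := by
    have h22 : IsUnit ((2 : O) * 2) := h2.mul h2
    rw [show (2 : O) * 2 = ((4 : ℕ) : O) by norm_num] at h22
    have := ((h22.map (residue O)).map (MvPowerSeries.C (σ := Fin 1))).ne_zero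
    rwa [map_natCast, map_natCast, Nat.cast_ofNat] at this
  rw [marker, map_prod, Finset.prod_eq_zero_iff] at h0
  obtain ⟨i, -, hi⟩ := h0
  simp only [map_sub, map_mul, map_add, map_pow, map_one, map_ofNat, hq', hψ, x, Sum.elim_inl,
    if_pos, show ¬ ((4 : Fin 6) = 3) by decide, show ¬ ((5 : Fin 6) = 3) by decide, if_false,
    map_zero, mul_zero, add_zero, hY] at hi
  have : (4 : MvPowerSeries (Fin 1) (ResidueField O)) * (Y * Y) = 0 := by linear_combination hi
  rcases mul_eq_zero.mp this with h | h
  · exact h4 h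
  · have hY0 : Y ≠ 0 := fun h => by
      have := congrArg (MvPowerSeries.coeff (Finsupp.single 0 1)) h
      rw [MvPowerSeries.coeff_index_single_self_X, map_zero] at this
      exact one_ne_zero this
    exact mul_ne_zero hY0 hY0 h

end Fermat.Agent.LevelLowering.Avoid
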