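import Fermat.Agent.LevelLowering.Avoid.EigenValues
import Fermat.Agent.LevelLowering.Avoid.LocalVanish
import Fermat.Agent.LevelLowering.Avoid.Coordinates
import Fermat.Agent.LevelLowering.Avoid.Marker
import Fermat.Agent.TWTwist.Diagonal
import Fermat.Agent.TWAssembly.BaseChange
import Fermat.Agent.Lifting.UnramifiedStep

/-!
# Ihara avoidance: the relations at a point which is not unipotent at `q`

Let `ρ` be residually trivial on inertia at `q ≠ p`, `p ∣ q - 1`, with cyclotomic determinant.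
An element `s` of inertia moving a `p`-th root of `q` generates the image of inertia.  If `ρ` is
not unipotent at `q`, then `ρ s` has eigenvalues `l, l⁻¹` with `l ≠ 1` a root of unity of order
dividing the `p`-part of `q - 1`, and commutes with Frobenius.
-/

set_option autoImplicit false

noncomputable section

open IsLocalRing Polynomial Module
open Fermat.Agent.GaloisBasics Fermat.Agent.LocalInertia Fermat.Agent.TangentBound
open Fermat.Agent.RepTheory (matRep matRep_apply det_matRep trace_matRep)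

namespace Fermat.Agent.LevelLowering.Avoid

section Entries

variable {A : Type} [CommRing A]

theorem map_traceFreeEntry {B : Type} [CommRing B] (φ : A →+* B) (h2 : IsUnit (2 : A))
    (M : Mat2 A) (j : Fin 3) : φ (traceFreeEntry M j) = traceFreeEntry (M.map φ) j := by
  have h : φ (Ring.inverse 2) = Ring.inverse 2 := by
    have h2' : IsUnit (2 : B) := by simpa [map_ofNat] using h2.map φ
    refine h2'.mul_left_cancel ?_
    rw [Ring.mul_inverse_cancel _ h2']
    have := congrArg φ (Ring.mul_inverse_cancel _ h2)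
    rwa [map_mul, map_one, map_ofNat] at this
  fin_cases j <;> simp [traceFreeEntry, h]

/-- Four times `a² + bc` is the discriminant. -/
theorem four_mul_traceFreeEntry (h2 : IsUnit (2 : A)) (M : Mat2 A) :
    4 * (traceFreeEntry M 0 * traceFreeEntry M 0 + traceFreeEntry M 1 * traceFreeEntry M 2) =
      M.trace ^ 2 - 4 * M.det := by
  have h := Ring.mul_inverse_cancel _ h2
  simp [traceFreeEntry, Matrix.trace_fin_two, Matrix.det_fin_two]
  linear_combination (M 0 0 - M 1 1) ^ 2 * (2 * Ring.inverse (2 : A) + 1) * h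

/-- The minors of commuting matrices vanish. -/
theorem minors_eq_zero_of_commute {S F : Mat2 A} (h : F * S = S * F) :
    let X := traceFreeEntry S
    let Y := traceFreeEntry F
    X 0 * Y 1 - X 1 * Y 0 = 0 ∧ X 0 * Y 2 - X 2 * Y 0 = 0 ∧ X 1 * Y 2 - X 2 * Y 1 = 0 := by
  have h00 := congrFun (congrFun h 0) 0
  have h01 := congrFun (congrFun h 0) 1
  have h10 := congrFun (congrFun h 1) 0
  simp [Matrix.mul_apply, Fin.sum_univ_two] at h00 h01 h10
  simp [traceFreeEntry]
  refine ⟨?_, ?_, ?_⟩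
  · linear_combination -Ring.inverse (2 : A) * h01
  · linear_combination Ring.inverse (2 : A) * h10
  · linear_combination -h00

/-- The factor of the marker vanishes when the trace squared is `(q + 1)²`. -/
theorem markerFactor_eq_zero (h2 : IsUnit (2 : A)) {q : A} {M : Mat2 A} (hdet : M.det = q)
    (htr : M.trace ^ 2 = (q + 1) ^ 2) :
    4 * (q + traceFreeEntry M 0 * traceFreeEntry M 0 + traceFreeEntry M 1 * traceFreeEntry M 2) -
      (q + 1) ^ 2 = 0 := by
  linear_combination four_mul_traceFreeEntry h2 M + htr - 4 * hdet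

end Entries

section Algebra

variable {A : Type} [CommRing A] [IsLocalRing A]

/-- Powers of a matrix congruent to one of determinant one, with the same expansion of the powers
of its eigenvalues. -/
theorem exists_pow_coeff {L : Type} [CommRing L] (g : A →+* L) {S : Mat2 A}
    (hS : S.map (residue A) = 1) (hdet : S.det = 1) {l l' : L} (hll : l * l' = 1)
    (hsum : l + l' = g S.trace) (n : ℕ) :
    ∃ u v : A, S ^ n = u • S + v • 1 ∧ residue A u = n ∧
      g u * l + g v = l ^ n ∧ g u * l' + g v = l' ^ n := by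
  induction n with
  | zero => exact ⟨0, 1, by simp, by simp, by simp, by simp⟩
  | succ n ih =>
    obtain ⟨u, v, e, hu, hl, hl'⟩ := ih
    have ht : residue A S.trace = 2 := by
      have := congrArg Matrix.trace hS
      simp only [Matrix.trace_fin_two, Matrix.map_apply] at this
      rw [Matrix.trace_fin_two, map_add, this]
      simp [one_add_one_eq_two]
    have hv : residue A v = 1 - n := by
      have := congrFun (congrFun (congrArg (residue A).mapMatrix e) 0) 0
      rw [map_pow, RingHom.mapMatrix_apply, hS, one_pow, RingHom.mapMatrix_apply,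
        Matrix.map_apply] at this
      have h00 : residue A (S 0 0) = 1 := by simpa using congrFun (congrFun hS 0) 0
      simp [hu, h00] at this
      linear_combination -this
    refine ⟨S.trace * u + v, -u, ?_, ?_, ?_, ?_⟩
    · have h2 : S * S = S.trace • S - (1 : Mat2 A) := by
        rw [← one_smul A (1 : Mat2 A), ← hdet]
        ext i j
        fin_cases i <;> fin_cases j <;>
          simp [Matrix.mul_apply, Fin.sum_univ_two, Matrix.trace_fin_two, Matrix.det_fin_two] <;>
          ring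
      rw [pow_succ, e, add_mul, smul_mul_assoc, smul_mul_assoc, one_mul, h2, smul_sub, smul_smul,
        add_smul, neg_smul, mul_comm u]
      abel
    · rw [map_add, map_mul, ht, hu, hv]
      push_cast
      ring
    · rw [map_add, map_mul, map_neg, ← hsum, pow_succ, ← hl]
      linear_combination g u * hll
    · rw [map_add, map_mul, map_neg, ← hsum, pow_succ, ← hl']
      linear_combination g u * hll

/-- A matrix congruent to one killed by an exponent prime to the residue characteristic. -/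
theorem matrix_eq_one_of_pow_eq_one {p m : ℕ} (hp : p.Prime) (hpA : (p : A) ∈ maximalIdeal A)
    (hm : ¬ p ∣ m) {Y : Mat2 A} (hY : Y.map (residue A) = 1) (h : Y ^ m = 1) : Y = 1 := by
  set G := ∑ i ∈ Finset.range m, Y ^ i with hG
  have hu : IsUnit G := by
    rw [Matrix.isUnit_iff_isUnit_det, ← residue_ne_zero_iff_isUnit, RingHom.map_det]
    have e : (residue A).mapMatrix G = (m : ResidueField A) • (1 : Mat2 (ResidueField A)) := by
      rw [hG, map_sum]
      simp only [map_pow, RingHom.mapMatrix_apply, hY, one_pow, Finset.sum_const,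
        Finset.card_range, Nat.cast_smul_eq_nsmul]
    rw [e, Matrix.det_smul, Matrix.det_one, mul_one]
    refine pow_ne_zero _ ?_
    rw [← map_natCast (residue A), residue_ne_zero_iff_isUnit]
    exact TWTwist.isUnit_natCast_of_not_dvd hp hpA hm
  exact sub_eq_zero.1 (hu.mul_right_eq_zero.1 (by rw [hG, geom_sum_mul, h, sub_self]))

/-- A matrix congruent to one, of determinant one and trace other than two, conjugate to its
`q`-th power. -/
theorem eigen_relations_of_conj [IsDomain A] {O : Type} [CommRing O] [IsDomain O] [Algebra O A]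
    (hinj : Function.Injective (algebraMap O A)) (h2O : IsUnit (2 : O)) {p v q : ℕ} (hp : p.Prime) (hp2 : p ≠ 2)
    (hpA : (p : A) ∈ maximalIdeal A) {ζ : O} (hζ : IsPrimitiveRoot ζ (p ^ v)) (hq : q.Prime)
    (hq1 : p ∣ q - 1) (hv : (q - 1).factorization p ≤ v) {S F F' : Mat2 A}
    (hS : S.map (residue A) = 1) (hdet : S.det = 1) (htr : S.trace ≠ 2) (hF : F * F' = 1)
    (hconj : F * S = S ^ q * F) :
    (∃ c₀ ∈ eigenValues O p v,
      traceFreeEntry S 0 * traceFreeEntry S 0 + traceFreeEntry S 1 * traceFreeEntry S 2 =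
        algebraMap O A c₀) ∧ F * S = S * F := by
  have h2 := isUnit_two_of_mem hp hp2 hpA
  have h2k : (2 : ResidueField A) ≠ 0 := by simpa [map_ofNat] using (h2.map (residue A)).ne_zero
  let L := AlgebraicClosure (FractionRing A)
  let g : A →+* L := (algebraMap (FractionRing A) L).comp (algebraMap A (FractionRing A))
  have hg : Function.Injective g :=
    (algebraMap (FractionRing A) L).injective.comp (IsFractionRing.injective A (FractionRing A))
  have h2L : (2 : L) ≠ 0 := fun h => h2.ne_zero (hg (by rw [map_ofNat, h, map_zero]))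
  set t := S.trace with ht
  obtain ⟨r, hr⟩ := IsAlgClosed.exists_eq_mul_self (g (t ^ 2 - 4))
  simp only [map_sub, map_pow, map_ofNat] at hr
  set l := (g t + r) / 2 with hl
  set l' := (g t - r) / 2 with hl'
  have hsum : l + l' = g t := by
    rw [hl, hl', ← add_div, div_eq_iff h2L]
    ring
  have hll : l * l' = 1 := by
    rw [hl, hl', div_mul_div_comm, div_eq_iff (mul_ne_zero h2L h2L)]
    linear_combination hr
  have hl0 : l ≠ 0 := left_ne_zero_of_mul_eq_one hll
  have hrt : residue A t = 2 := by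
    have := congrArg Matrix.trace hS
    simp only [Matrix.trace_fin_two, Matrix.map_apply] at this
    rw [ht, Matrix.trace_fin_two, map_add, this]
    simp [one_add_one_eq_two]
  have hne : l ≠ l' := fun e => by
    have h0 : (t - 2) * (t + 2) = 0 := hg (by
      rw [map_zero, map_mul, map_sub, map_add, map_ofNat, ← hsum]
      rw [← e] at hll ⊢
      linear_combination 4 * hll)
    rcases mul_eq_zero.1 h0 with h0 | h0
    · exact htr (sub_eq_zero.1 h0)
    · have := congrArg (residue A) h0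
      rw [map_add, hrt, map_zero, map_ofNat, ← two_mul] at this
      exact mul_ne_zero h2k h2k this
  -- `l ^ n = 1` if and only if `S ^ n = 1`
  have hpow_one : ∀ n : ℕ, l ^ n = 1 → S ^ n = 1 ∧ (n : ResidueField A) = 0 := fun n hn => by
    obtain ⟨a, b, e, ha, hal, hal'⟩ := exists_pow_coeff g hS hdet hll hsum n
    have hn' : l' ^ n = 1 := by rw [← one_mul (l' ^ n), ← hn, ← mul_pow, hll, one_pow, hn]
    rw [hn] at hal
    rw [hn'] at hal'
    have ha0 : a = 0 := hg (by
      rw [map_zero]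
      exact (mul_eq_zero.1 (show g a * (l - l') = 0 by linear_combination hal - hal')).resolve_right
        (sub_ne_zero.2 hne))
    subst ha0
    have hb : b = 1 := hg (by simpa using hal)
    exact ⟨by simp [e, hb], by rw [← ha, map_zero]⟩
  have htrace : ∀ n : ℕ, g (S ^ n).trace = l ^ n + l' ^ n := fun n => by
    obtain ⟨a, b, e, -, hal, hal'⟩ := exists_pow_coeff g hS hdet hll hsum n
    rw [e, Matrix.trace_add, Matrix.trace_smul, Matrix.trace_smul, Matrix.trace_one, ← hal,
      ← hal', ← ht, Fintype.card_fin, smul_eq_mul, smul_eq_mul, map_add, map_mul, map_mul, ← hsum, Nat.cast_ofNat, map_ofNat]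
    ring
  -- the eigenvalue
  have hF' : F' * F = 1 := mul_eq_one_comm.1 hF
  have htrq : (S ^ q).trace = t := by
    calc (S ^ q).trace = (F * S * F').trace := by rw [hconj, mul_assoc, hF, mul_one]
      _ = t := by rw [Matrix.trace_mul_cycle, hF', one_mul]
  have hqk : (q : ResidueField A) = 1 := by
    obtain ⟨c, hc⟩ := hq1
    rw [show q = p * c + 1 by have := hq.two_le; omega]
    push_cast
    rw [show (p : ResidueField A) = 0 by rw [← map_natCast (residue A), residue_eq_zero_iff]; exact hpA]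
    ring
  have hlq : l ^ (q - 1) = 1 := by
    have e := htrace q
    rw [htrq, ← hsum] at e
    have hqq : l ^ q * l' ^ q = 1 := by rw [← mul_pow, hll, one_pow]
    have e' : (l ^ q - l) * (l ^ q - l') = 0 := by
      linear_combination (-l ^ q) * e + hll - hqq
    rcases mul_eq_zero.1 e' with h | h <;> rw [sub_eq_zero] at h
    · refine mul_left_cancel₀ hl0 ?_
      rw [← pow_succ', Nat.sub_add_cancel hq.one_le, h, mul_one]
    · have h1 : l ^ (q + 1) = 1 := by rw [pow_succ', h, hll]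
      refine absurd ?_ h2k
      have := (hpow_one _ h1).2
      rwa [Nat.cast_add, hqk, Nat.cast_one, one_add_one_eq_two] at this
  have hSq := (hpow_one _ hlq).1
  have hcomm : F * S = S * F := by
    rw [hconj, show q = q - 1 + 1 by have := hq.two_le; omega, pow_succ, hSq, one_mul]
  refine ⟨?_, hcomm⟩
  set k := (q - 1).factorization p with hk
  have hlk : l ^ p ^ v = 1 := by
    suffices hlk : l ^ p ^ k = 1 by
      rw [← Nat.add_sub_cancel' hv, pow_add, pow_mul, hlk, one_pow]
    have hY : S ^ p ^ k = 1 := by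
      refine matrix_eq_one_of_pow_eq_one hp hpA
        (Nat.not_dvd_ordCompl hp (n := q - 1) (by have := hq.two_le; omega)) ?_ ?_
      · change (residue A).mapMatrix (S ^ p ^ k) = 1
        rw [map_pow, RingHom.mapMatrix_apply, hS, one_pow]
      · rw [← pow_mul, hk, Nat.ordProj_mul_ordCompl_eq_self, hSq]
    have e := htrace (p ^ k)
    rw [hY, Matrix.trace_one, Fintype.card_fin] at e
    have hkk : l ^ p ^ k * l' ^ p ^ k = 1 := by rw [← mul_pow, hll, one_pow]
    have : (l ^ p ^ k - 1) ^ 2 = 0 := by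
      push_cast [map_ofNat] at e
      linear_combination (-(l ^ p ^ k)) * e - hkk
    exact sub_eq_zero.1 (pow_eq_zero_iff two_ne_zero |>.1 this)
  have : NeZero (p ^ v) := ⟨pow_ne_zero v hp.ne_zero⟩
  obtain ⟨i, -, hi⟩ := (hζ.map_of_injective (f := g.comp (algebraMap O A))
    (hg.comp hinj)).eq_pow_of_pow_eq_one hlk
  set lo := ζ ^ i with hlo
  have hlo1 : lo ^ p ^ v = 1 := by rw [hlo, ← pow_mul, mul_comm, pow_mul, hζ.pow_eq_one, one_pow]
  have hlg : g (algebraMap O A lo) = l := by rw [hlo, map_pow, map_pow]; exact hi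
  have hlg' : g (algebraMap O A (lo ^ (p ^ v - 1))) = l' := by
    refine mul_left_cancel₀ hl0 ?_
    rw [hll, map_pow, map_pow, hlg, ← pow_succ', Nat.sub_add_cancel (Nat.one_le_pow v p hp.pos),
      hlk]
  refine ⟨_, (mem_eigenValues hp.ne_zero).2 ⟨lo, hlo1, fun h => hne ?_, rfl⟩, hg ?_⟩
  · have e1 : l = 1 := by rw [← hlg, h, map_one, map_one]
    rw [e1, one_mul] at hll
    rw [e1, hll]
  · have e4 := congrArg g (four_mul_traceFreeEntry h2 S)
    have hinv : g (algebraMap O A (Ring.inverse 2)) * 2 = 1 := by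
      rw [← map_ofNat (g.comp (algebraMap O A)) 2]
      show (g.comp (algebraMap O A)) _ * _ = 1
      rw [← map_mul, Ring.inverse_mul_cancel _ h2O, map_one]
    rw [hdet, mul_one, map_mul, map_sub, map_pow, map_ofNat, ← hsum] at e4
    refine mul_left_cancel₀ (show (4 : L) ≠ 0 by
      rw [show (4 : L) = 2 * 2 by norm_num]; exact mul_ne_zero h2L h2L) (e4.trans ?_)
    rw [map_pow, map_mul, map_sub, map_pow, map_mul, map_sub, hlg, hlg']
    linear_combination (-(l - l') ^ 2 * (g (algebraMap O A (Ring.inverse 2)) * 2 + 1)) * hinv +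
      4 * hll

end Algebra

section Galois

/-- The image of inertia under a homomorphism of finite level and `p`-power exponent is generated
by the image of an element moving a `p`-th root of `q`. -/
theorem exists_map_eq_pow_of_movesRoot {M : Type*} [Monoid M] (h : GalQ →* M) {p q k : ℕ}
    (hp : p.Prime) (hq : q.Prime) (hqp : q ≠ p) {P : ValuationSubring Qbar}
    (hP : P.LiesOverPrime q)
    (hlev : ∃ F : IntermediateField ℚ Qbar, FiniteDimensional ℚ F ∧
      ∀ σ : GalQ, (∀ x ∈ F, σ x = x) → h σ = 1)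
    (hexp : ∀ σ ∈ P.inertiaSubgroupIn ℚ, h σ ^ p ^ k = 1)
    {s : GalQ} (hs : MovesRoot P p q s) {σ : GalQ} (hσ : σ ∈ P.inertiaSubgroupIn ℚ) :
    ∃ j : ℕ, h σ = h s ^ j := by
  obtain ⟨hsI, π, hπ, hsπ⟩ := hs
  obtain ⟨F₀, hF₀, hlev⟩ := hlev
  have : FiniteDimensional ℚ ↥(IntermediateField.adjoin ℚ {π}) :=
    IntermediateField.adjoin.finiteDimensional (Algebra.IsAlgebraic.isAlgebraic π).isIntegral
  obtain ⟨F, hle, hF, hFn⟩ :=
    TWLocal.exists_normal_level (F₀ ⊔ IntermediateField.adjoin ℚ {π})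
  have hπF : π ∈ F := hle ((le_sup_right : IntermediateField.adjoin ℚ {π} ≤ _)
    (IntermediateField.mem_adjoin_simple_self ℚ π))
  obtain ⟨t, ht, hgen⟩ := exists_inertia_generator hq hP F
  have hquot : ∀ u ∈ P.inertiaSubgroupIn ℚ, ∀ i r : ℕ,
      (∀ x ∈ F, (((t ^ i)⁻¹ * u) ^ q ^ r) x = x) → h u = h t ^ i := by
    intro u hu i r hfix
    have hw : h ((t ^ i)⁻¹ * u) = 1 := by
      refine TWLocal.eq_one_of_pow_eq_one_of_coprime (((Nat.coprime_primes hq hp).2 hqp).pow r k) ?_
        (hexp _ (mul_mem (inv_mem (pow_mem ht i)) hu))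
      rw [← map_pow]
      exact hlev _ fun x hx => hfix x (hle ((le_sup_left : F₀ ≤ _) hx))
    calc h u = h (t ^ i * ((t ^ i)⁻¹ * u)) := by rw [mul_inv_cancel_left]
      _ = h t ^ i := by rw [map_mul, hw, mul_one, map_pow]
  obtain ⟨i, r, hi⟩ := hgen s hsI
  have hqp' : ¬ q ∣ p := fun e => hqp ((Nat.prime_dvd_prime_iff_eq hq hp).1 e)
  have hμ : ∀ u : GalQ, (u π / π) ^ p = 1 := fun u => by
    rw [div_pow, ← map_pow, hπ, map_natCast, div_self (Nat.cast_ne_zero.2 hq.ne_zero)]
  have hπ0 : π ≠ 0 := by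
    rintro rfl
    exact hsπ (map_zero s)
  have hiter : ∀ u ∈ P.inertiaSubgroupIn ℚ, ∀ n : ℕ, (u ^ n) π = (u π / π) ^ n * π := by
    intro u hu n
    induction n with
    | zero => simp
    | succ n ih =>
      rw [pow_succ', AlgEquiv.mul_apply, ih, map_mul, map_pow,
        inertia_apply_of_pow_eq_one hP hq hqp' hu (hμ u), pow_succ, mul_assoc,
        div_mul_cancel₀ _ hπ0]
  have hwI : (t ^ i)⁻¹ * s ∈ P.inertiaSubgroupIn ℚ := mul_mem (inv_mem (pow_mem ht i)) hsI
  have hwπ : ((t ^ i)⁻¹ * s) π = π := by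
    have h1 := hi π hπF
    rw [hiter _ hwI] at h1
    exact (div_eq_one_iff_eq hπ0).1 (TWLocal.eq_one_of_pow_eq_one_of_coprime
      (((Nat.coprime_primes hq hp).2 hqp).pow_left r)
      ((mul_left_eq_self₀.1 h1).resolve_right hπ0) (hμ _))
  have hicop : i.Coprime (p ^ k) := by
    refine Nat.Coprime.pow_right k (Nat.Coprime.symm (hp.coprime_iff_not_dvd.mpr ?_))
    rintro ⟨i', rfl⟩
    refine hsπ ?_
    conv_lhs => rw [← mul_inv_cancel_left (t ^ (p * i')) s]
    rw [AlgEquiv.mul_apply, hwπ, hiter t ht, pow_mul, hμ t, one_pow, one_mul]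
  obtain ⟨i', hi'⟩ : ∃ i' : ℕ, i * i' ≡ 1 [MOD p ^ k] := by
    refine ⟨((ZMod.unitOfCoprime i hicop)⁻¹ : (ZMod (p ^ k))ˣ).1.val, ?_⟩
    rw [← ZMod.natCast_eq_natCast_iff, Nat.cast_mul, Nat.cast_one]
    have : NeZero (p ^ k) := ⟨pow_ne_zero _ hp.ne_zero⟩
    rw [ZMod.natCast_zmod_val]
    exact Units.mul_inv (ZMod.unitOfCoprime i hicop)
  obtain ⟨j, r', hj⟩ := hgen σ hσ
  refine ⟨i' * j, ?_⟩
  rw [hquot σ hσ j r' hj, hquot s hsI i r hi, ← pow_mul, ← mul_assoc, pow_mul]
  congr 1
  conv_lhs => rw [← pow_one (h t)]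
  exact (pow_eq_pow_of_modEq hi' (hexp t ht)).symm

variable {A : Type} [CommRing A] [IsLocalRing A] [IsHausdorff (maximalIdeal A) A]
  {ρ : GaloisRepAdic A} (b : Basis (Fin 2) A ρ.V) {p q : ℕ} {P : ValuationSubring Qbar}

/-- Matrices are determined by their reductions. -/
theorem matrix_ext_of_quotient {Y Z : Mat2 A} (h : ∀ n : ℕ,
    (Ideal.Quotient.mk (maximalIdeal A ^ (n + 1))).mapMatrix Y =
      (Ideal.Quotient.mk (maximalIdeal A ^ (n + 1))).mapMatrix Z) : Y = Z := by
  ext i j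
  refine sub_eq_zero.mp (TWTwist.eq_zero_of_forall_mem_pow fun n => ?_)
  have := congrFun (congrFun (h n) i) j
  exact Ideal.pow_le_pow_right (Nat.le_succ n) (Ideal.Quotient.eq.mp this)

/-- The determinant of a Frobenius at `q`. -/
theorem det_frobenius_eq (hp : p.Prime) (hq : q.Prime) (hqp : q ≠ p)
    (hdet : ρ.DetIsCyclotomic p) (hP : P.LiesOverPrime q) {f : GalQ}
    (hf : P.IsFrobeniusAt f q) : LinearMap.det (ρ.ρ f) = q :=
  sub_eq_zero.mp (TWTwist.eq_zero_of_forall_mem_pow fun n =>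
    (Ideal.span_singleton_le_iff_mem _).mpr (Ideal.pow_mem_pow hdet.1 n)
      (Lifting.det_frobenius_sub_mem hdet hp hq hqp hP hf n))

variable (hp : p.Prime) (hq : q.Prime) (hqp : q ≠ p) (hdet : ρ.DetIsCyclotomic p)
  (hP : P.LiesOverPrime q)
  (hI : ∀ σ ∈ P.inertiaSubgroupIn ℚ, (matRep b ρ.ρ σ).map (residue A) = 1)

include hdet hI in
omit [IsHausdorff (maximalIdeal A) A] in
theorem quotient_pow_eq_one (n : ℕ) (σ : GalQ) (hσ : σ ∈ P.inertiaSubgroupIn ℚ) :
    (((Ideal.Quotient.mk (maximalIdeal A ^ (n + 1))).mapMatrix).toMonoidHom.comp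
      (matRep b ρ.ρ)) σ ^ p ^ n = 1 := by
  have h1 : (matRep b ρ.ρ σ).map (Ideal.Quotient.mk (maximalIdeal A)) = 1 := hI σ hσ
  have h2 := TWTwist.pow_prime_pow_sub_one_mem hdet.1 h1 n
  change ((Ideal.Quotient.mk (maximalIdeal A ^ (n + 1))).mapMatrix (matRep b ρ.ρ σ)) ^ p ^ n = 1
  rw [← map_pow]
  exact h2

include hp hq hqp hdet hP hI in
theorem frobenius_conj {f : GalQ} (hf : P.IsFrobeniusAt f q) {σ : GalQ}
    (hσ : σ ∈ P.inertiaSubgroupIn ℚ) :
    matRep b ρ.ρ f * matRep b ρ.ρ σ = matRep b ρ.ρ σ ^ q * matRep b ρ.ρ f := by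
  have h : matRep b ρ.ρ (f * σ * f⁻¹) = matRep b ρ.ρ σ ^ q := by
    refine matrix_ext_of_quotient fun n => ?_
    obtain ⟨w, k, hw, hwk, he⟩ := exists_map_conj_eq
      (((Ideal.Quotient.mk (maximalIdeal A ^ (n + 1))).mapMatrix).toMonoidHom.comp
        (matRep b ρ.ρ)) hq hP (TWTwist.exists_level_quotient ρ b (n + 1)) hf hσ
    have hw1 := TWLocal.eq_one_of_pow_eq_one_of_coprime (((Nat.coprime_primes hq hp).2 hqp).pow k n) hwk
      (quotient_pow_eq_one b hdet hI n w
        (wildInertia_le_inertiaSubgroupIn hw))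
    rw [hw1, one_mul] at he
    rw [map_pow]
    exact he
  rw [← h, ← map_mul, ← map_mul, inv_mul_cancel_right]

include hp hq hqp hdet hP hI in
/-- If an element moving a `p`-th root of `q` has trace two, `ρ` is unipotent at `q`. -/
theorem isUnipotentOnInertiaAt_of_trace_eq_two {s : GalQ} (hs : MovesRoot P p q s)
    (htr : (matRep b ρ.ρ s).trace = 2) : ρ.IsUnipotentOnInertiaAt q := by
  have hdet1 : ∀ {P' : ValuationSubring Qbar}, P'.LiesOverPrime q →
      ∀ σ ∈ P'.inertiaSubgroupIn ℚ, (matRep b ρ.ρ σ).det = 1 := fun hP' σ hσ => by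
    rw [det_matRep]
    exact TWTwist.det_eq_one_of_detIsCyclotomic hp hq hqp hdet hP' hσ
  have key : ∀ σ ∈ P.inertiaSubgroupIn ℚ, (matRep b ρ.ρ σ).trace = 2 := by
    intro σ hσ
    refine sub_eq_zero.mp (TWTwist.eq_zero_of_forall_mem_pow fun n => ?_)
    refine Ideal.pow_le_pow_right (Nat.le_succ n) ?_
    obtain ⟨j, hj⟩ := exists_map_eq_pow_of_movesRoot _ hp hq hqp hP
      (TWTwist.exists_level_quotient ρ b (n + 1)) (quotient_pow_eq_one b hdet hI n)
      hs hσ
    obtain ⟨u, v, e, -, he, -⟩ := exists_pow_coeff (RingHom.id A) (hI s hs.1) (hdet1 hP s hs.1)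
      (one_mul 1) (by rw [RingHom.id_apply, htr, one_add_one_eq_two]) j
    have htj : (matRep b ρ.ρ s ^ j).trace = 2 := by
      rw [e, Matrix.trace_add, Matrix.trace_smul, Matrix.trace_smul, Matrix.trace_one, htr,
        Fintype.card_fin, smul_eq_mul, smul_eq_mul, Nat.cast_ofNat]
      simp only [RingHom.id_apply, mul_one, one_pow] at he
      linear_combination 2 * he
    rw [← Ideal.Quotient.eq, ← htj, AddMonoidHom.map_trace, AddMonoidHom.map_trace]
    have hj' : (Ideal.Quotient.mk (maximalIdeal A ^ (n + 1))).mapMatrix (matRep b ρ.ρ σ) =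
        (Ideal.Quotient.mk (maximalIdeal A ^ (n + 1))).mapMatrix (matRep b ρ.ρ s ^ j) := by
      rw [map_pow]
      exact hj
    exact congrArg Matrix.trace hj'
  intro P' hP' σ hσ
  obtain ⟨g, rfl⟩ := exists_smul_eq hP hP' hq
  have hmem : g⁻¹ * σ * g ∈ P.inertiaSubgroupIn ℚ := by
    rw [← inertiaSubgroupIn_smul_iff (g⁻¹ * σ * g) g]
    simpa [mul_assoc] using hσ
  have htσ : (matRep b ρ.ρ σ).trace = 2 := by
    rw [← key _ hmem, map_mul, map_mul, Matrix.trace_mul_cycle, ← map_mul (matRep b ρ.ρ) g g⁻¹,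
      mul_inv_cancel, map_one, one_mul]
  rw [← LinearMap.charpoly_toMatrix (ρ.ρ σ) b, Matrix.charpoly_fin_two]
  change X ^ 2 - C (matRep b ρ.ρ σ).trace * X + C (matRep b ρ.ρ σ).det = _
  rw [htσ, hdet1 hP' σ hσ, map_one, map_ofNat]
  ring

include hp hq hqp hdet hP hI in
/-- **The relations at a point which is not unipotent at `q`.** -/
theorem eigen_relations [IsDomain A] {O : Type} [CommRing O] [IsDomain O] [Algebra O A]
    (hinj : Function.Injective (algebraMap O A)) (h2O : IsUnit (2 : O)) (hp2 : p ≠ 2) {v : ℕ}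
    {ζ : O} (hζ : IsPrimitiveRoot ζ (p ^ v)) (hq1 : p ∣ q - 1)
    (hv : (q - 1).factorization p ≤ v) {f : GalQ} (hf : P.IsFrobeniusAt f q) {s : GalQ}
    (hs : MovesRoot P p q s) (hnu : ¬ ρ.IsUnipotentOnInertiaAt q) :
    let X := traceFreeEntry (LinearMap.toMatrix b b (ρ.ρ s))
    let Y := traceFreeEntry (LinearMap.toMatrix b b (ρ.ρ f))
    (∃ c₀ ∈ eigenValues O p v, X 0 * X 0 + X 1 * X 2 = algebraMap O A c₀) ∧
      X 0 * Y 1 - X 1 * Y 0 = 0 ∧ X 0 * Y 2 - X 2 * Y 0 = 0 ∧ X 1 * Y 2 - X 2 * Y 1 = 0 := by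
  obtain ⟨hc, hcomm⟩ := eigen_relations_of_conj hinj h2O hp hp2 hdet.1 hζ hq hq1 hv
    (S := matRep b ρ.ρ s) (F := matRep b ρ.ρ f) (F' := matRep b ρ.ρ f⁻¹) (hI s hs.1)
    (by rw [det_matRep]; exact TWTwist.det_eq_one_of_detIsCyclotomic hp hq hqp hdet hP hs.1)
    (fun h => hnu (isUnipotentOnInertiaAt_of_trace_eq_two b hp hq hqp hdet hP hI hs h))
    (by rw [← map_mul, mul_inv_cancel, map_one])
    (frobenius_conj b hp hq hqp hdet hP hI hf hs.1)
  exact ⟨hc, minors_eq_zero_of_commute hcomm⟩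

end Galois

section Universal

variable {𝒪 : Type} [CommRing 𝒪] [IsDomain 𝒪] [IsDiscreteValuationRing 𝒪]
  [IsAdicComplete (maximalIdeal 𝒪) 𝒪]
  {ρbar : ResidualGaloisRep (ResidueField 𝒪)}
  {𝒟 : ∀ ⦃A : Type⦄ [CommRing A] [IsLocalRing A] [Algebra 𝒪 A], GaloisRepAdic A → Prop}
  (DQ : GaloisRep.DeformationRingData 𝒪 ρbar 𝒟)
  {A : Type} [CommRing A] [IsDomain A] [IsLocalRing A] [IsHausdorff (maximalIdeal A) A]
  [Algebra 𝒪 A] (φ : DQ.R →ₐ[𝒪] A) (hφ : IsLocalHom (φ : DQ.R →+* A))
  {p q : ℕ} {P : ValuationSubring Qbar} {f : GalQ}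
  (hp : p.Prime) (hp2 : p ≠ 2) (hq : q.Prime) (hqp : q ≠ p) (hdet : DQ.ρ.DetIsCyclotomic p)
  (hP : P.LiesOverPrime q) (hf : P.IsFrobeniusAt f q)
  {ι σ : Type} (γ : CoordRing 𝒪 ι σ →ₐ[𝒪] DQ.R) (i : ι) {s : GalQ}
  (hγ : ∀ j, γ (coord i j) = localCoord DQ s f j)

omit [IsDomain A] [IsLocalRing A] [IsHausdorff (maximalIdeal A) A] in
include hγ in
theorem map_coord (h2 : IsUnit (2 : DQ.R)) :
    (∀ j : Fin 3, φ (γ (coord i (Fin.castAdd 3 j))) =
      traceFreeEntry ((univMat DQ s).map (φ : DQ.R →+* A)) j) ∧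
    ∀ j : Fin 3, φ (γ (coord i (Fin.natAdd 3 j))) =
      traceFreeEntry ((univMat DQ f).map (φ : DQ.R →+* A)) j := by
  refine ⟨fun j => ?_, fun j => ?_⟩
  · rw [hγ, localCoord, Fin.append_left]
    exact map_traceFreeEntry (φ : DQ.R →+* A) h2 _ j
  · rw [hγ, localCoord, Fin.append_right]
    exact map_traceFreeEntry (φ : DQ.R →+* A) h2 _ j

include hp hp2 hq hqp hdet hP hf hγ hφ in
/-- A point of a deformation ring which is not unipotent at `q` kills the relations at `q`. -/
theorem map_relations {v : ℕ} {ζ : 𝒪} (hζ : IsPrimitiveRoot ζ (p ^ v)) (hq1 : p ∣ q - 1)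
    (hv : (q - 1).factorization p ≤ v) (hinj : Function.Injective (algebraMap 𝒪 A))
    (hI : ∀ σ ∈ P.inertiaSubgroupIn ℚ, barMat DQ σ = 1) (hs : MovesRoot P p q s)
    (hnu : ¬ (DQ.ρ.baseChangeAlong (φ : DQ.R →+* A) hφ).IsUnipotentOnInertiaAt q) :
    φ (γ (∏ c ∈ eigenValues 𝒪 p v, eigenRel i c)) = 0 ∧ φ (γ (minorAB i)) = 0 ∧
      φ (γ (minorAC i)) = 0 ∧ φ (γ (minorBC i)) = 0 := by
  have hdetA := TWAssembly.detIsCyclotomic_baseChange (φ : DQ.R →+* A) hφ hdet
  have h2R := isUnit_two_of_mem hp hp2 hdet.1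
  have h2O : IsUnit (2 : 𝒪) := by
    refine isUnit_two_of_mem hp hp2 ((mem_maximalIdeal _).2 fun hu => ?_)
    have := (mem_maximalIdeal _).1 hdet.1
    rw [← map_natCast (algebraMap 𝒪 DQ.R)] at this
    exact this (hu.map _)
  obtain ⟨b', hb'⟩ :=
    exists_basis_adic_baseChangeAlong (φ : DQ.R →+* A) hφ DQ.ρ (univBasis DQ)
  have hb : ∀ τ, matRep b' (DQ.ρ.baseChangeAlong (φ : DQ.R →+* A) hφ).ρ τ =
      (univMat DQ τ).map (φ : DQ.R →+* A) := fun τ => hb' τ
  have hIA : ∀ τ ∈ P.inertiaSubgroupIn ℚ,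
      (matRep b' (DQ.ρ.baseChangeAlong (φ : DQ.R →+* A) hφ).ρ τ).map (residue A) = 1 := by
    intro τ hτ
    ext a c
    have h1 := congrFun (congrFun ((barMat_apply DQ τ).symm.trans (hI τ hτ)) a) c
    rw [Matrix.map_apply] at h1
    have h2 : univMat DQ τ a c - (1 : Mat2 DQ.R) a c ∈ maximalIdeal DQ.R := by
      rw [← resK_eq_zero_iff DQ.residue_surjective, map_sub, h1]
      rcases eq_or_ne a c with rfl | hac
      · simp
      · simp [Matrix.one_apply_ne hac]
    have h3 := map_nonunit (φ : DQ.R →+* A) _ h2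
    rw [map_sub, ← residue_eq_zero_iff, map_sub, sub_eq_zero] at h3
    rw [hb, Matrix.map_apply, Matrix.map_apply, h3]
    rcases eq_or_ne a c with rfl | hac
    · simp
    · simp [Matrix.one_apply_ne hac]
  obtain ⟨⟨c₀, hc₀, hc⟩, hAB, hAC, hBC⟩ := eigen_relations b' hp hq hqp hdetA hP hIA hinj h2O hp2
    hζ hq1 hv hf hs hnu
  obtain ⟨hX, hY⟩ := map_coord DQ φ γ i hγ h2R
  simp only [hb'] at hc hAB hAC hBC
  have e0 : φ (γ (coord i 0)) = _ := hX 0
  have e1 : φ (γ (coord i 1)) = _ := hX 1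
  have e2 : φ (γ (coord i 2)) = _ := hX 2
  have e3 : φ (γ (coord i 3)) = _ := hY 0
  have e4 : φ (γ (coord i 4)) = _ := hY 1
  have e5 : φ (γ (coord i 5)) = _ := hY 2
  refine ⟨?_, ?_, ?_, ?_⟩
  · rw [map_prod, map_prod]
    refine Finset.prod_eq_zero hc₀ ?_
    have hC : φ (γ (MvPowerSeries.C c₀)) = algebraMap 𝒪 A c₀ := by
      rw [show (MvPowerSeries.C c₀ : CoordRing 𝒪 ι σ) = algebraMap 𝒪 _ c₀ from rfl,
        AlgHom.commutes, AlgHom.commutes]
    simp only [eigenRel, map_sub, map_add, map_mul, e0, e1, e2, hC]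
    exact sub_eq_zero.2 hc
  · simp only [minorAB, map_sub, map_mul, e0, e1, e3, e4]; exact hAB
  · simp only [minorAC, map_sub, map_mul, e0, e2, e3, e5]; exact hAC
  · simp only [minorBC, map_sub, map_mul, e1, e2, e4, e5]; exact hBC

include hp hp2 hq hqp hdet hP hf hγ hφ in
omit [IsDomain A] in
/-- A point with `(tr Frob_q)² = (q + 1)²` kills the factor at `q` of the marker. -/
theorem map_markerFactor
    (htr : (DQ.ρ.baseChangeAlong (φ : DQ.R →+* A) hφ).trace f ^ 2 = ((q : A) + 1) ^ 2) :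
    φ (γ (4 * ((q : CoordRing 𝒪 ι σ) + coord i 3 * coord i 3 + coord i 4 * coord i 5) -
      ((q : CoordRing 𝒪 ι σ) + 1) ^ 2)) = 0 := by
  have hdetA := TWAssembly.detIsCyclotomic_baseChange (φ : DQ.R →+* A) hφ hdet
  obtain ⟨b', hb'⟩ :=
    exists_basis_adic_baseChangeAlong (φ : DQ.R →+* A) hφ DQ.ρ (univBasis DQ)
  have hb : matRep b' (DQ.ρ.baseChangeAlong (φ : DQ.R →+* A) hφ).ρ f =
      (univMat DQ f).map (φ : DQ.R →+* A) := hb' f
  obtain ⟨-, hY⟩ := map_coord DQ φ γ i hγ (isUnit_two_of_mem hp hp2 hdet.1)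
  have e3 : φ (γ (coord i 3)) = _ := hY 0
  have e4 : φ (γ (coord i 4)) = _ := hY 1
  have e5 : φ (γ (coord i 5)) = _ := hY 2
  simp only [map_sub, map_mul, map_add, map_pow, map_one, map_ofNat, map_natCast, e3, e4, e5]
  refine markerFactor_eq_zero (isUnit_two_of_mem hp hp2 hdetA.1) ?_ ?_
  · rw [← hb, det_matRep]
    exact det_frobenius_eq hp hq hqp hdetA hP hf
  · rw [← hb, trace_matRep]
    exact htr

include hp hp2 hq hqp hdet hP hf hγ hφ in
omit [IsDomain A] in
/-- A point with `(tr Frob_q)² = (q + 1)²` kills the marker. -/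
theorem map_marker_eq_zero [Fintype ι] (qs : ι → ℕ) (hqs : qs i = q)
    (htr : (DQ.ρ.baseChangeAlong (φ : DQ.R →+* A) hφ).trace f ^ 2 = ((q : A) + 1) ^ 2) :
    φ (γ (marker qs)) = 0 := by
  rw [marker, map_prod, map_prod]
  refine Finset.prod_eq_zero (Finset.mem_univ i) ?_
  rw [hqs]
  exact map_markerFactor DQ φ hφ hp hp2 hq hqp hdet hP hf γ i hγ htr

end Universal

end Fermat.Agent.LevelLowering.Avoid
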