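import Fermat.Agent.TWTwist.Points

/-!
# Ihara avoidance: vanishing on a module from vanishing at the points

An element of a reduced finite algebra acting on a torsion-free module acts as zero as soon as it
vanishes at every point of the image.
-/

set_option autoImplicit false

noncomputable section

open Polynomial

namespace Fermat.Agent.LevelLowering.Avoid

variable {O : Type} [CommRing O] [IsDomain O] [IsNoetherianRing O]
  {A : Type} [CommRing A] [Algebra O A] [IsReduced A] [Algebra.IsIntegral O A]
  {M : Type} [AddCommGroup M] [Module O M] [Module A M] [IsScalarTower O A M] [Module.Finite O M]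

omit [IsNoetherianRing O] [Module.Finite O M] in
/-- A nilpotent endomorphism coming from a reduced integral algebra is zero. -/
theorem lsmul_eq_zero_of_isNilpotent (htf : ∀ (c : O) (x : M), c • x = 0 → c = 0 ∨ x = 0) {z : A}
    (hz : IsNilpotent (Algebra.lsmul O O M z : Module.End O M)) :
    (Algebra.lsmul O O M z : Module.End O M) = 0 := by
  set φ : A →ₐ[O] Module.End O M := Algebra.lsmul O O M
  obtain ⟨P, hPm, hP⟩ := Algebra.IsIntegral.isIntegral (R := O) z
  change Polynomial.eval₂ (algebraMap O A) z P = 0 at hP
  rw [← aeval_def] at hP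
  obtain ⟨Q, hQ, hndvd⟩ := P.exists_eq_pow_rootMultiplicity_mul_and_not_dvd hPm.ne_zero (0 : O)
  set m := P.rootMultiplicity 0
  rw [map_zero, sub_zero] at hQ hndvd
  rw [hQ, map_mul, map_pow, aeval_X] at hP
  have hc : Q.coeff 0 ≠ 0 := fun h => hndvd (X_dvd_iff.2 h)
  have hred : z * aeval z Q = 0 := by
    refine IsReduced.eq_zero _ ⟨m + 1, ?_⟩
    rw [mul_pow, pow_succ z, pow_succ (aeval z Q), show
      z ^ m * z * (aeval z Q ^ m * aeval z Q) = z ^ m * aeval z Q * (z * aeval z Q ^ m) by ring,
      hP, zero_mul]
  set y := aeval z Q.divX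
  have hzy : algebraMap O A (Q.coeff 0) * z = -(z * z * y) := by
    conv_lhs at hred => rw [← X_mul_divX_add Q, map_add, map_mul, aeval_X, aeval_C]
    linear_combination hred
  have hiter : ∀ i : ℕ, algebraMap O A (Q.coeff 0 ^ i) * z = z ^ (i + 1) * (-y) ^ i := by
    intro i
    induction i with
    | zero => simp
    | succ i ih =>
      rw [pow_succ (Q.coeff 0), map_mul, mul_right_comm, ih]
      linear_combination (z ^ i * (-y) ^ i) * hzy
  obtain ⟨n, hn⟩ := hz
  refine LinearMap.ext fun x => ?_
  have h := congrArg φ (hiter n)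
  rw [map_mul, map_mul, map_pow φ, pow_succ (φ z) n, hn, zero_mul, zero_mul, AlgHom.commutes] at h
  exact (htf _ (φ z x) (LinearMap.congr_fun h x)).resolve_left (pow_ne_zero n hc)

variable (K : Type) [Field K] [IsAlgClosed K] [Algebra O K] [Module.IsTorsionFree O K]

omit [IsNoetherianRing O] in
/-- An element vanishing at all points of the image kills the module. -/
theorem smul_eq_zero_of_forall_point (htf : ∀ (c : O) (x : M), c • x = 0 → c = 0 ∨ x = 0) {z : A}
    (h : ∀ χ : A →ₐ[O] K, (∀ a : A, (∀ x : M, a • x = 0) → χ a = 0) → χ z = 0) (x : M) :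
    z • x = 0 := by
  have hnil : IsNilpotent (Algebra.lsmul O O M z : Module.End O M) := by
    by_contra hn
    obtain ⟨χ, hχ, hker⟩ := TWTwist.exists_point_of_not_isNilpotent (K := K)
      (Algebra.lsmul O O M : A →ₐ[O] Module.End O M) (TWTwist.smul_end_eq_zero htf) hn
    exact hχ (h χ fun a ha => hker a (LinearMap.ext ha))
  exact LinearMap.congr_fun (lsmul_eq_zero_of_isNilpotent htf hnil) x

end Fermat.Agent.LevelLowering.Avoid
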