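import Fermat.Agent.LevelLowering.Avoid.Twisted
import Fermat.Agent.LevelLowering.Avoid.EigenPoint
import Fermat.Agent.LevelLowering.Avoid.PointsVanish
import Fermat.Agent.LocalRibet.MatrixForm

/-!
# Ihara avoidance: the tower of levels is contradictory

A level consists of a module free over the diamond operators, with a commutative reduced algebra
receiving the deformation ring.  If at the points with non-trivial characters at every exceptional
prime the representation is not unipotent there, and at the points with trivial characters some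
exceptional prime is Steinberg, then such levels for all `n` do not exist.
-/

set_option autoImplicit false

noncomputable section

open IsLocalRing Module
open Fermat.Agent.TangentBound
open Fermat.Agent.GaloisBasics (Qbar GalQ)

namespace Fermat.Agent.LevelLowering.Avoid

/-- The two trace conditions on the points of a level. -/
structure PointConditions {O R A : Type} [CommRing O] [CommRing R] [Algebra O R] [CommRing A]
    [Algebra O A] {N : Type} [AddCommGroup N] [Module A N] (K : Type) [Field K] [Algebra O K]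
    (E : Finset ℕ) (tr : GalQ → R) (φ : R →ₐ[O] A) (t : Fin E.card → A) : Prop where
  eta : ∀ χ : A →ₐ[O] K, (∀ a : A, (∀ x : N, a • x = 0) → χ a = 0) → (∀ i, χ (t i) ≠ 1) →
    ∀ q ∈ E, ∃ P : ValuationSubring Qbar, P.LiesOverPrime q ∧
      ∃ σ ∈ P.inertiaSubgroupIn ℚ, χ (φ (tr σ)) ≠ 2
  triv : ∀ χ : A →ₐ[O] K, (∀ a : A, (∀ x : N, a • x = 0) → χ a = 0) → (∀ i, χ (t i) = 1) →
    ∃ q ∈ E, ∀ P : ValuationSubring Qbar, P.LiesOverPrime q → ∀ f : GalQ, P.IsFrobeniusAt f q →
      χ (φ (tr f)) ^ 2 = ((q : K) + 1) ^ 2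

/-- A module free over the diamond operators with its points. -/
structure LevelModules (O : Type) [CommRing O] (p n r d : ℕ) (R : Type) [CommRing R] [IsLocalRing R]
    [Algebra O R] (tr : GalQ → R) (E : Finset ℕ) (K : Type) [Field K] [Algebra O K] : Type 1 where
  N : Type
  A : Type
  [addCommGroupN : AddCommGroup N]
  [commRingA : CommRing A]
  [algebraA : Algebra O A]
  [isReducedA : IsReduced A]
  [finiteA : Module.Finite O A]
  [moduleN : Module O N]
  [moduleAN : Module A N]
  [towerN : IsScalarTower O A N]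
  [finiteN : Module.Finite O N]
  [freeN : Module.Free O N]
  φ : R →ₐ[O] A
  v : Fin r → ℕ
  le_v : ∀ j, n ≤ v j
  s : Fin r → R
  s_mem : ∀ j, s j - 1 ∈ maximalIdeal R
  w : Fin E.card → ℕ
  one_le_w : ∀ i, 1 ≤ w i
  t : Fin E.card → A
  y : Fin d → N
  isFree : IsFreeLevel (O := O) (p := p) v w (fun j => φ (s j)) t y
  points : PointConditions (N := N) K E tr φ t

attribute [instance] LevelModules.addCommGroupN LevelModules.commRingA LevelModules.algebraA
  LevelModules.isReducedA LevelModules.finiteA LevelModules.moduleN LevelModules.moduleAN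
  LevelModules.towerN LevelModules.finiteN LevelModules.freeN

variable {O : Type} [CommRing O] [IsDomain O] [IsDiscreteValuationRing O]
  [IsAdicComplete (maximalIdeal O) O] (ρbar : ResidualGaloisRep (ResidueField O))

/-- One step of the tower: a deformation ring with coordinates and a level. -/
structure LevelDatum (p n r d : ℕ) (E : Finset ℕ) (σ : Type) (P₀ : E → ValuationSubring Qbar)
    (s₀ f₀ : E → GalQ) (K : Type) [Field K] [Algebra O K] : Type 1 where
  cond : ∀ ⦃B : Type⦄ [CommRing B] [IsLocalRing B] [Algebra O B], GaloisRepAdic B → Prop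
  DQ : GaloisRep.DeformationRingData O ρbar cond
  γ : CoordRing O E σ →ₐ[O] DQ.R
  γ_surjective : Function.Surjective γ
  γ_coord : ∀ i j, γ (coord i j) = localCoord DQ (s₀ i) (f₀ i) j
  det : DQ.ρ.DetIsCyclotomic p
  barMat_eq_one : ∀ i, ∀ τ ∈ (P₀ i).inertiaSubgroupIn ℚ, barMat DQ τ = 1
  mods : LevelModules O p n r d DQ.R DQ.ρ.trace E K

omit [IsDomain O] [IsDiscreteValuationRing O] [IsAdicComplete (maximalIdeal O) O] in
/-- The trace of a base change is the image of the trace. -/
theorem trace_baseChangeAlong {R B : Type} [CommRing R] [IsLocalRing R] [CommRing B] [IsLocalRing B]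
    (φ : R →+* B) (hφ : IsLocalHom φ) (ρ : GaloisRepAdic R) (τ : GalQ) :
    (ρ.baseChangeAlong φ hφ).trace τ = φ (ρ.trace τ) := by
  let _ : Algebra R B := φ.toAlgebra
  exact LinearMap.trace_baseChange (ρ.ρ τ) B

omit [IsDomain O] [IsDiscreteValuationRing O] [IsAdicComplete (maximalIdeal O) O] in
/-- Unipotent inertia has trace two. -/
theorem trace_eq_two_of_isUnipotentOnInertiaAt {B : Type} [CommRing B] [IsLocalRing B]
    {ρ : GaloisRepAdic B} {q : ℕ} (h : ρ.IsUnipotentOnInertiaAt q) {P : ValuationSubring Qbar}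
    (hP : P.LiesOverPrime q) {τ : GalQ} (hτ : τ ∈ P.inertiaSubgroupIn ℚ) : ρ.trace τ = 2 := by
  let b := Module.finBasisOfFinrankEq B ρ.V ρ.finrank_eq
  have h1 := h P hP τ hτ
  rw [← LinearMap.charpoly_toMatrix (ρ.ρ τ) b, Matrix.charpoly_fin_two,
    ← LinearMap.trace_eq_matrix_trace] at h1
  have h2 := congrArg (fun F : Polynomial B => F.coeff 1) h1
  simp [Polynomial.coeff_X_pow, Polynomial.coeff_C, sub_sq, Polynomial.coeff_one] at h2
  exact h2

section Points

variable {R A : Type} [CommRing R] [IsLocalRing R] [IsNoetherianRing R] [CommRing A] [Algebra O R]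
  [Algebra O A] {K : Type} [Field K] [Algebra O K]

omit [IsDomain O] [IsDiscreteValuationRing O] [IsAdicComplete (maximalIdeal O) O] in
/-- The image of a point of a level. -/
theorem exists_image_point (φ : R →ₐ[O] A) (χ : A →ₐ[O] K)
    (hinj : Function.Injective (algebraMap O K)) :
    ∃ (B : Type) (_ : CommRing B) (_ : IsDomain B) (_ : IsLocalRing B)
      (_ : IsHausdorff (maximalIdeal B) B) (_ : Algebra O B) (ψ : R →ₐ[O] B) (ι : B →ₐ[O] K),
      IsLocalHom (ψ : R →+* B) ∧ Function.Injective ι ∧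
        Function.Injective (algebraMap O B) ∧ ∀ z, ι (ψ z) = χ (φ z) := by
  set I := RingHom.ker (χ.comp φ)
  have : I.IsPrime := RingHom.ker_isPrime (χ.comp φ)
  have hloc : IsLocalRing (R ⧸ I) := .of_surjective' _ Ideal.Quotient.mk_surjective
  have : IsNoetherianRing (R ⧸ I) :=
    isNoetherianRing_of_surjective R (R ⧸ I) (Ideal.Quotient.mk I) Ideal.Quotient.mk_surjective
  let ι : (R ⧸ I) →ₐ[O] K := Ideal.Quotient.liftₐ I (χ.comp φ) fun _ h => h
  have hι : Function.Injective ι := (injective_iff_map_eq_zero ι).mpr fun z hz => by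
    obtain ⟨z, rfl⟩ := Ideal.Quotient.mk_surjective z
    exact Ideal.Quotient.eq_zero_iff_mem.mpr hz
  refine ⟨R ⧸ I, inferInstance, inferInstance, hloc,
    IsHausdorff.of_isLocalRing _ _ (maximalIdeal.isMaximal _).ne_top, inferInstance,
    Ideal.Quotient.mkₐ O I, ι, IsLocalHom.of_surjective _ Ideal.Quotient.mk_surjective, hι,
    fun a b h => hinj ?_, fun z => rfl⟩
  rw [← ι.commutes a, ← ι.commutes b, h]

end Points

/-- **Ihara avoidance.** Levels for all `n` do not exist. -/
theorem false_of_levelData [CharZero O] [Finite (ResidueField O)] {p : ℕ} [Fact p.Prime]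
    (hp2 : p ≠ 2) (hpO : (p : O) ∈ maximalIdeal O) {v₀ : ℕ} (hv₀ : 1 ≤ v₀) {ζ : O}
    (hζ : IsPrimitiveRoot ζ (p ^ v₀)) (E : Finset ℕ)
    (hE : ∀ q ∈ E, q.Prime ∧ q ≠ p ∧ p ∣ q - 1 ∧ (q - 1).factorization p ≤ v₀)
    {r r' d : ℕ} (hr : r = 3 * E.card + r') (hd : 0 < d)
    (P₀ : E → ValuationSubring Qbar) (s₀ f₀ : E → GalQ)
    (hP₀ : ∀ i, (P₀ i).LiesOverPrime (i : ℕ)) (hs₀ : ∀ i, MovesRoot (P₀ i) p i (s₀ i))
    (hf₀ : ∀ i, (P₀ i).IsFrobeniusAt (f₀ i) i)
    (L : ∀ n, LevelDatum ρbar p n r d E (Fin r') P₀ s₀ f₀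
      (AlgebraicClosure (FractionRing O))) : False := by
  classical
  have hp : p.Prime := Fact.out
  let K := AlgebraicClosure (FractionRing O)
  have hK : Function.Injective (algebraMap O K) := by
    rw [IsScalarTower.algebraMap_eq O (FractionRing O) K]
    exact (algebraMap (FractionRing O) K).injective.comp (IsFractionRing.injective O _)
  have : Module.IsTorsionFree O K := Module.isTorsionFree_iff_algebraMap_injective.mpr hK
  obtain ⟨ϖ, hϖ⟩ := (IsPrincipalIdealRing.principal (maximalIdeal O)).principal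
  change maximalIdeal O = Ideal.span {ϖ} at hϖ
  have h2 : IsUnit (2 : O) := isUnit_two_of_mem hp hp2 hpO
  set η : O := ζ ^ p ^ (v₀ - 1)
  have hηp : η ^ p = 1 := by
    rw [← pow_mul, ← pow_succ, Nat.sub_add_cancel hv₀, hζ.pow_eq_one]
  have hη1 : η ≠ 1 := hζ.pow_ne_one_of_pos_of_lt (pow_ne_zero _ hp.ne_zero)
    (Nat.pow_lt_pow_right hp.one_lt (by omega))
  have hηm : η - 1 ∈ maximalIdeal O := by
    rw [← residue_eq_zero_iff, map_sub, map_one]
    have : CharP (ResidueField O) p := (CharP.charP_iff_prime_eq_zero hp).2 (by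
      rw [← map_natCast (residue O), residue_eq_zero_iff]; exact hpO)
    refine pow_eq_zero_iff hp.ne_zero |>.1 ?_
    rw [sub_pow_char, ← map_pow, hηp, map_one, one_pow, sub_self]
  let C : E → Finset O := fun _ => eigenValues O p v₀
  let qs : E → ℕ := fun i => i
  refine false_of_avoidLevels (O := O) (ι := E) (σ := Fin r') (r := r) (d := d)
    (LocalRibet.avoidance_matrix (O := O) h2 E (Fin r')) hpO ϖ hϖ C
    (fun _ c hc => eigenValues_spec hp hp2 hpO hc)
    (by rw [Fintype.card_coe, Fintype.card_fin]; exact hr) hd (marker qs)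
    (marker_notMem_specialIdeal hϖ h2 qs fun i => ?_) fun n => Classical.choice ?_
  · obtain ⟨hq, -, hq1, -⟩ := hE i i.2
    obtain ⟨c, hc⟩ := hq1
    show ((i : ℕ) : O) - 1 ∈ maximalIdeal O
    rw [show (i : ℕ) = p * c + 1 by have := hq.two_le; omega, Nat.cast_add, Nat.cast_mul,
      Nat.cast_one, add_sub_cancel_right]
    exact Ideal.mul_mem_right _ _ hpO
  set D := L n
  set M := D.mods
  let _ : Algebra D.DQ.R M.A := (M.φ : D.DQ.R →+* M.A).toAlgebra
  have : IsScalarTower O D.DQ.R M.A := IsScalarTower.of_algebraMap_eq fun a => (M.φ.commutes a).symm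
  let _ : Module D.DQ.R M.N := Module.compHom M.N (M.φ : D.DQ.R →+* M.A)
  have : IsScalarTower D.DQ.R M.A M.N := ⟨fun z a x => mul_smul (M.φ z) a x⟩
  have : IsScalarTower O D.DQ.R M.N := ⟨fun c z x => by
    show M.φ (c • z) • x = c • M.φ z • x
    rw [map_smul, smul_assoc]⟩
  -- vanishing on a twisted quotient from its points
  have key : ∀ (ζ' : Fin E.card → O), (∀ i, ζ' i ^ p ^ M.w i = 1) → ∀ z : D.DQ.R,
      (∀ χ : M.A →ₐ[O] K, (∀ a : M.A, (∀ x : M.N, a • x = 0) → χ a = 0) →
        (∀ i, χ (M.t i) = algebraMap O K (ζ' i)) → χ (M.φ z) = 0) →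
      ∀ x : M.N, z • x ∈ (twistKer M.t ζ' : Submodule M.A M.N) := by
    intro ζ' hζ' z h x
    have := (M.isFree.twist hpO ζ' hζ').1
    rw [← Submodule.Quotient.mk_eq_zero]
    refine smul_eq_zero_of_forall_point K
      (M := M.N ⧸ (twistKer M.t ζ' : Submodule M.A M.N))
      (fun c y hcy => smul_eq_zero.1 hcy) (z := M.φ z) (fun χ hχ => h χ (fun a ha => hχ a
        fun y => ?_) fun i => ?_) (Submodule.Quotient.mk x)
    · obtain ⟨y, rfl⟩ := Submodule.Quotient.mk_surjective _ y
      rw [← Submodule.Quotient.mk_smul, ha, Submodule.Quotient.mk_zero]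
    · rw [← χ.commutes (ζ' i), ← sub_eq_zero, ← map_sub]
      refine hχ _ fun y => ?_
      obtain ⟨y, rfl⟩ := Submodule.Quotient.mk_surjective _ y
      rw [← Submodule.Quotient.mk_smul, Submodule.Quotient.mk_eq_zero]
      exact Submodule.smul_mem_smul (Ideal.subset_span ⟨i, rfl⟩) Submodule.mem_top
  refine nonempty_avoidLevel_of_isFreeLevel hpO (v := M.v) (w := M.w) (s := fun j => M.φ (M.s j)) (t := M.t) (y := M.y) M.le_v
    D.γ D.γ_surjective M.s M.s_mem (fun j => rfl) M.isFree (fun _ => η)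
    (fun i => ?_) (fun i => hϖ ▸ hηm) (key _ (fun i => one_pow _) _ ?_) ?_
  · rw [← Nat.sub_add_cancel (M.one_le_w i), pow_succ', pow_mul, hηp, one_pow]
  · intro χ hχ ht
    obtain ⟨B, _, _, _, _, _, ψ, ι', hψ, hι, hBinj, hcomp⟩ := exists_image_point M.φ χ hK
    obtain ⟨q, hqE, hst⟩ := M.points.triv χ hχ (fun i => by rw [ht, map_one])
    obtain ⟨hq, hqp, -, -⟩ := hE q hqE
    have htr : (D.DQ.ρ.baseChangeAlong (ψ : D.DQ.R →+* B) hψ).trace (f₀ ⟨q, hqE⟩) ^ 2 =
        ((q : B) + 1) ^ 2 := by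
      rw [trace_baseChangeAlong]
      refine hι ?_
      simp only [RingHom.coe_coe, map_pow, map_add, map_natCast, map_one, hcomp]
      exact hst _ (hP₀ ⟨q, hqE⟩) _ (hf₀ ⟨q, hqE⟩)
    rw [← hcomp, map_marker_eq_zero D.DQ ψ hψ hp hp2 hq hqp D.det (hP₀ ⟨q, hqE⟩)
      (hf₀ ⟨q, hqE⟩) D.γ ⟨q, hqE⟩ (D.γ_coord ⟨q, hqE⟩) qs rfl htr, map_zero]
  · intro i
    obtain ⟨hq, hqp, hq1, hqv⟩ := hE i i.2
    have hpt : ∀ χ : M.A →ₐ[O] K, (∀ a : M.A, (∀ x : M.N, a • x = 0) → χ a = 0) →
        (∀ j, χ (M.t j) = algebraMap O K η) →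
        χ (M.φ (D.γ (∏ c ∈ C i, eigenRel i c))) = 0 ∧ χ (M.φ (D.γ (minorAB i))) = 0 ∧
          χ (M.φ (D.γ (minorAC i))) = 0 ∧ χ (M.φ (D.γ (minorBC i))) = 0 := by
      intro χ hχ ht
      obtain ⟨B, _, _, _, _, _, ψ, ι', hψ, hι, hBinj, hcomp⟩ := exists_image_point M.φ χ hK
      have hnu : ¬ (D.DQ.ρ.baseChangeAlong (ψ : D.DQ.R →+* B) hψ).IsUnipotentOnInertiaAt i := by
        intro hu
        obtain ⟨P, hP, τ, hτ, hne⟩ := M.points.eta χ hχ
          (fun j h => hη1 (hK (by rw [← ht j, h, map_one]))) i i.2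
        refine hne ?_
        rw [← hcomp, ← RingHom.coe_coe (f := ψ), ← trace_baseChangeAlong _ hψ,
          trace_eq_two_of_isUnipotentOnInertiaAt hu hP hτ, map_ofNat]
      obtain ⟨e1, e2, e3, e4⟩ := map_relations D.DQ ψ hψ hp hp2 hq hqp D.det (hP₀ i) (hf₀ i)
        D.γ i (D.γ_coord i) hζ hq1 hqv hBinj (D.barMat_eq_one i) (hs₀ i) hnu
      exact ⟨by rw [← hcomp, e1, map_zero], by rw [← hcomp, e2, map_zero],
        by rw [← hcomp, e3, map_zero], by rw [← hcomp, e4, map_zero]⟩
    have hw : ∀ j, η ^ p ^ M.w j = 1 := fun j => by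
      rw [← Nat.sub_add_cancel (M.one_le_w j), pow_succ', pow_mul, hηp, one_pow]
    exact fun x => ⟨key _ hw _ (fun χ a b => (hpt χ a b).1) x,
      key _ hw _ (fun χ a b => (hpt χ a b).2.1) x, key _ hw _ (fun χ a b => (hpt χ a b).2.2.1) x,
      key _ hw _ (fun χ a b => (hpt χ a b).2.2.2) x⟩

end Fermat.Agent.LevelLowering.Avoid
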