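import Fermat.Agent.LevelLowering.Avoid.Coordinates
import Fermat.Agent.LevelLowering.Avoid.LocalVanish
import Fermat.Agent.TWAssembly.Assembly

/-!
# Ihara avoidance: Taylor–Wiles primes and the presentation by local coordinates

With the zero condition at a set `E` of exceptional primes, the bound on the Selmer group has a
slack of `3` for each of them; the deformation rings are then quotients of the coordinate ring
with `r - 3 #E` further variables.
-/

set_option autoImplicit false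

noncomputable section

open IsLocalRing Module
open Fermat.Agent.TangentBound Fermat.Agent.TWAssembly
open Fermat.Agent.GaloisBasics (GalQ)

namespace Fermat.Agent.LevelLowering.Avoid

section Bound

variable {k : Type} [Field k] (rb : GQ →* Mat2 k)

open scoped Classical in
/-- The local conditions `L`, with the zero condition at the primes of `E`. -/
def withZero (E : Finset ℕ) (L : (q : ℕ) → (P : ValuationSubring (AlgebraicClosure ℚ)) →
      Submodule k (P.decompositionSubgroup ℚ → Mat2 k)) :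
    (q : ℕ) → (P : ValuationSubring (AlgebraicClosure ℚ)) →
      Submodule k (P.decompositionSubgroup ℚ → Mat2 k) :=
  fun q P => if q ∈ E then ⊥ else L q P

/-- The Selmer group modulo coboundaries of the avoidance problem. -/
abbrev avoidSelmer (Smin E Q : Finset ℕ)
    (L : (q : ℕ) → (P : ValuationSubring (AlgebraicClosure ℚ)) →
      Submodule k (P.decompositionSubgroup ℚ → Mat2 k)) :
    Submodule k ((GQ → Mat2 k) ⧸ LinearMap.range (adCoboundary rb)) :=
  (selmer rb (Smin ∪ E ∪ Q) (Smin ∪ E) (withZero E L)).map (LinearMap.range (adCoboundary rb)).mkQ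

/-- The global bound on the Selmer group, with slack `3` at each prime of `E`. -/
def SlackBoundProp (p : ℕ) [Fact p.Prime] (S Smin E : Finset ℕ)
    (L : (q : ℕ) → (P : ValuationSubring (AlgebraicClosure ℚ)) →
      Submodule k (P.decompositionSubgroup ℚ → Mat2 k)) : Prop :=
  ∃ D : Submodule k (GQ → Mat2 k), FiniteDimensional k D ∧ D ≤ twCocycles rb ∧
    (∀ y ∈ D, (∃ X : Mat2 k, X.trace = 0 ∧
      ∀ σ, y σ = (rb σ).det • (rb σ * X * rb σ⁻¹) - X) → y = 0) ∧
    ∀ (n : ℕ) (Q : Finset ℕ), (∀ q ∈ Q, GoodPrime rb p S n q) →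
      (∀ y : D, (∀ q ∈ Q, y ∈ detectKer rb D q) → y = 0) → finrank k D ≤ Q.card →
      FiniteDimensional k (avoidSelmer rb Smin E Q L) ∧
        finrank k (avoidSelmer rb Smin E Q L) + 3 * E.card ≤ Q.card

end Bound

variable {𝒪 : Type} [CommRing 𝒪] [IsDomain 𝒪] [IsDiscreteValuationRing 𝒪]
  [IsAdicComplete (maximalIdeal 𝒪) 𝒪] (ρbar : ResidualGaloisRep (ResidueField 𝒪))

/-- Taylor–Wiles primes for Ihara avoidance at `E`. -/
theorem exists_avoidance_primes (p : ℕ) [Fact p.Prime]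
    (hsplit : ∀ σ : GQ, ∃ α β : ResidueField 𝒪,
      LinearMap.charpoly (ρbar.ρ σ) =
        (Polynomial.X - Polynomial.C α) * (Polynomial.X - Polynomial.C β))
    (S Smin E : Finset ℕ) (h2 : IsUnit (2 : 𝒪))
    (C' : Finset ℕ → ∀ ⦃A : Type⦄ [CommRing A] [IsLocalRing A] [Algebra 𝒪 A],
      GaloisRepAdic A → Prop)
    (hdet : ∀ (T : Finset ℕ) (A : Type) [CommRing A] [IsLocalRing A] [Algebra 𝒪 A]
      (ρ : GaloisRepAdic A), C' T ρ → ρ.DetIsCyclotomic p)
    (hunr : ∀ (T : Finset ℕ) (A : Type) [CommRing A] [IsLocalRing A] [Algebra 𝒪 A]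
      (ρ : GaloisRepAdic A), C' T ρ → ∀ q : ℕ, q.Prime → q ∉ T → ρ.IsUnramifiedAt q)
    (hbc : ∀ (T : Finset ℕ) (A B : Type) [CommRing A] [IsLocalRing A] [Algebra 𝒪 A]
      [CommRing B] [IsLocalRing B] [Algebra 𝒪 B] (φ : A →ₐ[𝒪] B)
      (hφ : IsLocalHom (φ : A →+* B)) (ρ : GaloisRepAdic A), Function.Surjective φ → C' T ρ →
        C' T (ρ.baseChangeAlong (φ : A →+* B) hφ))
    (b : Basis (Fin 2) (ResidueField 𝒪) ρbar.V)
    (hTW : TWElementProp (rbOf ρbar b) p)
    (L : (q : ℕ) → (P : ValuationSubring (AlgebraicClosure ℚ)) →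
      Submodule (ResidueField 𝒪) (P.decompositionSubgroup ℚ → Mat2 (ResidueField 𝒪)))
    (hrbc : ∃ F : IntermediateField ℚ (AlgebraicClosure ℚ), FiniteDimensional ℚ F ∧
      ∀ σ ∈ F.fixingSubgroup, rbOf ρbar b σ = 1)
    (hmem : ∀ (T : Finset ℕ) (DQ : GaloisRep.DeformationRingData 𝒪 ρbar (fun _A _ _ _ ρ =>
          C' T ρ ∧ ∀ q ∈ Smin, q.Prime → q ≠ p → ρ.IsUnipotentOnInertiaAt q))
        (V : (Mat2 (ResidueField 𝒪))ˣ),
        (∀ σ, (V : Mat2 (ResidueField 𝒪)) * barMat DQ σ = rbOf ρbar b σ * V) →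
        ∀ d, ∀ q ∈ Smin, ∀ P : ValuationSubring (AlgebraicClosure ℚ), P.LiesOverPrime q →
          resPlace P (conjMap V (tangentCocycle DQ d)) ∈ L q P)
    (hE : ∀ q ∈ E, q.Prime ∧ q ≠ p ∧ (q : ResidueField 𝒪) ≠ 0 ∧ q ∉ Smin)
    (hEI : ∀ q ∈ E, ∀ P : ValuationSubring (AlgebraicClosure ℚ), P.LiesOverPrime q →
      ∀ σ ∈ P.inertiaSubgroupIn ℚ, rbOf ρbar b σ = 1)
    (hEscal : ∀ q ∈ E, ∀ P : ValuationSubring (AlgebraicClosure ℚ), P.LiesOverPrime q →
      ∀ σ ∈ P.decompositionSubgroup ℚ, ∃ x : ResidueField 𝒪,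
        rbOf ρbar b σ = x • (1 : Mat2 (ResidueField 𝒪)))
    (hpk : (p : ResidueField 𝒪) = 0)
    (hbound : SlackBoundProp (rbOf ρbar b) p S Smin E L) :
    ∃ r : ℕ, ∀ n : ℕ, ∃ qv : Fin r → ℕ, Function.Injective qv ∧ 3 * E.card ≤ r ∧
      (∀ i, (qv i).Prime ∧ qv i ∉ S ∧ p ^ (n + 1) ∣ qv i - 1) ∧
      (∀ i, ∀ P : ValuationSubring (AlgebraicClosure ℚ), P.LiesOverPrime (qv i) →
        ∀ φ : AlgebraicClosure ℚ ≃ₐ[ℚ] AlgebraicClosure ℚ, P.IsFrobeniusAt φ (qv i) →
          ∃ α β : ResidueField 𝒪, α ≠ β ∧ LinearMap.charpoly (ρbar.ρ φ) =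
            (Polynomial.X - Polynomial.C α) * (Polynomial.X - Polynomial.C β)) ∧
      ∀ DQ : GaloisRep.DeformationRingData 𝒪 ρbar (fun _A _ _ _ ρ =>
          C' (Smin ∪ E ∪ Finset.univ.image qv) ρ ∧
            ∀ q ∈ Smin, q.Prime → q ≠ p → ρ.IsUnipotentOnInertiaAt q),
      ∀ (A : E → ValuationSubring (AlgebraicClosure ℚ)) (s f : E → GQ),
        (∀ i, (A i).LiesOverPrime (i : ℕ)) → (∀ i, MovesRoot (A i) p i (s i)) →
        (∀ i, (A i).IsFrobeniusAt (f i) i) →
        ∃ γ : CoordRing 𝒪 E (Fin (r - 3 * E.card)) →ₐ[𝒪] DQ.R, Function.Surjective γ ∧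
          ∀ i j, γ (coord i j) = localCoord DQ (s i) (f i) j := by
  classical
  obtain ⟨D, hDfin, hDle, hDcob, hD⟩ := hbound
  refine ⟨finrank (ResidueField 𝒪) D, fun n => ?_⟩
  set rb := rbOf ρbar b with hrb
  obtain ⟨qv, hinj, hgood, hcard, hker⟩ :=
    exists_goodPrimes_detecting rb p S n hTW hrbc D hDle hDcob
  set Q := Finset.univ.image qv with hQ
  obtain ⟨hfin, hle⟩ := hD n Q (fun q hq => by
      obtain ⟨i, -, rfl⟩ := Finset.mem_image.1 hq
      exact hgood i)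
    hker hcard.ge
  rw [hcard] at hle
  refine ⟨qv, hinj, (Nat.le_add_left _ _).trans hle,
    fun i => ⟨(hgood i).1, (hgood i).2.1, (hgood i).2.2.1⟩,
    fun i P hP φ hφ => exists_distinct_roots b _ (hsplit φ) ((hgood i).2.2.2.2 P hP φ hφ),
    fun DQ A s f hA hs hf => ?_⟩
  obtain ⟨V, hV⟩ := exists_units_barMat DQ b
  have hV' : ∀ σ, (V : Mat2 (ResidueField 𝒪)) * barMat DQ σ = rb σ * V := fun σ => by
    rw [hrb, rbOf_apply]; exact hV σ
  have hbar : ∀ σ, barMat DQ σ = ((V⁻¹ : (Mat2 (ResidueField 𝒪))ˣ) : Mat2 (ResidueField 𝒪)) *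
      rb σ * V := fun σ => by
    rw [mul_assoc, ← hV', Units.inv_mul_cancel_left]
  have hbscal : ∀ i : E, ∀ σ ∈ (A i).decompositionSubgroup ℚ, ∃ x : ResidueField 𝒪,
      barMat DQ σ = x • (1 : Mat2 (ResidueField 𝒪)) := by
    intro i σ hσ
    obtain ⟨x, hx⟩ := hEscal i i.2 (A i) (hA i) σ hσ
    exact ⟨x, by rw [hbar, hx, mul_smul_comm, mul_one, smul_mul_assoc, Units.inv_mul]⟩
  set B := LinearMap.range (adCoboundary rb)
  set W := avoidSelmer rb Smin E Q L with hW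
  obtain ⟨g, hg⟩ := B.mkQ.exists_rightInverse_of_surjective (Submodule.range_mkQ B)
  set Y := (W.map g).map (conjMap (V⁻¹)) with hY
  have hYfin : FiniteDimensional (ResidueField 𝒪) Y := by rw [hY]; infer_instance
  have hYr : finrank (ResidueField 𝒪) Y ≤
      Fintype.card (Fin (finrank (ResidueField 𝒪) D - 3 * E.card)) := by
    rw [Fintype.card_fin]
    exact ((Submodule.finrank_map_le _ _).trans (Submodule.finrank_map_le _ _)).trans
      (Nat.le_sub_of_add_le hle)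
  refine exists_coordRing_surjective DQ
    (fun φ hφ hsurj => ⟨hbc _ _ _ φ hφ _ hsurj DQ.isOfType.1,
      fun q hq hqp hqne => isUnipotentOnInertiaAt_baseChange _ hφ
        (DQ.isOfType.2 q hq hqp hqne)⟩)
    p (hdet _ _ _ DQ.isOfType.1) h2 s f
    (fun i => hbscal i _ (Fermat.Agent.TWLocal.inertia_le (hs i).1))
    (fun i => hbscal i _ (hf i).mem_decompositionSubgroup) Y hYr fun d hd => ?_
  set c := conjMap V (tangentCocycle DQ d) with hc
  have hcad : c ∈ adCocycles rb :=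
    conjMap_tangentCocycle_mem_adCocycles DQ rb V hV' p (hdet _ _ _ DQ.isOfType.1) d
  have hcE : ∀ i : E, ∀ P : ValuationSubring (AlgebraicClosure ℚ),
      P.LiesOverPrime (i : ℕ) → resPlace P c = 0 := by
    intro i P hP
    obtain ⟨hq, hqp, hqk, -⟩ := hE i i.2
    refine resPlace_eq_zero_of_conj hcad (hA i) hP hq (hEscal i i.2 (A i) (hA i)) ?_
    refine eq_zero_of_movesRoot (hA i) hq Fact.out hqp hqk hpk ?_
      (hEI i i.2 (A i) (hA i)) (hs i) (hf i) (resPlace_mem_Z1 hcad (A i)) ?_ ?_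
    · obtain ⟨F, hF, hF'⟩ := hrbc
      exact ⟨F, hF, fun σ hσ => hF' σ ((IntermediateField.mem_fixingSubgroup_iff F σ).2 hσ)⟩
    · show conjMap V (tangentCocycle DQ d) (s i) = 0
      rw [conjMap_apply, (hd i).1, mul_zero, zero_mul]
    · show conjMap V (tangentCocycle DQ d) (f i) = 0
      rw [conjMap_apply, (hd i).2, mul_zero, zero_mul]
  have hcsel : c ∈ selmer rb (Smin ∪ E ∪ Q) (Smin ∪ E) (withZero E L) := by
    refine (mem_selmer_iff rb).2 ⟨hcad, fun q hq hqT P hP σ hσ => ?_, fun q hq P hP => ?_⟩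
    · rw [hc, conjMap_apply, tangentCocycle_eq_zero_of_rho_eq_one DQ d
        (hunr _ _ _ DQ.isOfType.1 q hq hqT P hP σ hσ), mul_zero, zero_mul]
    · by_cases hqE : q ∈ E
      · rw [withZero, if_pos hqE, Submodule.mem_bot]
        exact hcE ⟨q, hqE⟩ P hP
      · rw [withZero, if_neg hqE]
        exact hmem _ DQ V hV d q ((Finset.mem_union.1 hq).resolve_right hqE) P hP
  have hgc : B.mkQ (c - g (B.mkQ c)) = 0 := by
    rw [map_sub, show B.mkQ (g (B.mkQ c)) = B.mkQ c from LinearMap.congr_fun hg _, sub_self]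
  obtain ⟨X, hX⟩ := (Submodule.Quotient.mk_eq_zero B).1 hgc
  have hmemY : conjMap V⁻¹ (g (B.mkQ c)) ∈ Y :=
    Submodule.mem_map_of_mem (Submodule.mem_map_of_mem (Submodule.mem_map_of_mem hcsel))
  refine Submodule.mem_sup.2 ⟨_, hmemY, _,
    ⟨((V⁻¹ : (Mat2 (ResidueField 𝒪))ˣ) : Mat2 (ResidueField 𝒪)) * X * V, rfl⟩, ?_⟩
  funext σ
  have h := congrFun hX σ
  have hinv : (conjMap V⁻¹ c) σ = tangentCocycle DQ d σ := by
    simp only [hc, conjMap_apply, inv_inv, mul_assoc, Units.inv_mul_cancel_left, Units.inv_mul,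
      mul_one]
  have h' : coboundary DQ (((V⁻¹ : (Mat2 (ResidueField 𝒪))ˣ) : Mat2 (ResidueField 𝒪)) * X * V) σ =
      (conjMap V⁻¹ (c - g (B.mkQ c))) σ := by
    rw [conjMap_apply, ← h, coboundary_apply, adCoboundary_apply, hbar, hbar]
    simp only [inv_inv, mul_sub, sub_mul, mul_assoc, Units.mul_inv_cancel_left]
  rw [Pi.add_apply, h', map_sub, Pi.sub_apply, hinv]
  abel

end Fermat.Agent.LevelLowering.Avoid
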