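import Fermat.Agent.GlobalBound.Wiring
import Fermat.Agent.LevelLowering.Avoid.TaylorWiles

/-!
# Ihara avoidance: the bound on the Selmer group

With the zero condition at exceptional primes, where the residual representation is scalar, the
Selmer group is smaller by three dimensions for each of them: this is the Greenberg–Wiles formula
from Poitou–Tate duality.
-/

set_option autoImplicit false

noncomputable section

open Polynomial IsLocalRing

namespace Fermat.Agent.LevelLowering.Avoid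

open ExtCitation Fermat.Agent.PoitouTate
open Fermat.Agent.TWLocal (M2)
open Fermat.Agent.TWAssembly (rbOf)

variable {𝒪 : Type} [CommRing 𝒪] [IsDomain 𝒪] [IsDiscreteValuationRing 𝒪]
  [IsAdicComplete (maximalIdeal 𝒪) 𝒪] (ρbar : ResidualGaloisRep (ResidueField 𝒪))
  (b : Module.Basis (Fin 2) (ResidueField 𝒪) ρbar.V)

/-- Coboundaries vanish where `rb` is scalar. -/
theorem cob_eq_zero_of_scalar {k : Type} [Field k] {rb : GQ →* M2 k} {H : Subgroup GQ}
    (h : ∀ σ ∈ H, ∃ x : k, rb σ = x • (1 : M2 k)) (Y : M2 k) : TWLocal.cob rb H Y = 0 := by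
  funext σ
  obtain ⟨x, hx⟩ := h σ σ.2
  rw [TWLocal.cob_apply, TWLocal.adj_apply, Pi.zero_apply, sub_eq_zero]
  calc Y = Y * (rb (σ : GQ) * rb (σ : GQ)⁻¹) := by rw [TWLocal.rb_mul_inv, mul_one]
    _ = rb (σ : GQ) * Y * rb (σ : GQ)⁻¹ := by
      rw [← mul_assoc, hx, mul_smul_comm, mul_one, smul_mul_assoc x 1 Y, one_mul]

omit [IsAdicComplete (maximalIdeal 𝒪) 𝒪] in
/-- The global bound on the Selmer group, with slack three at each exceptional prime. -/
theorem slackBoundProp_rbOf [Finite (ResidueField 𝒪)] (p : ℕ) [Fact p.Prime] (hp2 : p ≠ 2)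
    (habs : ρbar.IsAbsolutelyIrreducible)
    (hdet : (GaloisRepAdic.ofResidualGaloisRep ρbar).DetIsCyclotomic p)
    (hsplit : ∀ σ : GQ, ∃ α β : ResidueField 𝒪,
      LinearMap.charpoly (ρbar.ρ σ) = (X - C α) * (X - C β))
    (hTW : ∀ (K : Type) [Field K] [Algebra (ResidueField 𝒪) K]
      (G : Subgroup (AlgebraicClosure ℚ ≃ₐ[ℚ] AlgebraicClosure ℚ)), G.index = 2 →
      ∀ V : Submodule K (ρbar.baseChange K).V,
        (∀ σ ∈ G, ∀ x ∈ V, (ρbar.baseChange K).ρ σ x ∈ V) → V = ⊥ ∨ V = ⊤)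
    (S Smin : Finset ℕ) (hpSmin : p ∈ Smin) (hSmin : Smin ⊆ S) (hS : ∀ q ∈ S, q.Prime)
    (hmin : ∀ q : ℕ, q.Prime → q ≠ p → (q ∈ Smin ↔ ¬ ρbar.IsUnramifiedAt q))
    (E : Finset ℕ) (hES : E ⊆ S) (hE : ∀ q ∈ E, q ∉ Smin)
    (hEscal : ∀ q ∈ E, ∀ P : ValuationSubring (AlgebraicClosure ℚ), P.LiesOverPrime q →
      ∀ σ ∈ P.decompositionSubgroup ℚ, ∃ x : ResidueField 𝒪,
        rbOf ρbar b σ = x • (1 : M2 (ResidueField 𝒪)))
    (I : InvSystem p) (hG : ∀ T : Finset Nat.Primes, pPrime p ∈ T → GlobalInputs I T)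
    (hre : ∀ T : Finset Nat.Primes, pPrime p ∈ T → TWEuler.RightExact (sLevels T) p)
    (hN : ∀ T : Finset Nat.Primes, pPrime p ∈ T →
      TWEuler.AllWeights (sLevels T) complexConjugation (muAct p))
    (L : (q : ℕ) → (P : ValuationSubring QBar) →
      Submodule (ResidueField 𝒪) (P.decompositionSubgroup ℚ → M2 (ResidueField 𝒪)))
    (hLcob : ∀ q : Nat.Primes, (q : ℕ) ∈ Smin → ∀ Y : M2 (ResidueField 𝒪), Y.trace = 0 →
      TWLocal.cob (rbOf ρbar b) ((padicPlace (q : ℕ)).decompositionSubgroup ℚ) Y ∈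
        L q (padicPlace (q : ℕ)))
    (hLdim : ∀ q : Nat.Primes, (q : ℕ) ∈ Smin →
      FiniteDimensional (ResidueField 𝒪) (L q (padicPlace (q : ℕ))) ∧
        Module.finrank (ResidueField 𝒪) (L q (padicPlace (q : ℕ))) ≤
          if (q : ℕ) = p then 4 else 3) :
    SlackBoundProp (rbOf ρbar b) p S Smin E L := by
  classical
  let w : ℕ → ℕ := fun q => if q ∈ E then 0 else if q = p then 4 else 3
  obtain ⟨D, hfin, hle, hcob, hD⟩ := GlobalBound.exists_bound_rbOf ρbar b p hp2 habs hdet hsplit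
    hTW S Smin hpSmin hS hmin (Smin ∪ E) Finset.subset_union_left
    (Finset.union_subset hSmin hES) I hG hre hN w (withZero E L)
    (fun q hq Y hY => by
      by_cases hqE : (q : ℕ) ∈ E
      · rw [cob_eq_zero_of_scalar (hEscal q hqE _ (padicPlace_liesOverPrime _))]
        exact zero_mem _
      · rw [withZero, if_neg hqE]
        exact hLcob q ((Finset.mem_union.1 hq).resolve_right hqE) Y hY)
    (fun q hq => by
      have key : ∀ M, withZero E L (q : ℕ) (padicPlace (q : ℕ)) = M → ∀ m, w (q : ℕ) = m →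
          FiniteDimensional (ResidueField 𝒪) M ∧ Module.finrank (ResidueField 𝒪) M ≤ m →
          FiniteDimensional (ResidueField 𝒪) (withZero E L (q : ℕ) (padicPlace (q : ℕ))) ∧
            Module.finrank (ResidueField 𝒪) (withZero E L (q : ℕ) (padicPlace (q : ℕ))) ≤
              w (q : ℕ) := by
        rintro M rfl m rfl h
        exact h
      by_cases hqE : (q : ℕ) ∈ E
      · exact key _ (if_pos hqE) _ (if_pos hqE) ⟨inferInstance, (finrank_bot _ _).le⟩
      · exact key _ (if_neg hqE) _ (if_neg hqE) (hLdim q ((Finset.mem_union.1 hq).resolve_right hqE)))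
  refine ⟨D, hfin, hle, hcob, fun n Q hQ hdetect _ => ⟨(hD n Q hQ hdetect).1, ?_⟩⟩
  have h := (hD n Q hQ hdetect).2
  have hdis : Disjoint Smin E := Finset.disjoint_right.2 hE
  rw [Finset.sum_union hdis, Finset.card_union_of_disjoint hdis,
    Finset.sum_congr (g := fun q => if q = p then 4 else 3) rfl
      fun q hq => if_neg fun hqE => hE q hqE hq,
    Finset.sum_congr (g := fun _ => 0) rfl fun q hq => (if_pos hq : w q = 0),
    Finset.sum_const_zero, ← Finset.add_sum_erase _ _ hpSmin, if_pos rfl,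
    Finset.sum_congr rfl fun q hq => if_neg (Finset.ne_of_mem_erase hq), Finset.sum_const,
    Finset.card_erase_of_mem hpSmin, smul_eq_mul] at h
  have := Finset.card_pos.2 ⟨p, hpSmin⟩
  show Module.finrank _ ((TWAssembly.selmer (rbOf ρbar b) (Smin ∪ E ∪ Q) (Smin ∪ E)
    (withZero E L)).map (LinearMap.range (TWAssembly.adCoboundary (rbOf ρbar b))).mkQ) + _ ≤ _
  omega

end Fermat.Agent.LevelLowering.Avoid

end
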