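import Fermat.Agent.LevelLowering.Avoid.Statements
import Fermat.Agent.LevelLowering.General
import Fermat.Agent.LevelLowering.Residual.Setup

/-!
# Ihara avoidance: what the curve provides

A congruence at level `B ∏E` gives a coefficient ring, a residual system on `Γ₀(B ∏E)` with its
residual representation and auxiliary primes, and a system at level `B` gives a congruence there.
-/

set_option autoImplicit false

noncomputable section

open IsLocalRing

namespace Fermat.Agent.LevelLowering.Avoid

/-- The coefficient ring and the residual system of a congruence at level `B ∏E`. -/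
structure StartData (W : WeierstrassCurve ℤ) (p : ℕ) [Fact p.Prime] (B : ℕ) (E : Finset ℕ)
    (v₀ : ℕ) : Type 1 where
  O : Type
  [commRing : CommRing O]
  [isDomain : IsDomain O]
  [isDVR : IsDiscreteValuationRing O]
  [isAdicComplete : IsAdicComplete (maximalIdeal O) O]
  [finiteResidue : Finite (ResidueField O)]
  [charZero : CharZero O]
  [algebra : Algebra (ZMod p) (ResidueField O)]
  X : AvoidSetup p O
  B_eq : X.B = B
  E_eq : X.E = E
  setup : Residual.ResidualSetup W p O
  ζ : O
  hζ : IsPrimitiveRoot ζ (p ^ v₀)
  witness : X.Witness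
  isResidual : X.IsResidual setup.rhobar
  base : Nontrivial X.BaseSpace
  bottom : Nontrivial X.BottomSpace → CofiniteResModular W p B

/-- A congruence at level `B ∏E` gives the data. -/
def StartExists : Prop :=
  ∀ (W : WeierstrassCurve ℤ) (p : ℕ) [Fact p.Prime], W.Δ ≠ 0 → W.IsSemistableModel → p ≠ 2 →
    W.ModRepIsIrreducible p →
    ∀ (B : ℕ) (E : Finset ℕ), Squarefree B →
      (∀ q ∈ E, IsExceptional W p q ∧ ¬ q ∣ B) →
      CofiniteResModular W p (B * ∏ q ∈ E, q) → ∀ v₀ : ℕ,
        Nonempty (StartData W p B E v₀)

end Fermat.Agent.LevelLowering.Avoid
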