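import Fermat.Agent.LevelLowering.Avoid.Diamond
import Mathlib.GroupTheory.Index
import Mathlib.Data.ZMod.Units

/-!
# Degeneracy between `Γ_{H₀}(M)` and `Γ_H(M q)`

`H` is the preimage of `H₀`, so the character condition is trivial at `q ∤ M`. With `alOp` the
Atkin–Lehner operator of `[[q, -B], [M q, A q]]`, `A q + B M = 1`, and `traceOp` the corestriction:
`res (trace φ) = φ + U_q (al φ)`, `al (al φ) = ⟨q⟩ φ`, and `res`, `al` commute with all Hecke
operators away from `q` and with the diamond operators.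
-/

set_option autoImplicit false

noncomputable section

open Matrix
open Fermat.Agent.GroupH1
open Fermat.Agent.HeckeLattice (toGL toGL_mul toGL_one toGL_injective CosetSystem)
open scoped MatrixGroups OnePoint

namespace Fermat.Agent.LevelLowering.Avoid

variable {M : ℕ} {H₀ : Subgroup (ZMod M)ˣ} {q : ℕ} [hq : Fact q.Prime]

/-- The preimage of `H₀` at level `M q`. -/
abbrev levelH (H₀ : Subgroup (ZMod M)ˣ) (q : ℕ) : Subgroup (ZMod (M * q))ˣ :=
  H₀.comap (ZMod.unitsMap (dvd_mul_right M q))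

variable (hM : ¬ q ∣ M)

section Membership

omit hq in
lemma adm_of_levelH {m : Matrix (Fin 2) (Fin 2) ℤ} (h : Adm (M * q) (levelH H₀ q) m) :
    Adm M H₀ m ∧ (q : ℤ) ∣ m 1 0 := by
  obtain ⟨h0, u, hu, hu'⟩ := h
  refine ⟨⟨by simpa using congrArg (ZMod.castHom (dvd_mul_right M q) (ZMod M)) h0,
    ZMod.unitsMap (dvd_mul_right M q) u, hu, ?_⟩, ?_⟩
  · simpa [ZMod.unitsMap_def] using congrArg (ZMod.castHom (dvd_mul_right M q) (ZMod M)) hu'
  · exact (Int.natCast_dvd_natCast.2 (dvd_mul_left q M)).trans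
      ((ZMod.intCast_zmod_eq_zero_iff_dvd _ _).1 h0)

include hM in
/-- Admissibility at level `M q` away from determinants divisible by `q`. -/
lemma adm_levelH {m : Matrix (Fin 2) (Fin 2) ℤ} (h : Adm M H₀ m) (hc : (q : ℤ) ∣ m 1 0)
    (hd : ¬ (q : ℤ) ∣ m.det) : Adm (M * q) (levelH H₀ q) m := by
  obtain ⟨h0, v, hv, hv'⟩ := h
  have hunit : IsUnit (m 0 0 : ZMod (M * q)) := by
    rw [ZMod.coe_int_isUnit_iff_isCoprime, Nat.cast_mul]
    refine IsCoprime.mul_left ?_ ?_
    · exact (ZMod.coe_int_isUnit_iff_isCoprime _ _).1 (hv' ▸ v.isUnit)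
    · refine (Prime.coprime_iff_not_dvd (Nat.prime_iff_prime_int.1 hq.out)).2 fun h => hd ?_
      rw [Matrix.det_fin_two]
      exact dvd_sub (h.mul_right _) (hc.mul_left _)
  refine ⟨?_, hunit.unit, ?_, hunit.unit_spec⟩
  · rw [ZMod.intCast_zmod_eq_zero_iff_dvd, Nat.cast_mul]
    exact (isCoprime_left hM).mul_dvd ((ZMod.intCast_zmod_eq_zero_iff_dvd _ _).1 h0) hc
  · rw [Subgroup.mem_comap]
    convert hv
    ext
    simp [ZMod.unitsMap_def, hv']

omit hq in
/-- The raised level group lies in the base group. -/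
lemma levelH_le : GammaH (M * q) (levelH H₀ q) ≤ GammaH M H₀ := fun _ h => (adm_of_levelH h).1

include hM in
lemma mem_levelH {γ : SL(2, ℤ)} (h : γ ∈ GammaH M H₀) (hc : (q : ℤ) ∣ γ.1 1 0) :
    γ ∈ GammaH (M * q) (levelH H₀ q) :=
  adm_levelH hM h hc (by
    rw [γ.2]
    exact fun h => hq.out.ne_one (Nat.eq_one_of_dvd_one (Int.natCast_dvd_natCast.1 (by simpa using h))))

end Membership

section Matrices

variable (M q) in
/-- An Atkin–Lehner matrix at `q` which is `diag (q, 1)` modulo `M`. -/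
def alMat : Matrix (Fin 2) (Fin 2) ℤ :=
  !![(q : ℤ), -bezB M q; (M : ℤ) * q, bezA M q * q]

include hM in
/-- The Atkin–Lehner matrix has determinant `q`. -/
lemma det_alMat : (alMat M q).det = q := by
  rw [alMat, Matrix.det_fin_two_of]
  linear_combination (q : ℤ) * bez_eq hq.out hM

/-- The Atkin–Lehner matrix as an element of `GL₂(ℝ)`. -/
def alGL : GL (Fin 2) ℝ :=
  Matrix.GeneralLinearGroup.mkOfDetNeZero (realMat (alMat M q)) <| by
    rw [det_realMat, det_alMat hM]
    exact_mod_cast hq.out.ne_zero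

/-- The matrix of `alGL`. -/
lemma coe_alGL : (alGL hM : Matrix (Fin 2) (Fin 2) ℝ) = realMat (alMat M q) := rfl

include hM in
/-- The Atkin–Lehner matrix normalises admissible matrices of determinant prime to `q`. -/
theorem exists_alMat_mul {m : Matrix (Fin 2) (Fin 2) ℤ} (hm : Adm (M * q) (levelH H₀ q) m)
    (hd : ¬ (q : ℤ) ∣ m.det) : ∃ n, alMat M q * m = n * alMat M q ∧ n.det = m.det ∧
      Adm (M * q) (levelH H₀ q) n ∧ (n 0 0 : ZMod M) = m 0 0 := by
  have hb := bez_eq hq.out hM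
  obtain ⟨c, hc⟩ := (ZMod.intCast_zmod_eq_zero_iff_dvd _ _).1 hm.1
  push_cast at hc
  set A := bezA M q
  set B := bezB M q
  obtain ⟨a, ha⟩ : ∃ a, a = m 0 0 := ⟨_, rfl⟩
  obtain ⟨b, hb'⟩ : ∃ b, b = m 0 1 := ⟨_, rfl⟩
  obtain ⟨d, hd'⟩ : ∃ d, d = m 1 1 := ⟨_, rfl⟩
  obtain ⟨n, hn⟩ : ∃ n : Matrix (Fin 2) (Fin 2) ℤ,
      n = !![A * (q * a - B * M * q * c) - M * (q * b - B * d),
        B * (a - B * M * c) + q * b - B * d;
        (M : ℤ) * q * (A * a + A ^ 2 * q * c - M * b - A * d),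
        B * M * (a + A * q * c) + M * q * b + q * A * d] := ⟨_, rfl⟩
  have hmul : alMat M q * m = n * alMat M q := by
    rw [Matrix.eta_fin_two m, hc, ← ha, ← hb', ← hd', hn, alMat]
    ext i j
    fin_cases i <;> fin_cases j <;>
      simp [Matrix.mul_apply, Fin.sum_univ_two, A, B] <;>
      (first
        | linear_combination -((q : ℤ) * a - B * M * q * c) * hb
        | linear_combination -((q : ℤ) * b - B * d) * hb
        | linear_combination -((M : ℤ) * q * a + A * q * M * q * c) * hb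
        | linear_combination -((M : ℤ) * q * b + A * q * d) * hb)
  have hdet : n.det = m.det := by
    have h := congrArg Matrix.det hmul
    rw [Matrix.det_mul, Matrix.det_mul, det_alMat hM, mul_comm] at h
    exact (mul_right_cancel₀ (Int.natCast_ne_zero.2 hq.out.ne_zero) h).symm
  have hbM := congrArg (Int.cast : ℤ → ZMod M) hb
  push_cast at hbM
  rw [ZMod.natCast_self, mul_zero, add_zero] at hbM
  have h00 : (n 0 0 : ZMod M) = m 0 0 := by
    simp [hn, ← ha]
    linear_combination (a : ZMod M) * hbM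
  obtain ⟨hm0, v, hv, hv'⟩ := (adm_of_levelH hm).1
  refine ⟨n, hmul, hdet, adm_levelH hM ⟨by simp [hn], v, hv, hv'.trans h00.symm⟩ ?_
    (hdet ▸ hd), h00⟩
  exact ⟨(M : ℤ) * (A * a + A ^ 2 * q * c - M * b - A * d), by simp [hn]; ring⟩

/-- The square of the Atkin–Lehner matrix, divided by `q`. -/
def alSq : G₀ (M * q) :=
  ⟨⟨!![(q : ℤ) - bezB M q * M, -(bezB M q * (1 + bezA M q));
      ((M * q : ℕ) : ℤ) * (1 + bezA M q), bezA M q ^ 2 * q - bezB M q * M], by
    rw [Matrix.det_fin_two_of]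
    push_cast
    linear_combination (bezA M q * q + bezB M q * M + 1) * bez_eq hq.out hM⟩,
    mem_G₀.2 ((ZMod.intCast_zmod_eq_zero_iff_dvd _ _).2 ⟨1 + bezA M q, by simp⟩)⟩

lemma alGL_mul_alGL : alGL hM * alGL hM = qGL q * toGL (alSq hM) := by
  refine Units.ext ?_
  rw [Units.val_mul, Units.val_mul, coe_alGL, coe_qGL, coe_toGL, smul_mul_assoc, one_mul,
    ← realMat_mul, show (q : ℝ) = ((q : ℤ) : ℝ) by simp, ← realMat_smul]
  refine congrArg realMat ?_
  rw [alMat]
  ext i k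
  fin_cases i <;> fin_cases k <;> simp [alSq, Matrix.mul_apply, Fin.sum_univ_two] <;> ring

variable (H₀) in
/-- The elements `[[1, j - B], [M, M j + A q]]` of `Γ_{H₀}(M)`. -/
def trElt (j : ZMod q) : GammaH M H₀ :=
  ⟨⟨!![1, (j.val : ℤ) - bezB M q; (M : ℤ), (M : ℤ) * j.val + bezA M q * q], by
    rw [Matrix.det_fin_two_of]
    linear_combination bez_eq hq.out hM⟩, ⟨by simp, 1, H₀.one_mem, by simp⟩⟩

/-- The index set of `U_q`. -/
def uIdx (M : ℕ) (j : ZMod q) : HIdx (M * q) q :=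
  ⟨(j : OnePoint (ZMod q)), fun h => absurd h (OnePoint.coe_ne_infty j)⟩

omit hq in
lemma uIdx_bijective : Function.Bijective (uIdx (q := q) M) :=
  ⟨fun _ _ h => OnePoint.coe_injective (congrArg Subtype.val h), fun x => by
    obtain ⟨a, ha⟩ := exists_coe_of_hIdx x
    exact ⟨a, Subtype.ext ha.symm⟩⟩

lemma alGL_mul_repGL (j : ZMod q) :
    alGL hM * repGL (M * q) q (uIdx M j) = qGL q * toGL (trElt H₀ hM j) := by
  refine Units.ext ?_
  rw [Units.val_mul, Units.val_mul, coe_alGL, coe_repGL, coe_qGL, coe_toGL, smul_mul_assoc, one_mul,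
    ← realMat_mul, show (q : ℝ) = ((q : ℤ) : ℝ) by simp, ← realMat_smul]
  refine congrArg realMat ?_
  rw [uIdx, repInt_coe, alMat]
  ext i k
  fin_cases i <;> fin_cases k <;> simp [trElt, Matrix.mul_apply, Fin.sum_univ_two] <;> ring

end Matrices

section Systems

variable (H₀)

/-- The system of the Atkin–Lehner operator. -/
def alSystem : DoubleSystem (GammaH (M * q) (levelH H₀ q)) (GammaH (M * q) (levelH H₀ q)) Unit where
  β _ := alGL hM
  exists_mul γ _ := by
    obtain ⟨n, hn, hdet, hadm, -⟩ := exists_alMat_mul hM (mem_GammaH.1 γ.2) (by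
      rw [γ.1.2]
      exact fun h => hq.out.ne_one
        (Nat.eq_one_of_dvd_one (Int.natCast_dvd_natCast.1 (by simpa using h))))
    refine ⟨((), ofAdm n (hdet.trans γ.1.2) hadm), Units.ext ?_⟩
    rw [Units.val_mul, Units.val_mul, coe_alGL, coe_toGL, coe_toGL_ofAdm, ← realMat_mul,
      ← realMat_mul, hn]
  inj _ _ _ _ := rfl

/-- The Atkin–Lehner matrix normalises the raised level group. -/
lemma al_mul (γ : GammaH (M * q) (levelH H₀ q)) :
    alGL hM * toGL γ = toGL ((alSystem H₀ hM).cocycle γ ()) * alGL hM :=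
  (alSystem H₀ hM).rep_mul γ ()

/-- A transversal of `Γ_H(M q)` in `Γ_{H₀}(M)`. -/
def transversal : Option (ZMod q) → GammaH M H₀ := fun x => x.elim 1 (trElt H₀ hM)

include hM in
/-- Up to the transversal every element has lower left entry divisible by `q`. -/
lemma exists_transversal_mul (m : SL(2, ℤ)) :
    ∃ x, (q : ℤ) ∣ (m * (transversal H₀ hM x : SL(2, ℤ))⁻¹).1 1 0 := by
  by_cases hc : (q : ℤ) ∣ m.1 1 0
  · exact ⟨none, by simpa [transversal] using hc⟩
  refine ⟨some ((m.1 1 1 : ZMod q) / m.1 1 0), ?_⟩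
  have hc' : (m.1 1 0 : ZMod q) ≠ 0 := fun h => hc ((ZMod.intCast_zmod_eq_zero_iff_dvd _ _).1 h)
  rw [← ZMod.intCast_zmod_eq_zero_iff_dvd]
  simp [transversal, trElt, Matrix.SpecialLinearGroup.SL2_inv_expl, Matrix.mul_apply, Fin.sum_univ_two]
  field_simp
  ring

lemma transversal_inj (u : GammaH (M * q) (levelH H₀ q)) {x y : Option (ZMod q)}
    (h : (u : SL(2, ℤ)) * (transversal H₀ hM x : SL(2, ℤ)) = (transversal H₀ hM y : SL(2, ℤ))) : x = y := by
  have hu : (u.1.1 1 0 : ZMod q) = 0 :=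
    (ZMod.intCast_zmod_eq_zero_iff_dvd _ _).2 (adm_of_levelH (mem_GammaH.1 u.2)).2
  have hdet := congrArg (Int.cast : ℤ → ZMod q) u.1.2
  rw [Matrix.det_fin_two] at hdet
  push_cast at hdet
  rw [hu, mul_zero, sub_zero] at hdet
  have hu1 : (u.1.1 1 1 : ZMod q) ≠ 0 := right_ne_zero_of_mul_eq_one hdet
  have hMq : (M : ZMod q) ≠ 0 := fun h => hM ((ZMod.natCast_eq_zero_iff _ _).1 h)
  have h0 := congrArg (fun z : SL(2, ℤ) => (z.1 1 0 : ZMod q)) h
  have h1 := congrArg (fun z : SL(2, ℤ) => (z.1 1 1 : ZMod q)) h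
  rcases x with _ | i <;> rcases y with _ | j
  · rfl
  · simp [transversal, trElt, hu] at h0
    exact absurd h0.symm hMq
  · simp [transversal, trElt, Matrix.mul_apply, Fin.sum_univ_two, hu, hu1, hMq] at h0
  · simp [transversal, trElt, Matrix.mul_apply, Fin.sum_univ_two, hu] at h0 h1
    have hu' : (u.1.1 1 1 : ZMod q) = 1 := mul_right_cancel₀ hMq (h0.trans (one_mul _).symm)
    rw [hu', one_mul] at h1
    exact congrArg some (mul_left_cancel₀ hMq h1)

/-- The system of the trace. -/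
def traceSystem : DoubleSystem (GammaH (M * q) (levelH H₀ q)) (GammaH M H₀) (Option (ZMod q)) where
  β x := toGL (transversal H₀ hM x)
  exists_mul γ x := by
    obtain ⟨y, hy⟩ := exists_transversal_mul H₀ hM ((transversal H₀ hM x * γ : GammaH M H₀) : SL(2, ℤ))
    refine ⟨(y, ⟨_, mem_levelH hM (transversal H₀ hM x * γ * (transversal H₀ hM y)⁻¹).2 hy⟩), ?_⟩
    show toGL (transversal H₀ hM x) * toGL γ =
      toGL (transversal H₀ hM x * γ * (transversal H₀ hM y)⁻¹) * toGL (transversal H₀ hM y)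
    rw [← toGL_mul, ← toGL_mul, inv_mul_cancel_right]
  inj u x y h := by
    refine transversal_inj H₀ hM u (Matrix.SpecialLinearGroup.mapGL_injective (S := ℝ) ?_)
    rw [map_mul]
    exact h

variable {H₀} {B : Type*} [AddCommGroup B]

variable (H₀ q) in
/-- Restriction. -/
def resOp : (Additive (GammaH M H₀) →+ B) →+ (Additive (GammaH (M * q) (levelH H₀ q)) →+ B) :=
  resHom levelH_le

/-- The Atkin–Lehner operator. -/
def alOp : (Additive (GammaH (M * q) (levelH H₀ q)) →+ B) →+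
    (Additive (GammaH (M * q) (levelH H₀ q)) →+ B) := (alSystem H₀ hM).transfer

/-- The trace. -/
def traceOp : (Additive (GammaH (M * q) (levelH H₀ q)) →+ B) →+
    (Additive (GammaH M H₀) →+ B) := (traceSystem H₀ hM).transfer

/-- The values of the Atkin–Lehner operator. -/
lemma alOp_apply (φ : Additive (GammaH (M * q) (levelH H₀ q)) →+ B)
    (γ : GammaH (M * q) (levelH H₀ q)) :
    alOp hM φ (Additive.ofMul γ) = φ (Additive.ofMul ((alSystem H₀ hM).cocycle γ ())) := by
  rw [alOp, DoubleSystem.transfer_apply, Fintype.sum_unique]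

/-- `res ∘ trace = 1 + U_q ∘ al`. -/
theorem resOp_traceOp (φ : Additive (GammaH (M * q) (levelH H₀ q)) →+ B) :
    resOp H₀ q (traceOp hM φ) =
      φ + (heckeSystem (M * q) (levelH H₀ q) q).transfer (alOp hM φ) := by
  refine AddMonoidHom.ext fun γ => ?_
  rw [← ofMul_toMul γ, resOp, resHom_apply, traceOp, DoubleSystem.transfer_apply,
    AddMonoidHom.add_apply, CosetSystem.transfer_apply, Fintype.sum_option]
  set D := heckeSystem (M * q) (levelH H₀ q) q
  set c := Additive.toMul γ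
  congr 1
  · refine congrArg (fun g => φ (Additive.ofMul g)) ((traceSystem H₀ hM).eq_of_rep_mul
      (y := none) ?_).2
    show toGL (transversal H₀ hM none) * toGL (⟨c, levelH_le c.2⟩ : GammaH M H₀) =
      toGL c * toGL (transversal H₀ hM none)
    rw [show transversal H₀ hM none = 1 from rfl, toGL_one, one_mul, mul_one]
    exact toGL_coe_eq rfl
  · rw [← Equiv.sum_comp (Equiv.ofBijective _ (uIdx_bijective (M := M) (q := q)))]
    refine Finset.sum_congr rfl fun j _ => ?_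
    obtain ⟨j', hj'⟩ := uIdx_bijective.2 (D.next c (uIdx M j))
    rw [alOp_apply, Equiv.ofBijective_apply]
    refine congrArg (fun g => φ (Additive.ofMul g)) ((traceSystem H₀ hM).eq_of_rep_mul
      (y := some j') ?_).2
    show toGL (trElt H₀ hM j) * toGL (⟨c, levelH_le c.2⟩ : GammaH M H₀) =
      _ * toGL (trElt H₀ hM j')
    refine mul_left_cancel (a := qGL q) ?_
    rw [← mul_assoc, ← alGL_mul_repGL, mul_assoc, toGL_coe_eq (g := (⟨c, levelH_le c.2⟩ :
      GammaH M H₀)) (h := c) rfl, show repGL (M * q) q (uIdx M j) * toGL c = _ from D.rep_mul c _,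
      ← mul_assoc, al_mul, mul_assoc, show D.β (D.next c (uIdx M j)) = repGL (M * q) q _ from rfl,
      ← hj', alGL_mul_repGL (H₀ := H₀), ← mul_assoc, qGL_mul_comm, mul_assoc]

/-- `al ∘ al = ⟨q⟩`. -/
theorem alOp_alOp (φ : Additive (GammaH (M * q) (levelH H₀ q)) →+ B) :
    alOp hM (alOp hM φ) = diaOp (alSq hM) φ := by
  refine AddMonoidHom.ext fun γ => ?_
  rw [← ofMul_toMul γ, alOp_apply, alOp_apply, diaOp_apply]
  set c := Additive.toMul γ
  set c₁ := (alSystem H₀ hM).cocycle c ()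
  set c₂ := (alSystem H₀ hM).cocycle c₁ ()
  refine congrArg (fun g => φ (Additive.ofMul g)) (Subtype.ext ?_)
  let c' : G₀ (M * q) := ⟨c, coe_mem_G₀ c⟩
  let c₂' : G₀ (M * q) := ⟨c₂, coe_mem_G₀ c₂⟩
  have key : toGL (alSq hM * c') = toGL (c₂' * alSq hM) := by
    refine mul_left_cancel (a := qGL q) ?_
    rw [toGL_mul, toGL_mul, ← mul_assoc, ← alGL_mul_alGL, mul_assoc,
      toGL_coe_eq (g := c') (h := c) rfl, al_mul, ← mul_assoc, al_mul, mul_assoc, alGL_mul_alGL,
      toGL_coe_eq (g := c₂') (h := c₂) rfl, ← mul_assoc, qGL_mul_comm, mul_assoc]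
  have h := congrArg Subtype.val (toGL_injective key)
  simp only [Subgroup.coe_mul, c', c₂'] at h
  show (c₂ : SL(2, ℤ)) = (alSq hM : SL(2, ℤ)) * c * (alSq hM : SL(2, ℤ))⁻¹
  rw [h, mul_inv_cancel_right]

/-- The Atkin–Lehner operator commutes with the Hecke operators away from `q`. -/
theorem transfer_alOp {ℓ : ℕ} [hℓ : Fact ℓ.Prime] (hne : ℓ ≠ q)
    (φ : Additive (GammaH (M * q) (levelH H₀ q)) →+ B) :
    (heckeSystem (M * q) (levelH H₀ q) ℓ).transfer (alOp hM φ) =
      alOp hM ((heckeSystem (M * q) (levelH H₀ q) ℓ).transfer φ) := by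
  rw [← transfer_toDouble, ← transfer_toDouble]
  set T := toDouble (heckeSystem (M * q) (levelH H₀ q) ℓ)
  set W := alSystem H₀ hM
  have hinj : ∀ (u : GammaH (M * q) (levelH H₀ q)) (z z' : HIdx (M * q) ℓ × Unit),
      toGL u * (T.β z.1 * W.β z.2) = T.β z'.1 * W.β z'.2 → z = z' := fun u z z' h => by
    rw [← mul_assoc] at h
    exact Prod.ext (T.inj u _ _ (mul_right_cancel h)) rfl
  have hex : ∀ z : Unit × HIdx (M * q) ℓ, ∃ (y : HIdx (M * q) ℓ)
      (g : GammaH (M * q) (levelH H₀ q)), W.β z.1 * T.β z.2 = toGL g * (T.β y * alGL hM) := by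
    intro z
    have hqℓ : ¬ (q : ℤ) ∣ (repInt (M * q) ℓ z.2.1).det := by
      rw [det_repInt, Int.natCast_dvd_natCast, Nat.prime_dvd_prime_iff_eq hq.out hℓ.out]
      exact hne.symm
    obtain ⟨n, hn, hdet, hadm, -⟩ := exists_alMat_mul hM (adm_repInt z.2) hqℓ
    rw [det_repInt] at hdet
    obtain ⟨y, k, hk, hk'⟩ := exists_eq_mul_repInt (ℓ := ℓ) hadm (hdet ▸ dvd_rfl)
    have hk1 : k.det = 1 := by
      rw [hk, Matrix.det_mul, det_repInt] at hdet
      exact mul_right_cancel₀ (Int.natCast_ne_zero.2 hℓ.out.ne_zero) (by rw [hdet, one_mul])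
    refine ⟨y, ofAdm k hk1 hk', Units.ext ?_⟩
    show (alGL hM : Matrix (Fin 2) (Fin 2) ℝ) * (repGL (M * q) ℓ z.2 : Matrix (Fin 2) (Fin 2) ℝ) =
      _ * ((repGL (M * q) ℓ y : Matrix (Fin 2) (Fin 2) ℝ) * (alGL hM : Matrix (Fin 2) (Fin 2) ℝ))
    rw [coe_alGL, coe_repGL, coe_repGL, coe_toGL_ofAdm, ← realMat_mul, ← realMat_mul,
      ← realMat_mul, hn, hk, mul_assoc]
  choose e g hg using hex
  have hinje : Function.Injective fun z => (e z, ()) := by
    intro z z' hzz
    replace hzz : e z = e z' := congrArg Prod.fst hzz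
    refine Prod.ext rfl ?_
    set h := g z' * (g z)⁻¹
    have h1 : alGL hM * T.β z'.2 = toGL h * (alGL hM * T.β z.2) := by
      rw [show alGL hM * T.β z'.2 = _ from hg z', show alGL hM * T.β z.2 = _ from hg z, hzz,
        toGL_mul, DoubleSystem.toGL_inv, mul_assoc, inv_mul_cancel_left]
    have h2 := congrArg (alGL hM * ·) h1
    simp only [← mul_assoc, al_mul] at h2
    simp only [mul_assoc] at h2
    rw [← mul_assoc (alGL hM), alGL_mul_alGL, mul_assoc, ← mul_assoc (alGL hM), alGL_mul_alGL,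
      mul_assoc, ← mul_assoc (toGL _) (qGL q), qGL_mul_comm, mul_assoc] at h2
    let k : G₀ (M * q) := ⟨_, coe_mem_G₀ ((alSystem H₀ hM).cocycle h ())⟩
    have h3 := mul_left_cancel h2
    rw [toGL_coe_eq (g := (alSystem H₀ hM).cocycle h ()) (h := k) rfl] at h3
    have h4 : T.β z'.2 = toGL ((alSq hM)⁻¹ * k * alSq hM) * T.β z.2 := by
      rw [toGL_mul, toGL_mul, DoubleSystem.toGL_inv, mul_assoc, mul_assoc, ← h3,
        inv_mul_cancel_left]
    have h5 := congrArg (fun v : GL (Fin 2) ℝ => (v : Matrix (Fin 2) (Fin 2) ℝ)) h4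
    change (repGL (M * q) ℓ z'.2 : Matrix (Fin 2) (Fin 2) ℝ) =
      _ * (repGL (M * q) ℓ z.2 : Matrix (Fin 2) (Fin 2) ℝ) at h5
    simp only [coe_repGL, coe_toGL, ← realMat_mul] at h5
    exact eq_of_mul_repInt_eq ((alSq hM)⁻¹ * k * alSq hM).1.2 (realMat_injective h5).symm
  have hbij : Function.Bijective fun z => (e z, ()) :=
    (Fintype.bijective_iff_injective_and_card _).2 ⟨hinje, by simp⟩
  rw [alOp, W.transfer_transfer T (T.comp W hinj) (Equiv.ofBijective _ hbij) g hg]
  exact (DoubleSystem.transfer_comp _ _ _ _).symm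

/-- The Atkin–Lehner operator commutes with diamond operators. -/
theorem alOp_diaOp (g : G₀ (M * q)) (φ : Additive (GammaH (M * q) (levelH H₀ q)) →+ B) :
    alOp hM (diaOp g φ) = diaOp g (alOp hM φ) := by
  have hgtop : Adm (M * q) (levelH (⊤ : Subgroup (ZMod M)ˣ) q) g.1.1 := by
    rw [levelH, Subgroup.comap_top]; exact g.2
  obtain ⟨n, hn, hdet, hadm, h00⟩ := exists_alMat_mul hM hgtop (by
    rw [g.1.2]
    exact fun h => hq.out.ne_one
      (Nat.eq_one_of_dvd_one (Int.natCast_dvd_natCast.1 (by simpa using h))))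
  rw [levelH, Subgroup.comap_top] at hadm
  let g' : G₀ (M * q) := ⟨⟨n, hdet.trans g.1.2⟩, hadm⟩
  have hg' : diaOp g φ = diaOp g' φ := by
    refine diaOp_congr ?_ φ
    rw [Subgroup.mem_comap, map_mul, map_inv, mul_inv_eq_one.2 (Units.ext ?_)]
    · exact H₀.one_mem
    · simp [ZMod.unitsMap_def, coe_ulUnit, g', h00]
  rw [hg']
  refine AddMonoidHom.ext fun γ => ?_
  rw [← ofMul_toMul γ, alOp_apply, diaOp_apply, diaOp_apply, alOp_apply]
  set c := Additive.toMul γ
  refine congrArg (fun v => φ (Additive.ofMul v))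
    (((alSystem H₀ hM).eq_of_rep_mul (x := ()) (y := ()) ?_).2).symm
  have hgW : alGL hM * toGL g = toGL g' * alGL hM := by
    refine Units.ext ?_
    rw [Units.val_mul, Units.val_mul, coe_alGL, coe_toGL, coe_toGL, ← realMat_mul, ← realMat_mul,
      hn]
  have e1 : toGL (conjHom (levelH H₀ q) g c) = toGL g * toGL c * (toGL g)⁻¹ := by
    rw [toGL_coe_eq (g := c) (h := (⟨c, coe_mem_G₀ c⟩ : G₀ (M * q))) rfl, ← DoubleSystem.toGL_inv,
      ← toGL_mul, ← toGL_mul]
    exact toGL_coe_eq rfl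
  have e2 : ∀ d, toGL (conjHom (levelH H₀ q) g' d) = toGL g' * toGL d * (toGL g')⁻¹ := fun d => by
    rw [toGL_coe_eq (g := d) (h := (⟨d, coe_mem_G₀ d⟩ : G₀ (M * q))) rfl, ← DoubleSystem.toGL_inv,
      ← toGL_mul, ← toGL_mul]
    exact toGL_coe_eq rfl
  show alGL hM * toGL (conjHom _ g c) = _ * alGL hM
  have hW' : (toGL g')⁻¹ * alGL hM = alGL hM * (toGL g)⁻¹ := by
    rw [eq_mul_inv_iff_mul_eq, mul_assoc, hgW, inv_mul_cancel_left]
  rw [e1, e2]
  symm
  rw [mul_assoc _ (toGL g')⁻¹, hW', mul_assoc (toGL g'), ← mul_assoc (toGL _) (alGL hM), ← al_mul]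
  rw [mul_assoc (alGL hM) (toGL c), ← mul_assoc (toGL g'), ← hgW]
  simp only [mul_assoc]

/-- Restriction commutes with the Hecke operators away from `q`. -/
theorem transfer_resOp {ℓ : ℕ} [hℓ : Fact ℓ.Prime] (hne : ℓ ≠ q)
    (φ : Additive (GammaH M H₀) →+ B) :
    (heckeSystem (M * q) (levelH H₀ q) ℓ).transfer (resOp H₀ q φ) =
      resOp H₀ q ((heckeSystem M H₀ ℓ).transfer φ) := by
  classical
  have hiff : ℓ ∣ M * q ↔ ℓ ∣ M :=
    ⟨fun h => (hℓ.out.dvd_mul.1 h).resolve_right fun h' =>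
      hne ((Nat.prime_dvd_prime_iff_eq hℓ.out hq.out).1 h'), fun h => h.trans (dvd_mul_right _ _)⟩
  have hex : ∀ x : HIdx (M * q) ℓ, ∃ (y : HIdx M ℓ) (g : GammaH M H₀),
      repGL (M * q) ℓ x = toGL g * repGL M ℓ y := by
    intro x
    obtain ⟨y, n, hn, hn'⟩ := exists_eq_mul_repInt (ℓ := ℓ)
      (adm_of_levelH (adm_repInt (H := levelH H₀ q) x)).1 ⟨1, by rw [det_repInt, mul_one]⟩
    have hn1 : n.det = 1 := by
      have := congrArg Matrix.det hn
      rw [Matrix.det_mul, det_repInt, det_repInt] at this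
      exact mul_right_cancel₀ (Int.natCast_ne_zero.2 hℓ.out.ne_zero) (by rw [← this, one_mul])
    refine ⟨y, ofAdm n hn1 hn', Units.ext ?_⟩
    rw [Units.val_mul, coe_repGL, coe_repGL, coe_toGL_ofAdm, ← realMat_mul, hn]
  choose e g hg using hex
  have hcard : Fintype.card (HIdx (M * q) ℓ) = Fintype.card (HIdx M ℓ) :=
    Fintype.card_congr (Equiv.subtypeEquivRight fun x => by rw [hiff])
  have he : Function.Bijective e := by
    refine (Fintype.bijective_iff_injective_and_card _).2 ⟨fun x y hxy => ?_, hcard⟩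
    have h1 : toGL (g y * (g x)⁻¹) * repGL (M * q) ℓ x = repGL (M * q) ℓ y := by
      rw [hg x, hg y, hxy, toGL_mul, DoubleSystem.toGL_inv, mul_assoc, inv_mul_cancel_left]
    have h2 := congrArg (fun z : GL (Fin 2) ℝ => (z : Matrix (Fin 2) (Fin 2) ℝ)) h1
    simp only [Units.val_mul, coe_repGL, coe_toGL, ← realMat_mul] at h2
    exact eq_of_mul_repInt_eq (g y * (g x)⁻¹).1.2 (realMat_injective h2)
  refine AddMonoidHom.ext fun γ => ?_
  rw [← ofMul_toMul γ, CosetSystem.transfer_apply, resOp, resHom_apply, CosetSystem.transfer_apply,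
    ← (Equiv.ofBijective e he).sum_comp]
  set D' := heckeSystem (M * q) (levelH H₀ q) ℓ
  set D := heckeSystem M H₀ ℓ
  set c := Additive.toMul γ
  have key : ∀ x, φ (Additive.ofMul (D.cocycle ⟨c, levelH_le c.2⟩ (e x))) =
      resHom levelH_le φ (Additive.ofMul (D'.cocycle c x)) +
        (φ (Additive.ofMul (g (D'.next c x))) - φ (Additive.ofMul (g x))) := by
    intro x
    set k : GammaH M H₀ := ⟨_, levelH_le (D'.cocycle c x).2⟩
    obtain ⟨-, h⟩ := D.eq_of_rep_mul (γ := ⟨c, levelH_le c.2⟩) (x := e x) (y := e (D'.next c x))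
      (g := (g x)⁻¹ * k * g (D'.next c x)) (by
        show repGL M ℓ (e x) * toGL c = _ * repGL M ℓ _
        rw [toGL_mul, toGL_mul, DoubleSystem.toGL_inv]
        simp only [mul_assoc]
        rw [← hg, eq_inv_mul_iff_mul_eq, ← mul_assoc, ← hg]
        exact D'.rep_mul c x)
    rw [h, resHom_apply]
    simp only [ofMul_mul, ofMul_inv, map_add, map_neg, k]
    abel
  simp only [Equiv.ofBijective_apply, key, Finset.sum_add_distrib, Finset.sum_sub_distrib]
  rw [show ∑ x, φ (Additive.ofMul (g (D'.next c x))) = ∑ x, φ (Additive.ofMul (g x)) from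
    Equiv.sum_comp (D'.nextPerm c) (fun x => φ (Additive.ofMul (g x))), sub_self, add_zero]

/-- Restriction is injective on torsion-free coefficients. -/
theorem resOp_injective [NeZero M] [IsAddTorsionFree B] :
    Function.Injective (resOp (B := B) H₀ q) := by
  have : NeZero (M * q) := ⟨mul_ne_zero (NeZero.ne M) hq.out.ne_zero⟩
  refine (injective_iff_map_eq_zero _).2 fun φ h => AddMonoidHom.ext fun γ => ?_
  rw [← ofMul_toMul γ]
  set c := Additive.toMul γ
  obtain ⟨n, hn, -, hmem⟩ := Subgroup.exists_pow_mem_of_index_ne_zero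
    (H := GammaH (M * q) (levelH H₀ q)) Subgroup.FiniteIndex.index_ne_zero (c : SL(2, ℤ))
  have h0 := DFunLike.congr_fun h (Additive.ofMul (⟨_, hmem⟩ : GammaH (M * q) (levelH H₀ q)))
  rw [resOp, resHom_apply, show (⟨(c : SL(2, ℤ)) ^ n, levelH_le hmem⟩ : GammaH M H₀) = c ^ n from
    Subtype.ext rfl, ofMul_pow, map_nsmul, AddMonoidHom.zero_apply] at h0
  exact (nsmul_eq_zero_iff_right hn.ne').1 h0

end Systems

end Fermat.Agent.LevelLowering.Avoid
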