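import Fermat.Agent.LevelLowering.Avoid.Degeneracy

/-!
# Descent at a prime where the character condition is trivial

An eigenclass at level `M q` whose `U_q`-eigenvalue `α` does not satisfy `χ(q) α² = 1` comes from
level `M`: otherwise it and its Atkin–Lehner transform are killed by the trace, so `U_q = -al⁻¹`.
-/

set_option autoImplicit false

noncomputable section

open Fermat.Agent.GroupH1
open scoped MatrixGroups

namespace Fermat.Agent.LevelLowering.Avoid

variable {M : ℕ} [NeZero M] {H₀ : Subgroup (ZMod M)ˣ} {q : ℕ} [hq : Fact q.Prime] (hM : ¬ q ∣ M)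
  {K : Type} [CommRing K] [IsDomain K] [CharZero K]

omit hq [NeZero M] in
/-- The upper left unit is compatible with lowering the level. -/
lemma ulUnit_incl (g : G₀ (M * q)) :
    ulUnit (⟨g, G₀_le g.2⟩ : G₀ M) = ZMod.unitsMap (dvd_mul_right M q) (ulUnit g) := by
  ext
  simp [ZMod.unitsMap_def, coe_ulUnit]

include hM in
omit [NeZero M] in
/-- The square of the Atkin–Lehner element has upper left entry `q` modulo `M`. -/
lemma ulUnit_alSq :
    (ulUnit (⟨alSq hM, G₀_le (alSq hM).2⟩ : G₀ M) : ZMod M) = (q : ZMod M) := by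
  rw [coe_ulUnit]
  simp [alSq]

/-- An eigensystem of the Hecke operators in `P` and of the diamond operators. -/
def IsEigen {N : ℕ} {H : Subgroup (ZMod N)ˣ} (P : Set Nat.Primes) (a : Nat.Primes → K)
    (χ : G₀ N → K) (x : HMod N H K) : Prop :=
  (∀ ℓ ∈ P, (MvPolynomial.X ℓ : HeckePoly K) • x = a ℓ • x) ∧ ∀ g, diaLin g x = χ g • x

section

variable (P : Set Nat.Primes) (hP : primeOf q ∉ P) (a : Nat.Primes → K) (χ : (ZMod M)ˣ → K)

variable (H₀ q) in
/-- Restriction on Hecke modules. -/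
def resHLin : HMod M H₀ K →ₗ[K] HMod (M * q) (levelH H₀ q) K where
  toFun x := toH (resOp H₀ q (toH.symm x))
  map_add' x y := by simp
  map_smul' r x := by rw [map_smul]; exact congrArg toH (AddMonoidHom.ext fun _ => rfl)

/-- The Atkin–Lehner operator on Hecke modules. -/
def alHLin : HMod (M * q) (levelH H₀ q) K →ₗ[K] HMod (M * q) (levelH H₀ q) K :=
  toH.toLinearMap.comp (((alSystem H₀ hM).transferₗ K).comp toH.symm.toLinearMap)

/-- The trace on Hecke modules. -/
def traceHLin : HMod (M * q) (levelH H₀ q) K →ₗ[K] HMod M H₀ K :=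
  toH.toLinearMap.comp (((traceSystem H₀ hM).transferₗ K).comp toH.symm.toLinearMap)

omit [NeZero M] [IsDomain K] [CharZero K] in
/-- The Atkin–Lehner map on homomorphisms. -/
lemma alHLin_toH (φ : Additive (GammaH (M * q) (levelH H₀ q)) →+ K) :
    alHLin hM (toH φ) = toH (alOp hM φ) := rfl

omit [NeZero M] [IsDomain K] [CharZero K] in
/-- `res ∘ trace = 1 + U_q ∘ al`. -/
lemma resHLin_traceHLin (x : HMod (M * q) (levelH H₀ q) K) :
    resHLin H₀ q (traceHLin hM x) =
      x + (MvPolynomial.X (primeOf q) : HeckePoly K) • alHLin hM x := by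
  obtain ⟨φ, rfl⟩ := toH.surjective x
  rw [alHLin_toH, X_smul_toH, ← map_add, ← resOp_traceOp]
  rfl

omit [NeZero M] [IsDomain K] [CharZero K] in
/-- The Atkin–Lehner map squares to the diamond operator of `q`. -/
lemma alHLin_alHLin (x : HMod (M * q) (levelH H₀ q) K) :
    alHLin hM (alHLin hM x) = diaLin (alSq hM) x := by
  obtain ⟨φ, rfl⟩ := toH.surjective x
  rw [alHLin_toH, alHLin_toH, diaLin_toH, alOp_alOp]

omit [NeZero M] [IsDomain K] [CharZero K] in
lemma X_alHLin {ℓ : Nat.Primes} (hne : ℓ ≠ primeOf q) (x : HMod (M * q) (levelH H₀ q) K) :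
    (MvPolynomial.X ℓ : HeckePoly K) • alHLin hM x =
      alHLin hM ((MvPolynomial.X ℓ : HeckePoly K) • x) := by
  obtain ⟨ℓ, hl⟩ := ℓ
  have : Fact ℓ.Prime := ⟨hl⟩
  obtain ⟨φ, rfl⟩ := toH.surjective x
  show (MvPolynomial.X (primeOf ℓ) : HeckePoly K) • alHLin hM (toH φ) =
    alHLin hM ((MvPolynomial.X (primeOf ℓ) : HeckePoly K) • toH φ)
  rw [alHLin_toH, X_smul_toH, X_smul_toH, alHLin_toH, transfer_alOp hM fun h => hne (Subtype.ext h)]

omit [NeZero M] [IsDomain K] [CharZero K] in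
/-- The Atkin–Lehner map commutes with the diamond operators. -/
lemma diaLin_alHLin (g : G₀ (M * q)) (x : HMod (M * q) (levelH H₀ q) K) :
    diaLin g (alHLin hM x) = alHLin hM (diaLin g x) := by
  obtain ⟨φ, rfl⟩ := toH.surjective x
  rw [alHLin_toH, diaLin_toH, diaLin_toH, alHLin_toH, alOp_diaOp]

omit [IsDomain K] [CharZero K] in
lemma X_diaLin (ℓ : Nat.Primes) (g : G₀ (M * q)) (x : HMod (M * q) (levelH H₀ q) K) :
    (MvPolynomial.X ℓ : HeckePoly K) • diaLin g x =
      diaLin g ((MvPolynomial.X ℓ : HeckePoly K) • x) := by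
  obtain ⟨ℓ, hl⟩ := ℓ
  have : Fact ℓ.Prime := ⟨hl⟩
  have : NeZero (M * q) := ⟨mul_ne_zero (NeZero.ne M) hq.out.ne_zero⟩
  obtain ⟨φ, rfl⟩ := toH.surjective x
  show (MvPolynomial.X (primeOf ℓ) : HeckePoly K) • diaLin g (toH φ) =
    diaLin g ((MvPolynomial.X (primeOf ℓ) : HeckePoly K) • toH φ)
  rw [diaLin_toH, X_smul_toH, X_smul_toH, diaLin_toH, transfer_diaOp]

omit [NeZero M] [IsDomain K] [CharZero K] in
lemma X_resHLin {ℓ : Nat.Primes} (hne : ℓ ≠ primeOf q) (y : HMod M H₀ K) :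
    (MvPolynomial.X ℓ : HeckePoly K) • resHLin H₀ q y =
      resHLin H₀ q ((MvPolynomial.X ℓ : HeckePoly K) • y) := by
  obtain ⟨ℓ, hl⟩ := ℓ
  have : Fact ℓ.Prime := ⟨hl⟩
  obtain ⟨φ, rfl⟩ := toH.surjective y
  show (MvPolynomial.X (primeOf ℓ) : HeckePoly K) • toH (resOp H₀ q φ) =
    resHLin H₀ q ((MvPolynomial.X (primeOf ℓ) : HeckePoly K) • toH φ)
  rw [X_smul_toH, X_smul_toH, transfer_resOp fun h => hne (Subtype.ext h)]
  rfl

/-- Restriction to the raised level is injective. -/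
lemma resHLin_injective : Function.Injective (resHLin (K := K) H₀ q) := fun _ _ h =>
  toH.symm.injective (resOp_injective (toH.injective h))

/-- The trace commutes with the Hecke operators away from `q`. -/
lemma X_traceHLin {ℓ : Nat.Primes} (hne : ℓ ≠ primeOf q) (x : HMod (M * q) (levelH H₀ q) K) :
    (MvPolynomial.X ℓ : HeckePoly K) • traceHLin hM x =
      traceHLin hM ((MvPolynomial.X ℓ : HeckePoly K) • x) := by
  refine resHLin_injective (q := q) ?_
  rw [← X_resHLin hne, resHLin_traceHLin, resHLin_traceHLin, smul_add,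
    smul_comm (MvPolynomial.X ℓ : HeckePoly K), X_alHLin hM hne]

variable {P a χ}

include hP in
omit [NeZero M] [IsDomain K] [CharZero K] in
/-- The Atkin–Lehner operator preserves eigenclasses. -/
lemma IsEigen.al {x : HMod (M * q) (levelH H₀ q) K}
    (hx : IsEigen P a (fun g => χ (ulUnit ⟨g, G₀_le g.2⟩)) x) :
    IsEigen P a (fun g => χ (ulUnit ⟨g, G₀_le g.2⟩)) (alHLin hM x) :=
  ⟨fun ℓ hℓ => by rw [X_alHLin hM (fun h => hP (h ▸ hℓ)), hx.1 ℓ hℓ, map_smul],
    fun g => by rw [diaLin_alHLin, hx.2, map_smul]⟩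

include hP in
/-- The trace preserves eigenclasses. -/
lemma IsEigen.trace {x : HMod (M * q) (levelH H₀ q) K}
    (hx : IsEigen P a (fun g => χ (ulUnit ⟨g, G₀_le g.2⟩)) x) :
    IsEigen P a (fun g => χ (ulUnit g)) (traceHLin hM x) := by
  have hal := hx.al hM hP
  refine ⟨fun ℓ hℓ => ?_, fun g => resHLin_injective (q := q) ?_⟩
  · rw [X_traceHLin hM (fun h => hP (h ▸ hℓ)), hx.1 ℓ hℓ, map_smul]
  · obtain ⟨y, hy⟩ := exists_transversal_mul H₀ hM (g : SL(2, ℤ))
    let t : G₀ M := ⟨transversal H₀ hM y, coe_mem_G₀ _⟩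
    let g' : G₀ (M * q) := ⟨(g * t⁻¹ : G₀ M), (mem_G₀_mul hM).2
      ⟨(g * t⁻¹).2, (ZMod.intCast_zmod_eq_zero_iff_dvd _ _).2 hy⟩⟩
    have ht : ulUnit t = 1 := by
      ext
      rw [coe_ulUnit]
      rcases y with _ | j <;> simp [t, transversal, trElt]
    have hu : ulUnit (⟨g', G₀_le g'.2⟩ : G₀ M) = ulUnit g := by
      rw [show (⟨g', G₀_le g'.2⟩ : G₀ M) = g * t⁻¹ from rfl, ulUnit_mul, ulUnit_inv, ht, inv_one,
        mul_one]
    have hdg : ∀ z : HMod M H₀ K, diaLin g z = diaLin ⟨g', G₀_le g'.2⟩ z := fun z => by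
      obtain ⟨φ, rfl⟩ := toH.surjective z
      rw [diaLin_toH, diaLin_toH, diaOp_congr (g := (⟨g', G₀_le g'.2⟩ : G₀ M)) (g' := g) ?_ φ]
      rw [hu, mul_inv_cancel]
      exact H₀.one_mem
    have hres : ∀ z : HMod M H₀ K,
        resHLin H₀ q (diaLin ⟨g', G₀_le g'.2⟩ z) = diaLin g' (resHLin H₀ q z) := fun z => rfl
    rw [hdg, hres, resHLin_traceHLin, map_add, ← X_diaLin, hx.2, hal.2, map_smul,
      resHLin_traceHLin, smul_add, smul_comm]
    simp only [hu]

end

end Fermat.Agent.LevelLowering.Avoid
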