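import Fermat.Agent.GroupH1.HeckePair
import Fermat.Agent.GroupH1.Degeneracy
import Fermat.Agent.GroupH1.TW

/-!
# Diamond operators on `Hom(Γ_H(N), B)`

`diaOp g` is pull back along conjugation by `g ∈ Γ₀(N)`; it depends only on the upper left entry of
`g` modulo `H`, commutes with all Hecke operators, and agrees with the deck transformations.
-/

set_option autoImplicit false

noncomputable section

open Matrix
open Fermat.Agent.GroupH1
open Fermat.Agent.HeckeLattice (toGL)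
open scoped MatrixGroups

namespace Fermat.Agent.LevelLowering.Avoid

variable {N : ℕ} {H : Subgroup (ZMod N)ˣ}

/-- The upper left entry of an element of `Γ₀(N)`. -/
def ulUnit (g : G₀ N) : (ZMod N)ˣ := (upperLeft N ⊤ g).1

/-- The upper left unit is the upper left entry. -/
lemma coe_ulUnit (g : G₀ N) : (ulUnit g : ZMod N) = (g.1.1 0 0 : ZMod N) := coe_upperLeft g

/-- The upper left unit is multiplicative. -/
lemma ulUnit_mul (g h : G₀ N) : ulUnit (g * h) = ulUnit g * ulUnit h := by simp [ulUnit]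

/-- The upper left unit of an inverse. -/
lemma ulUnit_inv (g : G₀ N) : ulUnit g⁻¹ = (ulUnit g)⁻¹ := by simp [ulUnit]

/-- `Γ_H(N)` consists of the elements with upper left unit in `H`. -/
lemma mem_GammaH_iff_ulUnit (g : G₀ N) : (g : SL(2, ℤ)) ∈ GammaH N H ↔ ulUnit g ∈ H := by
  refine ⟨?_, fun h => ⟨g.2.1, _, h, coe_ulUnit g⟩⟩
  rintro ⟨-, v, hv, hv'⟩
  rwa [show ulUnit g = v from Units.ext (by rw [coe_ulUnit, hv'])]

/-- `Γ_H(N)` lies in `Γ₀(N)`. -/
lemma coe_mem_G₀ (γ : GammaH N H) : (γ : SL(2, ℤ)) ∈ G₀ N := GammaH_mono le_top γ.2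

lemma conj_mem_GammaH (g : G₀ N) (γ : GammaH N H) :
    (g : SL(2, ℤ)) * γ * (g : SL(2, ℤ))⁻¹ ∈ GammaH N H := by
  refine (mem_GammaH_iff_ulUnit (g * ⟨γ, coe_mem_G₀ γ⟩ * g⁻¹)).2 ?_
  rw [ulUnit_mul, ulUnit_mul, ulUnit_inv, mul_comm (ulUnit g), mul_inv_cancel_right]
  exact (mem_GammaH_iff_ulUnit _).1 γ.2

variable (H) in
/-- Conjugation by an element of `Γ₀(N)`. -/
def conjHom (g : G₀ N) : GammaH N H →* GammaH N H where
  toFun γ := ⟨_, conj_mem_GammaH g γ⟩
  map_one' := Subtype.ext (by simp)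
  map_mul' γ δ := Subtype.ext (by simp [mul_assoc])

/-- Conjugation is an action of `Γ₀(N)`. -/
lemma conjHom_mul (g h : G₀ N) (γ : GammaH N H) :
    conjHom H (g * h) γ = conjHom H g (conjHom H h γ) :=
  Subtype.ext (by simp [conjHom, mul_assoc])

variable {B : Type*} [AddCommGroup B]

/-- The diamond operator of `g`. -/
def diaOp (g : G₀ N) : (Additive (GammaH N H) →+ B) →+ (Additive (GammaH N H) →+ B) :=
  AddMonoidHom.compHom' (conjHom H g).toAdditive

/-- The values of a diamond operator. -/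
lemma diaOp_apply (g : G₀ N) (φ : Additive (GammaH N H) →+ B) (γ : GammaH N H) :
    diaOp g φ (Additive.ofMul γ) = φ (Additive.ofMul (conjHom H g γ)) := rfl

/-- An element of `GammaH N H` acts trivially. -/
lemma diaOp_eq_self {k : G₀ N} (hk : (k : SL(2, ℤ)) ∈ GammaH N H)
    (φ : Additive (GammaH N H) →+ B) : diaOp k φ = φ := by
  refine AddMonoidHom.ext fun γ => ?_
  rw [← ofMul_toMul γ, diaOp_apply,
    show conjHom H k (Additive.toMul γ) = ⟨_, hk⟩ * Additive.toMul γ * (⟨_, hk⟩ : GammaH N H)⁻¹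
      from Subtype.ext rfl, ofMul_mul, ofMul_mul, ofMul_inv, map_add, map_add, map_neg]
  abel

/-- The diamond operator depends only on the class of the upper left entry. -/
theorem diaOp_congr {g g' : G₀ N} (h : ulUnit g' * (ulUnit g)⁻¹ ∈ H)
    (φ : Additive (GammaH N H) →+ B) : diaOp g' φ = diaOp g φ := by
  refine AddMonoidHom.ext fun γ => ?_
  obtain ⟨k, rfl⟩ : ∃ k, g' = k * g := ⟨g' * g⁻¹, (inv_mul_cancel_right g' g).symm⟩
  rw [ulUnit_mul, mul_inv_cancel_right] at h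
  rw [← ofMul_toMul γ, diaOp_apply, conjHom_mul, ← diaOp_apply k,
    diaOp_eq_self ((mem_GammaH_iff_ulUnit k).2 h), diaOp_apply]

/-- Deck transformations are diamond operators. -/
theorem conjSystem_transfer_eq [NeZero N] {Δ : Type*} [CommGroup Δ]
    (χ : (⊤ : Subgroup (ZMod N)ˣ) →* Δ) (hχ : Function.Surjective χ)
    (hker : ∀ u : (⊤ : Subgroup (ZMod N)ˣ), (u : (ZMod N)ˣ) ∈ H ↔ χ u = 1) (g : G₀ N)
    (φ : Additive (GammaH N H) →+ B) :
    ((deckDataGammaH le_top χ hχ hker).conjSystem (χ (upperLeft N ⊤ g))).transfer φ =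
      diaOp g φ := by
  set P := deckDataGammaH le_top χ hχ hker with hP
  set δ := χ (upperLeft N ⊤ g) with hδ
  refine AddMonoidHom.ext fun γ => ?_
  rw [← ofMul_toMul γ, DoubleSystem.transfer_apply, Fintype.sum_unique]
  set c := Additive.toMul γ
  obtain ⟨-, h⟩ := (P.conjSystem δ).eq_of_rep_mul (γ := c) (x := default) (y := default)
    (g := conjHom H (P.sec δ) c) (by
      simp [DeckData.conjSystem, conjHom, Fermat.Agent.HeckeLattice.toGL])
  rw [h, ← diaOp_apply]
  refine DFunLike.congr_fun (diaOp_congr ?_ φ) _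
  have h1 : χ (upperLeft N ⊤ (P.sec δ)) = δ := P.χ_sec δ
  have h2 := (hker (upperLeft N ⊤ (P.sec δ) * (upperLeft N ⊤ g)⁻¹)).2 (by
    rw [map_mul, map_inv, h1, hδ, mul_inv_cancel])
  simpa [ulUnit] using h2

/-- Diamond operators commute with Hecke operators. -/
theorem transfer_diaOp [NeZero N] {ℓ : ℕ} [Fact ℓ.Prime] (g : G₀ N)
    (φ : Additive (GammaH N H) →+ B) :
    (heckeSystem N H ℓ).transfer (diaOp g φ) = diaOp g ((heckeSystem N H ℓ).transfer φ) := by
  let H₁ : Subgroup (⊤ : Subgroup (ZMod N)ˣ) := H.subgroupOf ⊤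
  have hker : ∀ u : (⊤ : Subgroup (ZMod N)ˣ),
      (u : (ZMod N)ˣ) ∈ H ↔ QuotientGroup.mk' H₁ u = 1 := fun u => by
    rw [QuotientGroup.mk'_apply, QuotientGroup.eq_one_iff, Subgroup.mem_subgroupOf]
  have hs := QuotientGroup.mk'_surjective H₁
  rw [← conjSystem_transfer_eq (Δ := (⊤ : Subgroup (ZMod N)ˣ) ⧸ H₁) (QuotientGroup.mk' H₁) hs hker g,
    ← conjSystem_transfer_eq (Δ := (⊤ : Subgroup (ZMod N)ˣ) ⧸ H₁) (QuotientGroup.mk' H₁) hs hker g]
  exact (heckePair le_top _ hs hker ℓ).transfer_conj _ φ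

/-- The diamond operator on the Hecke module. -/
def diaLin {K : Type} [CommRing K] (g : G₀ N) : HMod N H K →ₗ[K] HMod N H K where
  toFun x := toH (diaOp g (toH.symm x))
  map_add' x y := by simp
  map_smul' r x := by rw [map_smul]; exact congrArg toH (AddMonoidHom.ext fun _ => rfl)

/-- The diamond operators on homomorphisms. -/
lemma diaLin_toH {K : Type} [CommRing K] (g : G₀ N) (φ : Additive (GammaH N H) →+ K) :
    diaLin g (toH φ) = toH (diaOp g φ) := rfl

/-- `diaLin` agrees with `deckLin`. -/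
theorem deckLin_eq_diaLin [NeZero N] {Δ : Type} [CommGroup Δ]
    (χ : (⊤ : Subgroup (ZMod N)ˣ) →* Δ) (hχ : Function.Surjective χ)
    (hker : ∀ u : (⊤ : Subgroup (ZMod N)ˣ), (u : (ZMod N)ˣ) ∈ H ↔ χ u = 1) {K : Type}
    [CommRing K] (g : G₀ N) (x : HMod N H K) :
    deckLin le_top χ hχ hker (χ (upperLeft N ⊤ g)) x = diaLin g x := by
  obtain ⟨φ, rfl⟩ := toH.surjective x
  rw [deckLin_toH, diaLin_toH, conjSystem_transfer_eq]

end Fermat.Agent.LevelLowering.Avoid
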