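import Mathlib.RingTheory.MvPowerSeries.Basic
import Mathlib.RingTheory.MvPowerSeries.Inverse
import Mathlib.Data.Matrix.Basic
import Mathlib.LinearAlgebra.Matrix.Defs
import Mathlib.RingTheory.LocalRing.MaximalIdeal.Basic

/-!
# Ihara avoidance: the ring of local coordinates at the exceptional primes

For each `i : ι` (an exceptional prime) there are six coordinates: `a, b, c` are the entries of
the trace-zero part `[[a, b], [c, -a]]` of a tame inertia generator and `u, v, w` those of the
trace-zero part of a Frobenius.  The remaining coordinates are indexed by `σ`.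
-/

set_option autoImplicit false

noncomputable section

open IsLocalRing

namespace Fermat.Agent.LevelLowering.Avoid

variable (O : Type) [CommRing O] (ι σ : Type)

/-- The index type of the coordinates. -/
abbrev Coord : Type := (ι × Fin 6) ⊕ σ

/-- The power series ring in the coordinates. -/
abbrev CoordRing : Type := MvPowerSeries (Coord ι σ) O

variable {O ι σ}

/-- The coordinate number `j` at `i`. -/
def coord (i : ι) (j : Fin 6) : CoordRing O ι σ := MvPowerSeries.X (Sum.inl (i, j))

/-- `a² + bc - c₀`. -/
def eigenRel (i : ι) (c₀ : O) : CoordRing O ι σ :=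
  coord i 0 * coord i 0 + coord i 1 * coord i 2 - MvPowerSeries.C c₀

/-- The minor `a v - b u`. -/
def minorAB (i : ι) : CoordRing O ι σ := coord i 0 * coord i 4 - coord i 1 * coord i 3

/-- The minor `a w - c u`. -/
def minorAC (i : ι) : CoordRing O ι σ := coord i 0 * coord i 5 - coord i 2 * coord i 3

/-- The minor `b w - c v`. -/
def minorBC (i : ι) : CoordRing O ι σ := coord i 1 * coord i 5 - coord i 2 * coord i 4

variable (ι σ) in
/-- The ideal generated by the uniformiser and all the inertia coordinates. -/
def specialIdeal (ϖ : O) : Ideal (CoordRing O ι σ) :=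
  Ideal.span (insert (MvPowerSeries.C ϖ)
    {x | ∃ i : ι, x = coord i 0 ∨ x = coord i 1 ∨ x = coord i 2})

/-- `ρ` kills the relations of an inertia element with eigenvalues prescribed by `C` commuting
with Frobenius. -/
def KillsRelations {A : Type} [Semiring A] (ρ : CoordRing O ι σ →+* A) (C : ι → Finset O) : Prop :=
  ∀ i, ρ (∏ c ∈ C i, eigenRel i c) = 0 ∧ ρ (minorAB i) = 0 ∧ ρ (minorAC i) = 0 ∧
    ρ (minorBC i) = 0

variable (O ι σ) in
/-- The local statement of Ihara avoidance (II-A): a patched action satisfying the relations of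
a non-trivial inertia character, congruent to a second one, forces the latter to be supported
at `specialIdeal`. -/
def Avoidance [IsLocalRing O] [Fintype ι] [Fintype σ] : Prop :=
  ∀ (ϖ : O), maximalIdeal O = Ideal.span {ϖ} →
  ∀ (C : ι → Finset O), (∀ i, ∀ c ∈ C i, c ∈ maximalIdeal O ∧ c ≠ 0) →
  ∀ (r d : ℕ), r = 3 * Fintype.card ι + Fintype.card σ → 0 < d →
  ∀ (ρ ρ' : CoordRing O ι σ →+* Matrix (Fin d) (Fin d) (MvPowerSeries (Fin r) O)),
    (∀ s, ∃ f, ρ f = Matrix.diagonal fun _ => s) →
    (∀ s, ∃ f, ρ' f = Matrix.diagonal fun _ => s) →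
    (∀ f a b, ρ f a b - ρ' f a b ∈
      Ideal.span {(MvPowerSeries.C ϖ : MvPowerSeries (Fin r) O)}) →
    KillsRelations ρ' C →
  ∀ F : CoordRing O ι σ, F ∉ specialIdeal ι σ ϖ → ρ F ≠ 0

end Fermat.Agent.LevelLowering.Avoid
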