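import Mathlib.RingTheory.RootsOfUnity.PrimitiveRoots
import Mathlib.RingTheory.LocalRing.ResidueField.Basic
import Mathlib.Algebra.CharP.Lemmas
import Fermat.Agent.LevelLowering.Avoid.Setup

/-!
# Ihara avoidance: the possible values of `a² + bc`

For an inertia element with eigenvalues `l, l⁻¹`, `l ≠ 1` a `p ^ v`-th root of unity, the
trace-zero part `[[a, b], [c, -a]]` has `a² + bc = ((l - l⁻¹) / 2)²`.
-/

set_option autoImplicit false

noncomputable section

open IsLocalRing

namespace Fermat.Agent.LevelLowering.Avoid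

open scoped Classical in
/-- The values `((l - l⁻¹) / 2)²` for `l ≠ 1` a `p ^ v`-th root of unity. -/
def eigenValues (O : Type) [CommRing O] [IsDomain O] (p v : ℕ) : Finset O :=
  ((Polynomial.nthRootsFinset (p ^ v) (1 : O)).erase 1).image fun l =>
    (Ring.inverse 2 * (l - l ^ (p ^ v - 1))) ^ 2

variable {O : Type} [CommRing O] [IsDomain O] {p v : ℕ}

/-- Membership in the finite set of possible eigenvalues. -/
theorem mem_eigenValues (hp : p ≠ 0) {c : O} :
    c ∈ eigenValues O p v ↔
      ∃ l : O, l ^ p ^ v = 1 ∧ l ≠ 1 ∧ (Ring.inverse 2 * (l - l ^ (p ^ v - 1))) ^ 2 = c := by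
  simp only [eigenValues, Finset.mem_image, Finset.mem_erase]
  refine exists_congr fun l => ?_
  rw [Polynomial.mem_nthRootsFinset (pow_pos (Nat.pos_of_ne_zero hp) v)]
  tauto

/-- Two is invertible in a local ring of odd residue characteristic. -/
theorem isUnit_two_of_mem {A : Type} [CommRing A] [IsLocalRing A] (hp : p.Prime) (hp2 : p ≠ 2)
    (hpA : (p : A) ∈ maximalIdeal A) : IsUnit (2 : A) := by
  obtain ⟨k, hk⟩ := hp.odd_of_ne_two hp2
  by_contra h
  refine (maximalIdeal.isMaximal A).ne_top ((Ideal.eq_top_iff_one _).2 ?_)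
  have h1 := sub_mem hpA (Ideal.mul_mem_right (k : A) _ ((mem_maximalIdeal _).2 h))
  rwa [hk, Nat.cast_add, Nat.cast_mul, Nat.cast_ofNat, Nat.cast_one, add_sub_cancel_left] at h1

/-- The values lie in the maximal ideal and are non-zero. -/
theorem eigenValues_spec [IsLocalRing O] (hp : p.Prime) (hp2 : p ≠ 2)
    (hpO : (p : O) ∈ maximalIdeal O) {c : O} (hc : c ∈ eigenValues O p v) :
    c ∈ maximalIdeal O ∧ c ≠ 0 := by
  obtain ⟨l, hl, hl1, rfl⟩ := (mem_eigenValues hp.ne_zero).1 hc
  have h2 := isUnit_two_of_mem hp hp2 hpO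
  have : CharP (ResidueField O) p := (CharP.charP_iff_prime_eq_zero hp).2 (by
    rw [← map_natCast (residue O), residue_eq_zero_iff]; exact hpO)
  have := Fact.mk hp
  have hres : residue O l = 1 := sub_eq_zero.1 <| pow_eq_zero_iff
    (pow_ne_zero v hp.ne_zero) |>.1 <| by
      rw [sub_pow_char_pow, ← map_pow, hl, map_one, one_pow, sub_self]
  refine ⟨Ideal.pow_mem_of_mem _ (Ideal.mul_mem_left _ _ ?_) 2 two_pos, ?_⟩
  · rw [← residue_eq_zero_iff, map_sub, map_pow, hres, one_pow, sub_self]
  · refine pow_ne_zero 2 (mul_ne_zero (fun h => ?_) fun h => hl1 ?_)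
    · have h' := Ring.inverse_mul_cancel (2 : O) h2
      rw [h, zero_mul] at h'
      exact zero_ne_one h'
    · have hl2 : l ^ 2 = 1 := by
        rw [pow_two]
        nth_rw 2 [sub_eq_zero.1 h]
        rw [← pow_succ', Nat.sub_add_cancel (Nat.one_le_pow v p hp.pos), hl]
      exact orderOf_eq_one_iff.1 (Nat.eq_one_of_dvd_coprimes
        (((Nat.coprime_primes Nat.prime_two hp).2 hp2.symm).pow_right v)
        (orderOf_dvd_of_pow_eq_one hl2) (orderOf_dvd_of_pow_eq_one hl))

end Fermat.Agent.LevelLowering.Avoid
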