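import Fermat.Agent.LevelLowering.Avoid.Patched
import Fermat.Agent.Patching.Glue

/-!
# Ihara avoidance: one Taylor–Wiles level

A level carries a quotient `Rn` of the coordinate ring, the elements `sⱼ` and two modules of full
`𝒪`-rank, isomorphic modulo the uniformiser: the first killed by `F`, the second satisfying the
relations of a non-trivial inertia character.  Such levels for all `n` are contradictory.
-/

set_option autoImplicit false

noncomputable section

open IsLocalRing

namespace Fermat.Agent.LevelLowering.Avoid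

/-- Data of one Taylor–Wiles level for Ihara avoidance. -/
structure AvoidLevel (O : Type) [CommRing O] (ι σ : Type) (p n r d : ℕ) (ϖ : O)
    (C : ι → Finset O) (F : CoordRing O ι σ) : Type 1 where
  Rn : Type
  [commRing : CommRing Rn]
  [isLocalRing : IsLocalRing Rn]
  [isNoetherianRing : IsNoetherianRing Rn]
  [isAdicComplete : IsAdicComplete (maximalIdeal Rn) Rn]
  [algebra : Algebra O Rn]
  γ : CoordRing O ι σ →ₐ[O] Rn
  γ_surjective : Function.Surjective γ
  v : Fin r → ℕ
  le_v : ∀ j, n ≤ v j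
  s : Fin r → Rn
  s_mem : ∀ j, s j - 1 ∈ maximalIdeal Rn
  M : Type
  [addCommGroupM : AddCommGroup M]
  [moduleRnM : Module Rn M]
  [moduleM : Module O M]
  [towerM : IsScalarTower O Rn M]
  [finiteM : Module.Finite O M]
  [freeM : Module.Free O M]
  M' : Type
  [addCommGroupM' : AddCommGroup M']
  [moduleRnM' : Module Rn M']
  [moduleM' : Module O M']
  [towerM' : IsScalarTower O Rn M']
  [finiteM' : Module.Finite O M']
  [freeM' : Module.Free O M']
  s_pow : ∀ j (x : M), s j ^ (p ^ v j) • x = x
  s_pow' : ∀ j (x : M'), s j ^ (p ^ v j) • x = x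
  finrank_eq : Module.finrank O M = d * ∏ j, p ^ v j
  finrank_eq' : Module.finrank O M' = d * ∏ j, p ^ v j
  y : Fin d → M
  span : ∀ z : M, ∃ c : Fin d → O,
    z - ∑ i, algebraMap O Rn (c i) • y i ∈
      Ideal.span (Set.range fun j => s j - 1) • (⊤ : Submodule Rn M)
  cong : (M ⧸ (Ideal.span {algebraMap O Rn ϖ}) • (⊤ : Submodule Rn M)) ≃ₗ[Rn]
    (M' ⧸ (Ideal.span {algebraMap O Rn ϖ}) • (⊤ : Submodule Rn M'))
  kills_rel : ∀ i (x : M'), γ (∏ c ∈ C i, eigenRel i c) • x = 0 ∧ γ (minorAB i) • x = 0 ∧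
    γ (minorAC i) • x = 0 ∧ γ (minorBC i) • x = 0
  kills_F : ∀ x : M, γ F • x = 0

attribute [instance] AvoidLevel.commRing AvoidLevel.isLocalRing AvoidLevel.isNoetherianRing
  AvoidLevel.isAdicComplete AvoidLevel.algebra AvoidLevel.addCommGroupM AvoidLevel.moduleRnM
  AvoidLevel.moduleM AvoidLevel.towerM AvoidLevel.finiteM AvoidLevel.freeM
  AvoidLevel.addCommGroupM' AvoidLevel.moduleRnM' AvoidLevel.moduleM' AvoidLevel.towerM'
  AvoidLevel.finiteM' AvoidLevel.freeM'

variable {O : Type} [CommRing O] [IsDomain O] [IsDiscreteValuationRing O]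
  [IsAdicComplete (maximalIdeal O) O]

section Coefficients

variable {p n r d : ℕ} {Rn N : Type} [CommRing Rn] [Algebra O Rn] [AddCommGroup N] [Module Rn N]
  [Module O N] [IsScalarTower O Rn N]

/-- The linear combination with power series coefficients. -/
def combination (ψ : MvPowerSeries (Fin r) O →ₐ[O] Rn) (y : Fin d → N) :
    (Fin d → MvPowerSeries (Fin r) O) →ₗ[O] N where
  toFun c := ∑ i, ψ (c i) • y i
  map_add' c c' := by simp [add_smul, Finset.sum_add_distrib]
  map_smul' a c := by simp [Finset.smul_sum]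

omit [IsDomain O] [IsDiscreteValuationRing O] [IsAdicComplete (maximalIdeal O) O] in
theorem combination_apply (ψ : MvPowerSeries (Fin r) O →ₐ[O] Rn) (y : Fin d → N)
    (c : Fin d → MvPowerSeries (Fin r) O) : combination ψ y c = ∑ i, ψ (c i) • y i := rfl

omit [IsDomain O] [IsDiscreteValuationRing O] [IsAdicComplete (maximalIdeal O) O] in
theorem combination_smul (ψ : MvPowerSeries (Fin r) O →ₐ[O] Rn) (y : Fin d → N)
    (a : MvPowerSeries (Fin r) O) (c : Fin d → MvPowerSeries (Fin r) O) :
    combination ψ y (a • c) = ψ a • combination ψ y c := by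
  simp [combination_apply, Finset.smul_sum, mul_smul]

omit [IsAdicComplete (maximalIdeal O) O] in
/-- Surjectivity by Nakayama. -/
theorem combination_surjective [Module.Finite O N] (ψ : MvPowerSeries (Fin r) O →ₐ[O] Rn)
    (y : Fin d → N) {I : Ideal (MvPowerSeries (Fin r) O)}
    (hI : I ≤ maximalIdeal (MvPowerSeries (Fin r) O))
    (h : ∀ z : N, ∃ c, z - combination ψ y c ∈
      I.map (ψ : MvPowerSeries (Fin r) O →+* Rn) • (⊤ : Submodule Rn N)) :
    Function.Surjective (combination ψ y) := by
  intro z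
  obtain ⟨c, hc⟩ := Patching.surjective_of_nakayama (ψ : MvPowerSeries (Fin r) O →+* Rn)
    (N := N) (O := O) (algebraMap O _)
    (fun a w => by
      rw [show (ψ : MvPowerSeries (Fin r) O →+* Rn) (algebraMap O _ a) = algebraMap O Rn a from
        AlgHom.commutes ψ a, algebraMap_smul])
    hI y (fun w => by
      obtain ⟨c, hc⟩ := h w
      exact ⟨c, _, hc, (add_sub_cancel _ _).symm⟩) z
  exact ⟨c, hc.symm⟩

/-- A family of full rank generating over the power series has relation module `Jᵥ ^ d`. -/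
theorem mem_of_combination_eq_zero [Fact p.Prime] (hp : (p : O) ∈ maximalIdeal O)
    [Module.Finite O N] [Module.Free O N] (v : Fin r → ℕ)
    (ψ : MvPowerSeries (Fin r) O →ₐ[O] Rn) (y : Fin d → N)
    (hpow : ∀ j (x : N), ψ (1 + MvPowerSeries.X j) ^ (p ^ v j) • x = x)
    (hrank : Module.finrank O N = d * ∏ j, p ^ v j)
    (hsurj : Function.Surjective (combination ψ y))
    {c : Fin d → MvPowerSeries (Fin r) O} (hc : combination ψ y c = 0) (i : Fin d) :
    c i ∈ Ideal.span (Set.range fun j : Fin r =>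
      ((1 + MvPowerSeries.X j) ^ (p ^ v j) - 1 : MvPowerSeries (Fin r) O)) := by
  classical
  obtain ⟨q, -, hqsurj, hqker⟩ := Patching.exists_toGroupAlg (v := v) hp
  set E := combination ψ y
  have hEJv : ∀ e : Fin d → MvPowerSeries (Fin r) O, (∀ i, e i ∈ RingHom.ker q) → E e = 0 := by
    intro e he
    rw [show E e = ∑ i, ψ (e i) • y i from rfl]
    refine Finset.sum_eq_zero fun i _ => ?_
    have hei := he i
    rw [hqker] at hei
    revert hei
    generalize e i = a
    intro ha
    induction ha using Submodule.span_induction with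
    | mem z hz =>
      obtain ⟨j, rfl⟩ := hz
      rw [map_sub, map_pow, map_one, sub_smul, one_smul, hpow, sub_self]
    | zero => simp
    | add a b _ _ ha hb => rw [map_add, add_smul, ha, hb, add_zero]
    | smul a b _ hb => rw [smul_eq_mul, map_mul, mul_smul, hb, smul_zero]
  let qd : (Fin d → MvPowerSeries (Fin r) O) →ₗ[O] (Fin d → Patching.GroupAlgV O p v) :=
    q.toLinearMap.compLeft (Fin d)
  have hqd : ∀ e i, qd e i = q (e i) := fun _ _ => rfl
  choose sec hsec using hqsurj
  have hEq : ∀ e e', qd e = qd e' → E e = E e' := fun e e' h => by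
    rw [← sub_eq_zero, ← map_sub]
    refine hEJv _ fun i => ?_
    rw [RingHom.mem_ker, Pi.sub_apply, map_sub, sub_eq_zero]
    exact congrFun h i
  let Eb : (Fin d → Patching.GroupAlgV O p v) →ₗ[O] N :=
    { toFun := fun a => E fun i => sec (a i)
      map_add' := fun a a' => by
        rw [← map_add]
        exact hEq _ _ (funext fun i => by simp [hqd, hsec])
      map_smul' := fun t a => by
        rw [RingHom.id_apply, ← map_smul]
        exact hEq _ _ (funext fun i => by simp [hqd, hsec]) }
  have hEb : ∀ e, Eb (qd e) = E e := fun e => hEq _ _ (funext fun i => by simp [hqd, hsec])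
  have hEbsurj : Function.Surjective Eb := fun z => by
    obtain ⟨e, he⟩ := hsurj z
    exact ⟨qd e, (hEb e).trans he⟩
  have hrank' : Module.finrank O (Fin d → Patching.GroupAlgV O p v) = Module.finrank O N := by
    rw [hrank, Module.finrank_pi_fintype]
    simp [(MonoidAlgebra.coeffLinearEquiv O).finrank_eq]
  let eqv := LinearEquiv.ofFinrankEq (R := O) N (Fin d → Patching.GroupAlgV O p v) hrank'.symm
  have hinj : Function.Injective Eb := fun a b h =>
    OrzechProperty.injective_of_surjective_endomorphism (eqv.toLinearMap ∘ₗ Eb)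
      (eqv.surjective.comp hEbsurj) (congrArg eqv h)
  have h0 : qd c = 0 := hinj (by rw [hEb, hc, map_zero])
  rw [← hqker, RingHom.mem_ker]
  exact congrFun h0 i

omit [IsDomain O] [IsDiscreteValuationRing O] [IsAdicComplete (maximalIdeal O) O] in
/-- A commuting action is given by matrices over the quotient by the relations. -/
theorem exists_matrixHom {R : Type} [CommRing R] (g : R →+* Rn)
    (ψ : MvPowerSeries (Fin r) O →ₐ[O] Rn) (y : Fin d → N)
    (hsurj : Function.Surjective (combination ψ y)) (J : Ideal (MvPowerSeries (Fin r) O))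
    (hJ : ∀ c, combination ψ y c = 0 → ∀ i, c i ∈ J) :
    ∃ ρ : R →+* Matrix (Fin d) (Fin d) (MvPowerSeries (Fin r) O ⧸ J),
      (∀ f c j, combination ψ y c = g f • y j → ∀ i, ρ f i j = Ideal.Quotient.mk J (c i)) ∧
      ∀ f, (∀ x : N, g f • x = 0) → ρ f = 0 := by
  classical
  choose c hc using fun (f : R) (j : Fin d) => hsurj (g f • y j)
  have huniq : ∀ f (e : Fin d → MvPowerSeries (Fin r) O) j, combination ψ y e = g f • y j →
      ∀ i, Ideal.Quotient.mk J (c f j i) = Ideal.Quotient.mk J (e i) := fun f e j he i => by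
    rw [Ideal.Quotient.eq]
    exact hJ (c f j - e) (by rw [map_sub, hc, he, sub_self]) i
  refine ⟨{
    toFun := fun f => Matrix.of fun i j => Ideal.Quotient.mk J (c f j i)
    map_one' := ?_
    map_mul' := fun f f' => ?_
    map_zero' := ?_
    map_add' := fun f f' => ?_ }, fun f e j he i => huniq f e j he i, fun f hf => ?_⟩
  · ext i j
    rw [Matrix.of_apply, huniq 1 (Pi.single j 1) j ?_ i]
    · rcases eq_or_ne i j with h | h
      · subst h; simp
      · simp [Matrix.one_apply_ne h, Pi.single_eq_of_ne h]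
    · rw [combination_apply, Finset.sum_eq_single j]
      · simp
      · intro b _ hb; simp [Pi.single_eq_of_ne hb]
      · simp
  · ext i j
    rw [Matrix.of_apply, huniq (f * f') (∑ l, (c f' j l) • c f l) j ?_ i]
    · simp [Matrix.mul_apply, mul_comm]
    · rw [map_sum, map_mul, mul_smul, ← hc f' j, combination_apply ψ y (c f' j), Finset.smul_sum]
      refine Finset.sum_congr rfl fun l _ => ?_
      rw [combination_smul, hc, ← mul_smul, ← mul_smul, mul_comm]
  · ext i j
    rw [Matrix.of_apply, huniq 0 0 j (by simp) i]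
    simp
  · ext i j
    rw [Matrix.of_apply, huniq (f + f') (c f j + c f' j) j
      (by rw [map_add, hc, hc, map_add, add_smul]) i]
    simp
  · ext i j
    exact (huniq f 0 j (by rw [map_zero, hf]) i).trans (map_zero _)

end Coefficients

variable [Finite (ResidueField O)] {ι σ : Type} [Fintype ι] [Fintype σ]

/-- Levels for every `n` contradict the local statement. -/
theorem false_of_avoidLevels (hA : Avoidance O ι σ) {p : ℕ} [Fact p.Prime]
    (hpO : (p : O) ∈ maximalIdeal O) (ϖ : O) (hϖ : maximalIdeal O = Ideal.span {ϖ})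
    (C : ι → Finset O) (hC : ∀ i, ∀ c ∈ C i, c ∈ maximalIdeal O ∧ c ≠ 0)
    {r d : ℕ} (hr : r = 3 * Fintype.card ι + Fintype.card σ) (hd : 0 < d)
    (F : CoordRing O ι σ) (hF : F ∉ specialIdeal ι σ ϖ)
    (L : ∀ n, AvoidLevel O ι σ p n r d ϖ C F) : False := by
  classical
  let ψ : ∀ n, (MvPowerSeries (Fin r) O) →ₐ[O] (L n).Rn := fun n =>
    TangentBound.evalHom (fun j => (L n).s j - 1) (L n).s_mem
  have hψX : ∀ n j, ψ n (1 + MvPowerSeries.X j) = (L n).s j := fun n j => by
    simp [ψ, TangentBound.evalHom_X]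
  have hϖS : Ideal.span {(MvPowerSeries.C ϖ : (MvPowerSeries (Fin r) O))} ≤ maximalIdeal (MvPowerSeries (Fin r) O) := by
    rw [Ideal.span_le, Set.singleton_subset_iff, SetLike.mem_coe, mem_maximalIdeal,
      mem_nonunits_iff, MvPowerSeries.isUnit_iff_constantCoeff, MvPowerSeries.constantCoeff_C,
      ← mem_nonunits_iff, ← mem_maximalIdeal, hϖ]
    exact Ideal.mem_span_singleton_self ϖ
  have hψC : ∀ n (a : O), ψ n (MvPowerSeries.C a) = algebraMap O _ a := fun n a =>
    (ψ n).commutes a
  have hmapϖ : ∀ n, (Ideal.span {(MvPowerSeries.C ϖ : (MvPowerSeries (Fin r) O))}).map (ψ n : (MvPowerSeries (Fin r) O) →+* (L n).Rn) =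
      Ideal.span {algebraMap O (L n).Rn ϖ} := fun n => by
    rw [Ideal.map_span, Set.image_singleton]
    exact congrArg (fun x => Ideal.span {x}) (hψC n ϖ)
  choose y' hy' using fun n (i : Fin d) =>
    Submodule.Quotient.mk_surjective _ ((L n).cong (Submodule.Quotient.mk ((L n).y i)))
  have hsurj : ∀ n, Function.Surjective (combination (ψ n) (L n).y) := fun n => by
    refine combination_surjective _ _ (I := Ideal.span (Set.range MvPowerSeries.X))
      Patching.span_X_le_maximalIdeal fun z => ?_
    obtain ⟨c, hc⟩ := (L n).span z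
    refine ⟨fun i => MvPowerSeries.C (c i), ?_⟩
    simp only [combination_apply, hψC]
    refine Submodule.smul_mono_left (Ideal.span_le.mpr ?_) hc
    rintro _ ⟨j, rfl⟩
    have := Ideal.mem_map_of_mem (ψ n : (MvPowerSeries (Fin r) O) →+* (L n).Rn)
      (Ideal.subset_span (Set.mem_range_self (f := MvPowerSeries.X (R := O)) j))
    simpa [ψ, TangentBound.evalHom_X] using this
  have hcompat : ∀ n c, (L n).cong (Submodule.Quotient.mk (combination (ψ n) (L n).y c)) =
      Submodule.Quotient.mk (combination (ψ n) (y' n) c) := fun n c => by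
    simp only [combination_apply, ← Submodule.mkQ_apply, map_sum, map_smul]
    exact Finset.sum_congr rfl fun i _ => congrArg _ (hy' n i).symm
  have hsurj' : ∀ n, Function.Surjective (combination (ψ n) (y' n)) := fun n => by
    refine combination_surjective _ _ hϖS fun z => ?_
    obtain ⟨x, hx⟩ := Submodule.Quotient.mk_surjective _
      ((L n).cong.symm (Submodule.Quotient.mk z))
    obtain ⟨c, rfl⟩ := hsurj n x
    refine ⟨c, ?_⟩
    rw [hmapϖ, ← Submodule.Quotient.eq, ← hcompat, hx, LinearEquiv.apply_symm_apply]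
  have hJ : ∀ n, Ideal.span (Set.range fun j : Fin r =>
      ((1 + MvPowerSeries.X j) ^ (p ^ (L n).v j) - 1 : (MvPowerSeries (Fin r) O))) ≤ levelIdeal O p r n := fun n => by
    refine Ideal.span_le.mpr ?_
    rintro _ ⟨j, rfl⟩
    obtain ⟨c, hc⟩ := Nat.pow_dvd_pow p ((L n).le_v j)
    refine (levelIdeal O p r n).mem_of_dvd ?_ (Ideal.subset_span ⟨j, rfl⟩)
    change (1 + MvPowerSeries.X j) ^ (p ^ n) - 1 ∣ (1 + MvPowerSeries.X j) ^ (p ^ (L n).v j) - 1
    rw [hc, pow_mul]
    exact sub_one_dvd_pow_sub_one _ c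
  have hker : ∀ n c, combination (ψ n) (L n).y c = 0 → ∀ i, c i ∈ levelIdeal O p r n :=
    fun n c hc i => hJ n (mem_of_combination_eq_zero hpO _ (ψ n) _
      (fun j x => by rw [hψX]; exact (L n).s_pow j x) (L n).finrank_eq (hsurj n) hc i)
  have hker' : ∀ n c, combination (ψ n) (y' n) c = 0 → ∀ i, c i ∈ levelIdeal O p r n :=
    fun n c hc i => hJ n (mem_of_combination_eq_zero hpO _ (ψ n) _
      (fun j x => by rw [hψX]; exact (L n).s_pow' j x) (L n).finrank_eq' (hsurj' n) hc i)
  choose ρ hρ hρ0 using fun n => exists_matrixHom ((L n).γ : CoordRing O ι σ →+* (L n).Rn) (ψ n)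
    (L n).y (hsurj n) _ (hker n)
  choose ρ' hρ' hρ'0 using fun n => exists_matrixHom ((L n).γ : CoordRing O ι σ →+* (L n).Rn)
    (ψ n) (y' n) (hsurj' n) _ (hker' n)
  have hdiag : ∀ n s, ∃ f, (∀ j, combination (ψ n) (L n).y (Pi.single j s) =
      (L n).γ f • (L n).y j) ∧
      ∀ j, combination (ψ n) (y' n) (Pi.single j s) = (L n).γ f • y' n j := fun n s => by
    obtain ⟨f, hf⟩ := (L n).γ_surjective (ψ n s)
    refine ⟨f, fun j => ?_, fun j => ?_⟩ <;>
    · rw [hf, combination_apply, Finset.sum_eq_single j]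
      · simp
      · intro b _ hb; simp [Pi.single_eq_of_ne hb]
      · simp
  have hentry : ∀ (n : ℕ) (s : (MvPowerSeries (Fin r) O)) (i j : Fin d),
      Ideal.Quotient.mk (levelIdeal O p r n) ((Pi.single j s : Fin d → (MvPowerSeries (Fin r) O)) i) =
        Matrix.diagonal (fun _ : Fin d => Ideal.Quotient.mk (levelIdeal O p r n) s) i j := by
    intro n s i j
    rcases eq_or_ne i j with h | h
    · subst h; simp
    · simp [Matrix.diagonal_apply_ne _ h, Pi.single_eq_of_ne h]
  refine false_of_levels hA hpO ϖ hϖ C hC hr hd ρ ρ' (fun n s => ?_) (fun n s => ?_)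
    (fun n f a b => ?_) (fun n i => ?_) F hF (fun n => hρ0 n F (L n).kills_F)
  · obtain ⟨f, hf, -⟩ := hdiag n s
    exact ⟨f, Matrix.ext fun i j => (hρ n f _ j (hf j) i).trans (hentry n s i j)⟩
  · obtain ⟨f, -, hf⟩ := hdiag n s
    exact ⟨f, Matrix.ext fun i j => (hρ' n f _ j (hf j) i).trans (hentry n s i j)⟩
  · obtain ⟨c, hc⟩ := hsurj n ((L n).γ f • (L n).y b)
    obtain ⟨c', hc'⟩ := hsurj' n ((L n).γ f • y' n b)
    rw [hρ n f c b hc a, hρ' n f c' b hc' a]
    have h1 : combination (ψ n) (y' n) (c - c') ∈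
        Ideal.span {algebraMap O (L n).Rn ϖ} • (⊤ : Submodule (L n).Rn (L n).M') := by
      rw [map_sub, ← Submodule.Quotient.eq, ← hcompat, hc, hc', ← Submodule.mkQ_apply,
        ← Submodule.mkQ_apply, map_smul, map_smul, map_smul]
      exact congrArg _ (hy' n b).symm
    rw [Submodule.ideal_span_singleton_smul] at h1
    obtain ⟨x, -, hx⟩ := h1
    obtain ⟨e, rfl⟩ := hsurj' n x
    have h2 : combination (ψ n) (y' n) (c - c' - (MvPowerSeries.C ϖ : (MvPowerSeries (Fin r) O)) • e) = 0 := by
      rw [map_sub, combination_smul, hψC, ← hx, sub_eq_zero]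
      rfl
    have h3 := hker' n _ h2 a
    rw [← map_sub]
    have h4 : Ideal.Quotient.mk (levelIdeal O p r n) (c a - c' a) =
        Ideal.Quotient.mk (levelIdeal O p r n) ((MvPowerSeries.C ϖ : (MvPowerSeries (Fin r) O)) * e a) := by
      rw [Ideal.Quotient.eq]
      simpa using h3
    rw [h4]
    exact Ideal.mem_map_of_mem _ (Ideal.mul_mem_right _ _ (Ideal.mem_span_singleton_self _))
  · exact ⟨hρ'0 n _ fun x => ((L n).kills_rel i x).1,
      hρ'0 n _ fun x => ((L n).kills_rel i x).2.1,
      hρ'0 n _ fun x => ((L n).kills_rel i x).2.2.1,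
      hρ'0 n _ fun x => ((L n).kills_rel i x).2.2.2⟩

end Fermat.Agent.LevelLowering.Avoid
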