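import Fermat.Agent.LevelLowering.Avoid.Setup
import Fermat.Agent.LevelLowering.Patch.Surject
import Fermat.Agent.Patching.PowerSeriesTopology
import Mathlib.RingTheory.MvPowerSeries.Rename
import Mathlib.RingTheory.DiscreteValuationRing.Basic
import Mathlib.RingTheory.MvPowerSeries.NoZeroDivisors

/-!
# Ihara avoidance: patching the Taylor–Wiles levels

At level `n` there are two actions of the coordinate ring on `(S ⧸ Jₙ) ^ d`, congruent modulo
the uniformiser; the second satisfies the relations of a non-trivial inertia character and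
`F` kills the first.  Together with the local statement this is contradictory.
-/

set_option autoImplicit false

noncomputable section

open IsLocalRing

namespace Fermat.Agent.LevelLowering.Avoid

open Fermat.Agent.LevelLowering.Patch

/-- The relation ideal of the `n`-th Taylor–Wiles level. -/
def levelIdeal (O : Type) [CommRing O] (p r n : ℕ) : Ideal (MvPowerSeries (Fin r) O) :=
  Ideal.span (Set.range fun j : Fin r => (1 + MvPowerSeries.X j) ^ (p ^ n) - 1)

variable {O : Type} [CommRing O] [IsDomain O] [IsDiscreteValuationRing O]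

theorem one_add_pow_prime_pow_sub_one_mem {p : ℕ} {r : ℕ}
    (hpO : (p : O) ∈ maximalIdeal O) (j : Fin r) (n : ℕ) :
    ((1 + MvPowerSeries.X j) ^ (p ^ n) - 1 : MvPowerSeries (Fin r) O) ∈
      maximalIdeal (MvPowerSeries (Fin r) O) ^ (n + 1) := by
  have hpS : (p : MvPowerSeries (Fin r) O) ∈ maximalIdeal (MvPowerSeries (Fin r) O) := by
    rw [← map_natCast (MvPowerSeries.C (σ := Fin r) (R := O))]
    simpa [mem_maximalIdeal, MvPowerSeries.isUnit_iff_constantCoeff] using hpO
  induction n with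
  | zero =>
    simp [mem_maximalIdeal, MvPowerSeries.isUnit_iff_constantCoeff]
  | succ n ih =>
    set y : MvPowerSeries (Fin r) O := (1 + MvPowerSeries.X j) ^ (p ^ n)
    rw [pow_succ p n, pow_mul, ← geom_sum_mul y p, pow_succ' _ (n + 1)]
    refine Ideal.mul_mem_mul ?_ ih
    have h1 : ∀ k, y ^ k - 1 ∈ maximalIdeal (MvPowerSeries (Fin r) O) := fun k => by
      rw [← geom_sum_mul y k]
      exact Ideal.mul_mem_left _ _ (Ideal.pow_le_self (by omega) ih)
    have h2 : (∑ k ∈ Finset.range p, y ^ k) - p ∈ maximalIdeal (MvPowerSeries (Fin r) O) := by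
      have : (∑ k ∈ Finset.range p, y ^ k) - p = ∑ k ∈ Finset.range p, (y ^ k - 1) := by
        simp [Finset.sum_sub_distrib]
      rw [this]
      exact Ideal.sum_mem _ fun k _ => h1 k
    simpa using add_mem h2 hpS

theorem levelIdeal_le {p : ℕ} {r : ℕ} (hpO : (p : O) ∈ maximalIdeal O) (n : ℕ) :
    levelIdeal O p r n ≤ maximalIdeal (MvPowerSeries (Fin r) O) ^ (n + 1) := by
  refine Ideal.span_le.mpr ?_
  rintro _ ⟨j, rfl⟩
  exact one_add_pow_prime_pow_sub_one_mem hpO j n

variable [IsAdicComplete (maximalIdeal O) O] [Finite (ResidueField O)]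
  {ι σ : Type} [Fintype ι] [Fintype σ]

/-- **Patched Ihara avoidance.**  Levels as in the file header contradict the local statement. -/
theorem false_of_levels (hA : Avoidance O ι σ) {p : ℕ}
    (hpO : (p : O) ∈ maximalIdeal O) (ϖ : O) (hϖ : maximalIdeal O = Ideal.span {ϖ})
    (C : ι → Finset O) (hC : ∀ i, ∀ c ∈ C i, c ∈ maximalIdeal O ∧ c ≠ 0)
    {r d : ℕ} (hr : r = 3 * Fintype.card ι + Fintype.card σ) (hd : 0 < d)
    (ρ ρ' : ∀ n, CoordRing O ι σ →+*
      Matrix (Fin d) (Fin d) (MvPowerSeries (Fin r) O ⧸ levelIdeal O p r n))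
    (hs : ∀ n s, ∃ f, ρ n f = Matrix.diagonal fun _ => Ideal.Quotient.mk _ s)
    (hs' : ∀ n s, ∃ f, ρ' n f = Matrix.diagonal fun _ => Ideal.Quotient.mk _ s)
    (hcong : ∀ n f a b, ρ n f a b - ρ' n f a b ∈
      (Ideal.span {(MvPowerSeries.C ϖ : MvPowerSeries (Fin r) O)}).map (Ideal.Quotient.mk _))
    (hrel : ∀ n, KillsRelations (ρ' n) C)
    (F : CoordRing O ι σ) (hF : F ∉ specialIdeal ι σ ϖ) (hkill : ∀ n, ρ n F = 0) : False := by
  classical
  have hfin : ∀ N : ℕ, Finite (MvPowerSeries (Fin r) O ⧸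
      maximalIdeal (MvPowerSeries (Fin r) O) ^ N) :=
    fun N => Patching.finite_quotient_maximalIdeal_pow N
  have : Finite (ResidueField (MvPowerSeries (Fin r) O)) := by
    have := hfin 1
    exact Finite.of_equiv _ (Ideal.quotEquivOfEq (pow_one (maximalIdeal _))).toEquiv
  set N := Fintype.card (Coord ι σ)
  let e : CoordRing O ι σ ≃ₐ[O] MvPowerSeries (Fin N) O :=
    MvPowerSeries.renameEquiv O (Fintype.equivFin (Coord ι σ))
  have hfinR : ∀ M : ℕ, Finite (MvPowerSeries (Fin N) O ⧸
      maximalIdeal (MvPowerSeries (Fin N) O) ^ M) :=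
    fun M => Patching.finite_quotient_maximalIdeal_pow M
  let u : Ultrafilter ℕ := Filter.hyperfilter ℕ
  have hJ : ∀ M : ℕ, ∀ᶠ n in (u : Filter ℕ),
      levelIdeal O p r n ≤ maximalIdeal (MvPowerSeries (Fin r) O) ^ M := fun M => by
    refine Filter.hyperfilter_le_cofinite ?_
    refine ((Set.finite_Iio M).subset ?_)
    intro n hn
    by_contra hle
    simp only [Set.mem_Iio, not_lt] at hle
    exact hn ((levelIdeal_le hpO n).trans (Ideal.pow_le_pow_right (by omega)))
  let g : ∀ n, MvPowerSeries (Fin N) O →+* _ := fun n => (ρ n).comp e.symm.toRingEquiv.toRingHom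
  let g' : ∀ n, MvPowerSeries (Fin N) O →+* _ := fun n => (ρ' n).comp e.symm.toRingEquiv.toRingHom
  have hg : ∀ n f, g n (e f) = ρ n f := fun n f => by simp [g]
  have hg' : ∀ n f, g' n (e f) = ρ' n f := fun n f => by simp [g']
  let P := (limitHom u hJ g).comp e.toRingEquiv.toRingHom
  let P' := (limitHom u hJ g').comp e.toRingEquiv.toRingHom
  have hscal : ∀ s, ∃ f, P f = Matrix.diagonal fun _ => s := fun s => by
    obtain ⟨f, hf⟩ := exists_limitHom_eq_diagonal u hJ g (Filter.Eventually.of_forall fun n s => by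
      obtain ⟨f, hf⟩ := hs n s
      exact ⟨e f, by rw [hg, hf]⟩) s
    exact ⟨e.symm f, by simp [P, hf]⟩
  have hscal' : ∀ s, ∃ f, P' f = Matrix.diagonal fun _ => s := fun s => by
    obtain ⟨f, hf⟩ := exists_limitHom_eq_diagonal u hJ g' (Filter.Eventually.of_forall fun n s => by
      obtain ⟨f, hf⟩ := hs' n s
      exact ⟨e f, by rw [hg', hf]⟩) s
    exact ⟨e.symm f, by simp [P', hf]⟩
  have hne : Ideal.span {(MvPowerSeries.C ϖ : MvPowerSeries (Fin r) O)} ≠ ⊤ := by
    rw [Ne, Ideal.span_singleton_eq_top, MvPowerSeries.isUnit_iff_constantCoeff,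
      MvPowerSeries.constantCoeff_C, ← mem_nonunits_iff, ← mem_maximalIdeal, hϖ]
    exact Ideal.mem_span_singleton_self ϖ
  refine hA ϖ hϖ C hC r d hr hd P P' hscal hscal' (fun f a b => ?_) (fun i => ?_) F hF ?_
  · exact limitHom_sub_mem u hJ g g' _ hne
      (Filter.Eventually.of_forall fun n f a b => by simpa [g, g'] using hcong n (e.symm f) a b)
      (e f) a b
  · obtain h := fun n => hrel n i
    refine ⟨?_, ?_, ?_, ?_⟩ <;>
      refine limitHom_eq_zero u hJ g' (Filter.Eventually.of_forall fun n => (hg' n _).trans ?_)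
    exacts [(h n).1, (h n).2.1, (h n).2.2.1, (h n).2.2.2]
  · exact limitHom_eq_zero u hJ g (Filter.Eventually.of_forall fun n => (hg n F).trans (hkill n))

end Fermat.Agent.LevelLowering.Avoid
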