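import Fermat.Agent.LevelLowering.Avoid.Tower
import Fermat.Agent.GroupH1.TWLevel
import Fermat.Agent.HeckeCohom.TwistRelations
import Fermat.Agent.Lifting.Constructors

/-!
# Ihara avoidance: the module of one level

For exceptional primes `E` and Taylor–Wiles primes `T` outside `B`, the module of a level is
`Hom(Γ_H(B ∏E ∏T), O)` localised, `H` the kernel of the characters of `p`-power order at the
primes of `E ∪ T`, with the algebra generated by the diamond and Hecke operators outside the level.
-/

set_option autoImplicit false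

noncomputable section

open IsLocalRing
open Fermat.Agent.GroupH1

namespace Fermat.Agent.LevelLowering.Avoid

/-- `(ℤ/q)ˣ` has a quotient `ℤ/pᵉ` when `pᵉ ∣ q - 1`. -/
theorem exists_cyclicQuot {p q e : ℕ} [Fact q.Prime] (h : p ^ e ∣ q - 1) :
    ∃ f : (ZMod q)ˣ →* Multiplicative (ZMod (p ^ e)), Function.Surjective f := by
  have hc : Nat.card (ZMod q)ˣ = q - 1 := by
    rw [Nat.card_eq_fintype_card, ZMod.card_units]
  have h' : p ^ e ∣ Nat.card (ZMod q)ˣ := hc.symm ▸ h
  refine ⟨(AddMonoidHom.toMultiplicative (ZMod.castHom h' (ZMod (p ^ e))).toAddMonoidHom).comp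
    (zmodCyclicMulEquiv (inferInstance : IsCyclic (ZMod q)ˣ)).symm.toMonoidHom, ?_⟩
  exact (ZMod.ringHom_surjective (ZMod.castHom h' (ZMod (p ^ e)))).comp
    (zmodCyclicMulEquiv (inferInstance : IsCyclic (ZMod q)ˣ)).symm.surjective

variable {O : Type} [CommRing O] [IsLocalRing O]

/-- The exceptional primes `E`, the level `B` outside them and the residual system `a`. -/
structure AvoidSetup (p : ℕ) (O : Type) [CommRing O] [IsLocalRing O] where
  B : ℕ
  E : Finset ℕ
  a : Nat.Primes → ResidueField O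
  [fact_prime : Fact p.Prime]
  ne_two : p ≠ 2
  p_mem : (p : O) ∈ maximalIdeal O
  B_ne_zero : B ≠ 0
  mem_E : ∀ q ∈ E, q.Prime ∧ p ∣ q - 1 ∧ ¬ q ∣ B

namespace AvoidSetup

variable {p : ℕ} (X : AvoidSetup p O)

include X in
/-- `2` is a unit: the residue characteristic `p` is odd. -/
theorem isUnit_two : IsUnit (2 : O) := isUnit_two_of_mem X.fact_prime.out X.ne_two X.p_mem

/-- Taylor–Wiles primes with their roots. -/
structure TWTuple (r : ℕ) where
  q : Fin r → Nat.Primes
  inj : Function.Injective q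
  one_mod : ∀ j, p ∣ (q j : ℕ) - 1
  not_dvd : ∀ j, ¬ (q j : ℕ) ∣ X.B
  notMem : ∀ j, (q j : ℕ) ∉ X.E
  α : Fin r → ResidueField O
  root : ∀ j, IsTWRoot X.a (q j) (α j)

variable {X} {r : ℕ} (T : X.TWTuple r)

namespace TWTuple

/-- The exceptional primes in a fixed order. -/
def primeE (_T : X.TWTuple r) (i : Fin X.E.card) : ℕ := X.E.equivFin.symm i

/-- The exceptional primes of a tuple lie in `E`. -/
theorem primeE_mem (i : Fin X.E.card) : T.primeE i ∈ X.E := (X.E.equivFin.symm i).2

/-- All primes with a character: first the Taylor–Wiles primes, then the exceptional ones. -/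
def pr : Fin (r + X.E.card) → ℕ := Fin.append (fun j => (T.q j : ℕ)) T.primeE

/-- The primes of a tuple are primes. -/
theorem pr_prime (l : Fin (r + X.E.card)) : (T.pr l).Prime :=
  Fin.addCases (motive := fun l => (T.pr l).Prime)
    (fun j => by rw [pr, Fin.append_left]; exact (T.q j).2)
    (fun i => by rw [pr, Fin.append_right]; exact (X.mem_E _ (T.primeE_mem i)).1) l

theorem pr_one_mod (l : Fin (r + X.E.card)) : p ∣ T.pr l - 1 :=
  Fin.addCases (motive := fun l => p ∣ T.pr l - 1)
    (fun j => by rw [pr, Fin.append_left]; exact T.one_mod j)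
    (fun i => by rw [pr, Fin.append_right]; exact (X.mem_E _ (T.primeE_mem i)).2.1) l

/-- The primes of a tuple are distinct. -/
theorem pr_injective : Function.Injective T.pr := by
  intro l l'
  induction l using Fin.addCases <;> induction l' using Fin.addCases <;>
    simp only [pr, Fin.append_left, Fin.append_right] <;> intro h
  · rw [T.inj (Subtype.ext h)]
  · exact absurd (h ▸ T.primeE_mem _) (T.notMem _)
  · exact absurd (h ▸ T.primeE_mem _) (T.notMem _)
  · rw [X.E.equivFin.symm.injective (Subtype.ext h)]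

/-- The first primes of a tuple are the Taylor–Wiles primes. -/
theorem pr_castAdd (j : Fin r) : T.pr (Fin.castAdd X.E.card j) = (T.q j : ℕ) :=
  Fin.append_left _ _ j

/-- The exponent of the `p`-part of `q - 1`. -/
def expo (l : Fin (r + X.E.card)) : ℕ := (T.pr l - 1).factorization p

/-- The exponents of a tuple are positive. -/
theorem one_le_expo (l : Fin (r + X.E.card)) : 1 ≤ T.expo l :=
  (X.fact_prime.out).factorization_pos_of_dvd (by have := (T.pr_prime l).two_le; omega)
    (T.pr_one_mod l)

/-- The level. -/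
def level : ℕ := X.B * ∏ l, T.pr l

instance neZero_level : NeZero T.level :=
  ⟨mul_ne_zero X.B_ne_zero (Finset.prod_ne_zero_iff.2 fun l _ => (T.pr_prime l).ne_zero)⟩

/-- Each prime of a tuple divides the level. -/
theorem pr_dvd_level (l : Fin (r + X.E.card)) : T.pr l ∣ T.level :=
  (Finset.dvd_prod_of_mem T.pr (Finset.mem_univ l)).trans (dvd_mul_left _ X.B)

/-- The group of diamond operators. -/
abbrev Delta : Type := Patching.DeltaV p T.expo

instance neZero_pow (l : Fin (r + X.E.card)) : NeZero (p ^ T.expo l) :=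
  ⟨pow_ne_zero _ X.fact_prime.out.ne_zero⟩

/-- The character at one prime. -/
def compChar (l : Fin (r + X.E.card)) :
    (ZMod (T.pr l))ˣ →* Multiplicative (ZMod (p ^ T.expo l)) :=
  haveI := Fact.mk (T.pr_prime l)
  (exists_cyclicQuot (Nat.ordProj_dvd (T.pr l - 1) p)).choose

/-- The character at one prime of a tuple is surjective. -/
theorem compChar_surjective (l : Fin (r + X.E.card)) : Function.Surjective (T.compChar l) :=
  haveI := Fact.mk (T.pr_prime l)
  (exists_cyclicQuot (Nat.ordProj_dvd (T.pr l - 1) p)).choose_spec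

/-- The characters together. -/
def twChar : (ZMod T.level)ˣ →* T.Delta :=
  MonoidHom.pi fun l => (T.compChar l).comp (ZMod.unitsMap (T.pr_dvd_level l))

/-- The product of the primes of a tuple divides the level. -/
theorem prod_pr_dvd_level : (∏ l, T.pr l) ∣ T.level := dvd_mul_left _ X.B

/-- The characters are jointly surjective, by the Chinese remainder theorem. -/
theorem twChar_surjective : Function.Surjective T.twChar := by
  intro δ
  choose u hu using fun l => T.compChar_surjective l (δ l)
  have hc : Pairwise (Function.onFun Nat.Coprime T.pr) := fun l l' h =>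
    (Nat.coprime_primes (T.pr_prime l) (T.pr_prime l')).2 fun e => h (T.pr_injective e)
  have : NeZero (∏ l, T.pr l) := ⟨Finset.prod_ne_zero_iff.2 fun l _ => (T.pr_prime l).ne_zero⟩
  let e := ZMod.prodEquivPi T.pr hc
  let z : ∀ l, ZMod (T.pr l) := fun l => (u l : ZMod (T.pr l))
  have hz : IsUnit z := Pi.isUnit_iff.2 fun l => (u l).isUnit
  obtain ⟨w, hw⟩ := ZMod.unitsMap_surjective T.prod_pr_dvd_level (hz.map e.symm).unit
  refine ⟨w, funext fun l => ?_⟩
  show T.compChar l (ZMod.unitsMap (T.pr_dvd_level l) w) = δ l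
  rw [← hu l]
  refine congrArg _ (Units.ext ?_)
  have hl : T.pr l ∣ ∏ l, T.pr l := Finset.dvd_prod_of_mem T.pr (Finset.mem_univ l)
  have h1 : ZMod.castHom T.prod_pr_dvd_level (ZMod (∏ l, T.pr l)) (w : ZMod T.level) = e.symm z :=
    congrArg Units.val hw
  have h2 : ZMod.castHom hl (ZMod (T.pr l)) (e.symm z) = z l := by
    conv_rhs => rw [← e.apply_symm_apply z]
    exact DFunLike.congr_fun (Subsingleton.elim (ZMod.castHom hl (ZMod (T.pr l)))
      ((Pi.evalRingHom (fun l => ZMod (T.pr l)) l).comp e.toRingHom)) (e.symm z)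
  show ZMod.castHom (T.pr_dvd_level l) (ZMod (T.pr l)) (w : ZMod T.level) = z l
  rw [← h2, ← h1]
  exact DFunLike.congr_fun (Subsingleton.elim (ZMod.castHom (T.pr_dvd_level l) (ZMod (T.pr l)))
    ((ZMod.castHom hl (ZMod (T.pr l))).comp
      (ZMod.castHom T.prod_pr_dvd_level (ZMod (∏ l, T.pr l))))) (w : ZMod T.level)

/-- The subgroup `H`. -/
abbrev subH : Subgroup (ZMod T.level)ˣ := T.twChar.ker

/-- The character on `⊤`. -/
def topChar : (⊤ : Subgroup (ZMod T.level)ˣ) →* T.Delta := T.twChar.comp (Subgroup.subtype ⊤)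

/-- The character onto `Δ` is surjective. -/
theorem topChar_surjective : Function.Surjective T.topChar := fun δ =>
  ⟨⟨(T.twChar_surjective δ).choose, trivial⟩, (T.twChar_surjective δ).choose_spec⟩

/-- The subgroup of the level is the kernel of the character onto `Δ`. -/
theorem mem_subH_iff (u : (⊤ : Subgroup (ZMod T.level)ˣ)) :
    (u : (ZMod T.level)ˣ) ∈ T.subH ↔ T.topChar u = 1 := Iff.rfl

/-- The residual system: `α` at the Taylor–Wiles primes. -/
def sys : Nat.Primes → ResidueField O := fun ℓ =>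
  if h : ∃ j, T.q j = ℓ then T.α h.choose else X.a ℓ

/-- The maximal ideal. -/
abbrev idl : Ideal (HeckePoly O) := eigIdeal T.sys

/-- The module of the level. -/
abbrev Space : Type := LocM T.idl (HMod T.level T.subH O)

/-- The diamond operators. -/
abbrev dia : T.Delta →* Module.End O T.Space :=
  GroupH1.diamond (O := O) le_top T.topChar T.topChar_surjective T.mem_subH_iff T.idl

/-- A Hecke operator. -/
def heckeEnd (ℓ : Nat.Primes) : Module.End O T.Space :=
  Algebra.lsmul O O T.Space (MvPolynomial.X ℓ : HeckePoly O)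

/-- The bad primes. -/
def badPrimes : Finset ℕ := insert p T.level.primeFactors

/-- The generators of the algebra. -/
def gens : Set (Module.End O T.Space) :=
  Set.range T.dia ∪ T.heckeEnd '' {ℓ | (ℓ : ℕ) ∉ T.badPrimes}

/-- The Hecke operators commute with one another. -/
theorem heckeEnd_comm (ℓ ℓ' : Nat.Primes) :
    T.heckeEnd ℓ * T.heckeEnd ℓ' = T.heckeEnd ℓ' * T.heckeEnd ℓ := by
  simp only [heckeEnd, ← map_mul, mul_comm]

/-- The diamond operators commute with the Hecke operators. -/
theorem dia_heckeEnd_comm (δ : T.Delta) (ℓ : Nat.Primes) :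
    T.dia δ * T.heckeEnd ℓ = T.heckeEnd ℓ * T.dia δ :=
  LinearMap.ext fun x => map_smul
    (mapLocM T.idl (deckLin (O := O) le_top T.topChar T.topChar_surjective T.mem_subH_iff δ)) _ x

/-- The generators of the algebra commute. -/
theorem gens_comm : ∀ x ∈ T.gens, ∀ y ∈ T.gens, x * y = y * x := by
  rintro x (⟨δ, rfl⟩ | ⟨ℓ, -, rfl⟩) y (⟨δ', rfl⟩ | ⟨ℓ', -, rfl⟩)
  · rw [← map_mul, ← map_mul, mul_comm]
  · exact T.dia_heckeEnd_comm δ ℓ'
  · exact (T.dia_heckeEnd_comm δ' ℓ).symm
  · exact T.heckeEnd_comm ℓ ℓ'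

/-- The algebra generated by the diamond and good Hecke operators. -/
abbrev Alg : Type := ↥(Algebra.adjoin O T.gens)

open IsMulCommutative in
instance commRing_alg : CommRing T.Alg :=
  have := Algebra.isMulCommutative_adjoin O T.gens_comm
  inferInstance

/-- A diamond operator in the algebra. -/
def diaA (δ : T.Delta) : T.Alg := ⟨T.dia δ, Algebra.subset_adjoin (Or.inl ⟨δ, rfl⟩)⟩

/-- A good Hecke operator in the algebra. -/
def heckeA (ℓ : Nat.Primes) (h : (ℓ : ℕ) ∉ T.badPrimes) : T.Alg :=
  ⟨T.heckeEnd ℓ, Algebra.subset_adjoin (Or.inr ⟨ℓ, h, rfl⟩)⟩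

/-- `δ ^ halfExp` is a square root of `δ`. -/
def halfExp : ℕ := (p ^ (∑ l, T.expo l) + 1) / 2

/-- The exponent of `Δ`. -/
theorem delta_pow_eq_one (δ : T.Delta) : δ ^ p ^ (∑ l, T.expo l) = 1 := by
  refine funext fun l => ?_
  obtain ⟨c, hc⟩ : p ^ T.expo l ∣ p ^ ∑ l, T.expo l :=
    pow_dvd_pow _ (Finset.single_le_sum (fun i _ => Nat.zero_le (T.expo i)) (Finset.mem_univ l))
  rw [Pi.pow_apply, hc, Pi.one_apply]
  refine Multiplicative.toAdd.injective ?_
  rw [toAdd_pow, toAdd_one, mul_nsmul, nsmul_eq_mul, nsmul_eq_mul, ZMod.natCast_self, zero_mul,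
    mul_zero]

/-- `halfExp` gives square roots in `Δ`. -/
theorem pow_two_mul_halfExp (δ : T.Delta) : δ ^ (2 * T.halfExp) = δ := by
  have hodd : Odd (p ^ ∑ l, T.expo l) := (X.fact_prime.out.odd_of_ne_two X.ne_two).pow
  rw [halfExp, Nat.two_mul_div_two_of_even hodd.add_one, pow_succ, T.delta_pow_eq_one, one_mul]

/-- The twisted operator `⟨ℓ⟩^(-1/2) T_ℓ`. -/
def twA (ℓ : Nat.Primes) (h : (ℓ : ℕ) ∉ T.badPrimes) : T.Alg :=
  T.diaA (HeckeCohom.classOf T.topChar (HeckeCohom.unitAt T.level ℓ) ^ T.halfExp) *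
    T.heckeA ℓ h

/-- The exponents at the exceptional primes. -/
def expoE : Fin X.E.card → ℕ := fun i => T.expo (Fin.natAdd r i)

/-- The exponents at the Taylor–Wiles primes. -/
def expoT : Fin r → ℕ := fun j => T.expo (Fin.castAdd X.E.card j)

/-- The diamond generators at the exceptional primes. -/
def tE : Fin X.E.card → T.Alg := fun i => T.diaA (Patching.genV (Fin.natAdd r i))

/-- The diamond generators at the Taylor–Wiles primes. -/
def tT : Fin r → T.Alg := fun j => T.diaA (Patching.genV (Fin.castAdd X.E.card j))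

end TWTuple

end AvoidSetup

end Fermat.Agent.LevelLowering.Avoid
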