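import Fermat.Agent.LevelLowering.Avoid.Problem

/-!
# Ihara avoidance: what a level has to provide

The module of a level gives `LevelModules` once it is free over the diamond operators, its algebra
is reduced and receives the deformation ring, the inertia elements at the Taylor–Wiles primes give
the diamond augmentations, and the two conditions on points hold.
-/

set_option autoImplicit false

noncomputable section

open IsLocalRing
open Fermat.Agent.GroupH1
open Fermat.Agent.GaloisBasics (GalQ)

namespace Fermat.Agent.LevelLowering.Avoid

variable {O : Type} [CommRing O] [IsDomain O] [IsDiscreteValuationRing O]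
  [IsAdicComplete (maximalIdeal O) O]

namespace AvoidSetup

variable {p : ℕ} {X : AvoidSetup p O} {r : ℕ} (T : X.TWTuple r)

namespace TWTuple

instance finite_space : Module.Finite O T.Space := finite_locM T.idl

instance free_space : Module.Free O T.Space := GroupH1.free_locM T.idl T.subH

instance finite_alg : Module.Finite O T.Alg :=
  inferInstanceAs (Module.Finite O (Algebra.adjoin O T.gens).toSubmodule)

/-- `φ` sends the traces of Frobenius to the twisted Hecke operators. -/
def HasTraces {R : Type} [CommRing R] [Algebra O R] (tr : GalQ → R) (φ : R →ₐ[O] T.Alg) : Prop :=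
  ∀ (ℓ : Nat.Primes) (h : (ℓ : ℕ) ∉ T.badPrimes),
    ∀ P : ValuationSubring (AlgebraicClosure ℚ), P.LiesOverPrime (ℓ : ℕ) → ∀ σ : GalQ,
      P.IsFrobeniusAt σ (ℓ : ℕ) → φ (tr σ) = T.twA ℓ h

/-- A level from its five properties. -/
theorem nonempty_levelModules {n d : ℕ} {R : Type} [CommRing R] [IsLocalRing R] [Algebra O R]
    {tr : GalQ → R} (K : Type) [Field K] [Algebra O K] (hred : IsReduced T.Alg)
    (hn : ∀ j, n ≤ T.expoT j) (φ : R →ₐ[O] T.Alg) (s : Fin r → R)
    (hs : ∀ j, s j - 1 ∈ maximalIdeal R) (y : Fin d → T.Space)
    (hfree : IsFreeLevel (O := O) (p := p) T.expoT T.expoE (fun j => φ (s j)) T.tE y)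
    (hpts : PointConditions (N := T.Space) K X.E tr φ T.tE) :
    Nonempty (LevelModules O p n r d R tr X.E K) :=
  ⟨{ N := T.Space
     A := T.Alg
     φ := φ
     v := T.expoT
     le_v := hn
     s := s
     s_mem := hs
     w := T.expoE
     one_le_w := fun _ => T.one_le_expo _
     t := T.tE
     y := y
     isFree := hfree
     points := hpts }⟩

end TWTuple

end AvoidSetup

end Fermat.Agent.LevelLowering.Avoid
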