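import Fermat.Agent.LevelLowering.Avoid.Producer
import Fermat.Agent.ConductorLevel.Inputs
import Fermat.Agent.Lifting.TWPoint

/-!
# Ihara avoidance: the statements about one level

`FreeLevel`, `HeckeLevel`, `FormAtPoint` and `TrivialPoint` concern only cohomology and forms;
`GaloisLevel` combines them with a deformation ring.
-/

set_option autoImplicit false

noncomputable section

open IsLocalRing Polynomial
open Fermat.Agent.GroupH1
open Fermat.Agent.GaloisBasics (GalQ)

namespace Fermat.Agent.LevelLowering.Avoid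

variable {O : Type} [CommRing O] [IsDomain O] [IsDiscreteValuationRing O]
  [IsAdicComplete (maximalIdeal O) O]

namespace AvoidSetup

variable {p : ℕ} (X : AvoidSetup p O)

/-- The level of the congruence to be lowered. -/
def baseLevel : ℕ := X.B * ∏ q ∈ X.E, q

/-- The module at the base level. -/
abbrev BaseSpace : Type :=
  LocM (eigIdeal X.a) (HMod X.baseLevel (⊤ : Subgroup (ZMod X.baseLevel)ˣ) O)

/-- The residual system at the level to be reached: `T_q` has eigenvalue `a + a⁻¹` at `E`, where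
`a` is the eigenvalue of `U_q` at the base level. -/
def bottomSys : Nat.Primes → ResidueField O := fun ℓ =>
  if (ℓ : ℕ) ∈ X.E then X.a ℓ + (X.a ℓ)⁻¹ else X.a ℓ

/-- The module at the level to be reached. -/
abbrev BottomSpace : Type :=
  LocM (eigIdeal X.bottomSys) (HMod X.B (⊤ : Subgroup (ZMod X.B)ˣ) O)

/-- Auxiliary primes: `≡ 1` modulo any modulus and not Eisenstein, and `≡ 2 (mod 3)` with
non-zero eigenvalue when `3` is not invertible. -/
structure Witness : Prop where
  nonEis : ∀ M : ℕ, M ≠ 0 → ∀ S : Finset ℕ, ∃ ℓ : Nat.Primes, (ℓ : ℕ) ∉ S ∧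
    ((ℓ : ℕ) : ZMod M) = 1 ∧ X.a ℓ ≠ ((ℓ : ℕ) : ResidueField O) + 1
  three : IsUnit (3 : O) ∨ ∀ S : Finset ℕ, ∃ ℓ : Nat.Primes, (ℓ : ℕ) ∉ S ∧ (ℓ : ℕ) % 3 = 2 ∧
    X.a ℓ ≠ 0

/-- `ρbar` is the residual representation of the system `a`. -/
structure IsResidual (ρbar : ResidualGaloisRep (ResidueField O)) : Prop where
  absIrr : ρbar.IsAbsolutelyIrreducible
  odd : ρbar.IsOdd
  frob : ∀ ℓ : Nat.Primes, (ℓ : ℕ) ≠ p → ¬ (ℓ : ℕ) ∣ X.B → (ℓ : ℕ) ∉ X.E →
    ∀ P : ValuationSubring (AlgebraicClosure ℚ), P.LiesOverPrime (ℓ : ℕ) → ∀ σ : GalQ,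
      P.IsFrobeniusAt σ (ℓ : ℕ) →
        LinearMap.charpoly (ρbar.ρ σ) = Polynomial.X ^ 2 - C (X.a ℓ) * Polynomial.X +
          C ((ℓ : ℕ) : ResidueField O)

variable {X} {r : ℕ} (T : X.TWTuple r)

namespace TWTuple

/-- The level of the twisted forms. -/
def twLevel : ℕ := T.level * ∏ l, T.pr l

instance neZero_twLevel : NeZero T.twLevel :=
  ⟨mul_ne_zero (NeZero.ne T.level)
    (Finset.prod_ne_zero_iff.2 fun l _ => (T.pr_prime l).ne_zero)⟩

omit [IsAdicComplete (maximalIdeal O) O] in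
/-- `p` is a bad prime. -/
theorem mem_badPrimes_self : p ∈ T.badPrimes := Finset.mem_insert_self _ _

omit [IsAdicComplete (maximalIdeal O) O] in
/-- The primes of the twisted level are bad. -/
theorem mem_badPrimes_of_dvd {q : ℕ} (hq : q.Prime) (h : q ∣ T.twLevel) : q ∈ T.badPrimes :=
  Finset.mem_insert_of_mem (Nat.mem_primeFactors.mpr ⟨hq, (hq.dvd_mul.mp h).elim id
    fun h => h.trans T.prod_pr_dvd_level, NeZero.ne _⟩)

/-- A newform whose eigenvalues are those of the point `χ`. -/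
def FormAt {K : Type} [Field K] [Algebra O K] (χ : T.Alg →ₐ[O] K) (M : ℕ) [NeZero M]
    (g : CuspForm (CongruenceSubgroup.Gamma0 M) 2) : Prop :=
  g.IsNewform ∧ M ∣ T.twLevel ∧
    ∃ (R : Subring ℂ) (hR : ∀ ℓ : ℕ, ℓ.Prime → ℓ ∉ T.badPrimes → ModularFormClass.qCoeff g ℓ ∈ R)
      (ι : R →+* K), ∀ (ℓ : Nat.Primes) (h : (ℓ : ℕ) ∉ T.badPrimes),
        χ (T.twA ℓ h) = ι ⟨_, hR (ℓ : ℕ) ℓ.2 h⟩

/-- The module is free over the diamond operators of constant rank. -/
def FreeLevel : Prop :=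
  CharZero O → Finite (ResidueField O) → X.Witness → ∃ y : Fin (Module.finrank O X.BaseSpace) → T.Space,
    Function.Bijective fun c : Fin (Module.finrank O X.BaseSpace) →
        Patching.GroupAlgV O p T.expo =>
      ∑ i, MonoidAlgebra.lift O (Module.End O T.Space) T.Delta T.dia (c i) (y i)

/-- The algebra is reduced and is an image of the local Hecke algebra of the twisted level. -/
def HeckeLevel : Prop :=
  CharZero O → Finite (ResidueField O) → X.Witness → Nontrivial X.BaseSpace → IsReduced T.Alg ∧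
    ∃ (θ : CuspForm.heckeAlgebra T.twLevel 2 (↑T.badPrimes : Set ℕ) →+* ResidueField O)
      (act : CuspForm.heckeLocal T.twLevel (↑T.badPrimes : Set ℕ) O θ →ₐ[O] T.Alg),
      ∀ (ℓ : ℕ) (hℓ : ℓ.Prime) (hℓN : ¬ ℓ ∣ T.twLevel) (hℓS : ℓ ∉ (↑T.badPrimes : Set ℕ)),
        θ (CuspForm.heckeAlgebra.T hℓ hℓN hℓS) = X.a ⟨ℓ, hℓ⟩ ∧
          act (CuspForm.heckeLocal.π T.twLevel (↑T.badPrimes : Set ℕ) O θ
            (CuspForm.heckeAlgebra.T hℓ hℓN hℓS)) = T.twA ⟨ℓ, hℓ⟩ hℓS

/-- Every point is a newform, with exponent two exactly where the character is non-trivial. -/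
def FormAtPoint : Prop :=
  CharZero O → Finite (ResidueField O) → X.Witness → ∀ χ : T.Alg →ₐ[O] AlgebraicClosure (FractionRing O), ∃ (M : ℕ) (_ : NeZero M)
    (g : CuspForm (CongruenceSubgroup.Gamma0 M) 2), T.FormAt χ M g ∧
      ∀ l, (χ (T.diaA (Patching.genV l)) ≠ 1 → M.factorization (T.pr l) = 2) ∧
        (χ (T.diaA (Patching.genV l)) = 1 → M.factorization (T.pr l) ≤ 1)

/-- A point trivial at the exceptional primes is Steinberg at one of them, unless the system
already occurs at level `B`. -/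
def TrivialPoint : Prop :=
  CharZero O → Finite (ResidueField O) → X.Witness → ¬ Nontrivial X.BottomSpace →
    ∀ χ : T.Alg →ₐ[O] AlgebraicClosure (FractionRing O), (∀ i, χ (T.tE i) = 1) →
    ∃ q ∈ X.E, ∃ (M : ℕ) (_ : NeZero M) (g : CuspForm (CongruenceSubgroup.Gamma0 M) 2),
      T.FormAt χ M g ∧ q ∣ M ∧ ¬ q ^ 2 ∣ M

/-- From a deformation ring with Frobenius traces in the algebra: the inertia elements at the
Taylor–Wiles primes and the conditions on the points. -/
def GaloisLevel (ρbar : ResidualGaloisRep (ResidueField O))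
    {𝒟 : ∀ ⦃A : Type⦄ [CommRing A] [IsLocalRing A] [Algebra O A], GaloisRepAdic A → Prop}
    (DQ : GaloisRep.DeformationRingData O ρbar 𝒟) : Prop :=
  CharZero O → Finite (ResidueField O) → X.Witness → X.IsResidual ρbar →
    DQ.ρ.DetIsCyclotomic p → ¬ Nontrivial X.BottomSpace →
    Lifting.UnipotentAtSemistable → ConductorLevel.NewformSteinberg →
    ConductorLevel.NewformCarayol → T.FreeLevel → T.FormAtPoint → T.TrivialPoint →
    ∀ φ : DQ.R →ₐ[O] T.Alg, T.HasTraces DQ.ρ.trace φ →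
      ∃ s : Fin r → DQ.R, (∀ j, s j - 1 ∈ maximalIdeal DQ.R) ∧
        (∀ j, φ (s j) ^ p ^ T.expoT j = 1) ∧
        (∀ j, Ideal.span {φ (s j) - 1} • (⊤ : Submodule T.Alg T.Space) =
          Ideal.span {T.tT j - 1} • ⊤) ∧
        PointConditions (N := T.Space) (AlgebraicClosure (FractionRing O)) X.E DQ.ρ.trace φ
          T.tE

end TWTuple

end AvoidSetup

end Fermat.Agent.LevelLowering.Avoid
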