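import Fermat.Agent.LevelLowering.Avoid.Level
import Mathlib.Algebra.MonoidAlgebra.Basic
import Mathlib.LinearAlgebra.Quotient.Basic

/-!
# Ihara avoidance: the two quotients of a module free over a group algebra

If `N` is free of rank `d` over the group algebra of `Δ_T × Δ_Q`, acting through `s` and `t`, then
the quotients `t = 1` and `t = η` are free of rank `d` over `𝒪[Δ_T]` and agree modulo the
uniformiser when `η ≡ 1`.
-/

set_option autoImplicit false

noncomputable section

open IsLocalRing

namespace Fermat.Agent.LevelLowering.Avoid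

variable {O : Type} [CommRing O] [IsDomain O] [IsDiscreteValuationRing O] {p : ℕ}

/-- The monoid hom out of `∏ⱼ ℤ/p^(vⱼ)` with prescribed values on the generators. -/
def liftGen [NeZero p] {B : Type} [CommMonoid B] {r : ℕ} {v : Fin r → ℕ} (a : Fin r → B)
    (ha : ∀ j, a j ^ (p ^ v j) = 1) : Patching.DeltaV p v →* B where
  toFun x := ∏ j, a j ^ (Multiplicative.toAdd (x j)).val
  map_one' := by simp
  map_mul' x y := by
    rw [← Finset.prod_mul_distrib]
    refine Finset.prod_congr rfl fun j _ => ?_
    have : NeZero (p ^ v j) := ⟨pow_ne_zero _ (NeZero.ne p)⟩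
    rw [Pi.mul_apply, toAdd_mul, ZMod.val_add, ← pow_add]
    exact (pow_eq_pow_mod _ (ha j)).symm

theorem liftGen_genV [Fact p.Prime] {B : Type} [CommMonoid B] {r : ℕ} {v : Fin r → ℕ}
    (a : Fin r → B) (ha : ∀ j, a j ^ (p ^ v j) = 1) (j : Fin r) :
    liftGen a ha (Patching.genV j) = a j := by
  show ∏ l, a l ^ (Multiplicative.toAdd (Patching.genV (ℓ := p) (v := v) j l)).val = a j
  rw [Finset.prod_eq_single j]
  · have h1 : Patching.genV (ℓ := p) (v := v) j j = Multiplicative.ofAdd 1 :=
      Pi.mulSingle_eq_same (M := fun l : Fin r => Multiplicative (ZMod (p ^ v l))) j _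
    rw [h1, toAdd_ofAdd, ZMod.val_one_eq_one_mod, ← pow_eq_pow_mod _ (ha j), pow_one]
  · intro l _ hl
    rw [show Patching.genV (ℓ := p) (v := v) j l = 1 from
      Pi.mulSingle_eq_of_ne (M := fun l : Fin r => Multiplicative (ZMod (p ^ v l))) hl _]
    simp
  · simp

variable [Fact p.Prime]

/-- The group algebra maps with prescribed values on the generators. -/
def liftAlg {B : Type} [CommRing B] [Algebra O B] {r : ℕ} {v : Fin r → ℕ} (a : Fin r → B)
    (ha : ∀ j, a j ^ (p ^ v j) = 1) : Patching.GroupAlgV O p v →ₐ[O] B :=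
  MonoidAlgebra.lift O B (Patching.DeltaV p v) (liftGen a ha)

omit [IsDomain O] [IsDiscreteValuationRing O] in
theorem liftAlg_gen {B : Type} [CommRing B] [Algebra O B] {r : ℕ} {v : Fin r → ℕ}
    (a : Fin r → B) (ha : ∀ j, a j ^ (p ^ v j) = 1) (j : Fin r) :
    liftAlg (O := O) a ha (MonoidAlgebra.of O _ (Patching.genV j)) = a j := by
  rw [liftAlg, MonoidAlgebra.lift_of, liftGen_genV]

variable {r k d : ℕ} {A N : Type} [CommRing A] [Algebra O A] [AddCommGroup N] [Module A N]
  [Module O N] [IsScalarTower O A N]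

/-- The quotient of `N` by `t = η`. -/
abbrev twistKer (t : Fin k → A) (η : Fin k → O) : Submodule A N :=
  Ideal.span (Set.range fun i => t i - algebraMap O A (η i)) • (⊤ : Submodule A N)

variable (hpO : (p : O) ∈ maximalIdeal O) (v : Fin r → ℕ) (w : Fin k → ℕ)
  (s : Fin r → A) (t : Fin k → A) (y : Fin d → N)

/-- The hypothesis that `N` is free on `y` over `𝒪[Δ_T × Δ_Q]`. -/
structure IsFreeLevel : Prop where
  s_pow : ∀ j, s j ^ (p ^ v j) = 1
  t_pow : ∀ i, t i ^ (p ^ w i) = 1
  finrank_eq : Module.finrank O N = d * ((∏ j, p ^ v j) * ∏ i, p ^ w i)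
  span : ∀ z : N, ∃ c : Fin d → O, z - ∑ i, algebraMap O A (c i) • y i ∈
    Ideal.span (Set.range (fun j => s j - 1) ∪ Set.range (fun i => t i - 1)) •
      (⊤ : Submodule A N)

variable {v w s t y}
variable [Module.Finite O N] [Module.Free O N]

omit [Fact p.Prime] [IsScalarTower O A N] [Module.Finite O N] [Module.Free O N] [IsDomain O]
  [IsDiscreteValuationRing O] in
/-- The values `s`, `t` have the orders of the generators of `Δ_T × Δ_Q`. -/
theorem IsFreeLevel.append_pow (h : IsFreeLevel (O := O) (p := p) v w s t y) (l : Fin (r + k)) :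
    Fin.append s t l ^ (p ^ Fin.append v w l) = 1 :=
  Fin.addCases (fun j => by simpa [Fin.append_left] using h.s_pow j)
    (fun i => by simpa [Fin.append_right] using h.t_pow i) l

/-- The action of `𝒪[Δ_T × Δ_Q]` through `s` and `t`. -/
def IsFreeLevel.actAlg (h : IsFreeLevel (O := O) (p := p) v w s t y) :
    Patching.GroupAlgV O p (Fin.append v w) →ₐ[O] A :=
  liftAlg (Fin.append s t) h.append_pow

/-- The map `𝒪[Δ_T × Δ_Q]^d → N` given by `y`. -/
def IsFreeLevel.basisMap (h : IsFreeLevel (O := O) (p := p) v w s t y) :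
    (Fin d → Patching.GroupAlgV O p (Fin.append v w)) →ₗ[O] N where
  toFun c := ∑ i, h.actAlg (c i) • y i
  map_add' c c' := by simp [add_smul, Finset.sum_add_distrib]
  map_smul' a c := by simp [Finset.smul_sum]

include hpO in
/-- `N` is free on `y` over `𝒪[Δ_T × Δ_Q]`. -/
theorem IsFreeLevel.basisMap_bijective (h : IsFreeLevel (O := O) (p := p) v w s t y) :
    Function.Bijective h.basisMap := by
  obtain ⟨hloc, hmax⟩ := Patching.isLocalRing_groupAlg (v := Fin.append v w) hpO
  set u := Fin.append v w with hu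
  have hgenm : ∀ l, (MonoidAlgebra.of O _ (Patching.genV (v := u) l) - 1 :
      Patching.GroupAlgV O p u) ∈ maximalIdeal (Patching.GroupAlgV O p u) := fun l => by
    rw [hmax (maximalIdeal (Patching.GroupAlgV O p u)) inferInstance, Ideal.mem_comap, map_sub,
      map_one]
    simp [Patching.augmentation]
  have hsurj : Function.Surjective h.basisMap := by
    intro z
    obtain ⟨c, hc⟩ := Patching.surjective_of_nakayama (h.actAlg : Patching.GroupAlgV O p u →+* A)
      (N := N) (O := O) (algebraMap O _)
      (fun a x => by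
        rw [show (h.actAlg : Patching.GroupAlgV O p u →+* A) (algebraMap O _ a) = algebraMap O A a
          from AlgHom.commutes h.actAlg a, algebraMap_smul])
      le_rfl y (fun x => by
        obtain ⟨c, hc⟩ := h.span x
        refine ⟨fun i => algebraMap O _ (c i), x - ∑ i, algebraMap O A (c i) • y i, ?_, ?_⟩
        · refine Submodule.smul_mono_left (Ideal.span_le.mpr ?_) hc
          have hΛ : ∀ l, h.actAlg (MonoidAlgebra.of O _ (Patching.genV l) - 1) =
              Fin.append s t l - 1 := fun l => by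
            rw [map_sub, map_one]
            simp only [IsFreeLevel.actAlg, liftAlg_gen]
          rintro _ (⟨j, rfl⟩ | ⟨i, rfl⟩)
          · have h2 := Ideal.mem_map_of_mem (h.actAlg : Patching.GroupAlgV O p u →+* A)
              (hgenm (Fin.castAdd k j))
            rw [RingHom.coe_coe, hΛ] at h2
            simpa [Fin.append_left] using h2
          · have h2 := Ideal.mem_map_of_mem (h.actAlg : Patching.GroupAlgV O p u →+* A)
              (hgenm (Fin.natAdd r i))
            rw [RingHom.coe_coe, hΛ] at h2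
            simpa [Fin.append_right] using h2
        · simp only [show ∀ a : O, (h.actAlg : Patching.GroupAlgV O p u →+* A) (algebraMap O _ a) =
            algebraMap O A a from AlgHom.commutes h.actAlg]
          exact (add_sub_cancel _ _).symm) z
    exact ⟨c, hc.symm⟩
  have hrank : Module.finrank O (Fin d → Patching.GroupAlgV O p u) = Module.finrank O N := by
    rw [h.finrank_eq, Module.finrank_pi_fintype]
    simp [(MonoidAlgebra.coeffLinearEquiv O).finrank_eq, Fin.prod_univ_add, hu]
  let eqv := LinearEquiv.ofFinrankEq (R := O) N (Fin d → Patching.GroupAlgV O p u) hrank.symm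
  exact ⟨fun a b hab => OrzechProperty.injective_of_surjective_endomorphism
    (eqv.toLinearMap ∘ₗ h.basisMap) (eqv.surjective.comp hsurj) (congrArg eqv hab), hsurj⟩

/-- The specialisation `𝒪[Δ_T × Δ_Q] → 𝒪[Δ_T]` at `η`. -/
def twistAlg (η : Fin k → O) (hη : ∀ i, η i ^ (p ^ w i) = 1) :
    Patching.GroupAlgV O p (Fin.append v w) →ₐ[O] Patching.GroupAlgV O p v :=
  liftAlg (Fin.append (fun j => MonoidAlgebra.of O _ (Patching.genV j))
      fun i => algebraMap O _ (η i))
    fun l => Fin.addCases
      (fun j => by simp only [Fin.append_left, ← map_pow, Patching.gen_pow_eq_one, map_one])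
      (fun i => by simp only [Fin.append_right, ← map_pow, hη, map_one]) l

/-- The inclusion `𝒪[Δ_T] → 𝒪[Δ_T × Δ_Q]`. -/
def inclAlg : Patching.GroupAlgV O p v →ₐ[O] Patching.GroupAlgV O p (Fin.append v w) :=
  liftAlg (fun j => MonoidAlgebra.of O _ (Patching.genV (Fin.castAdd k j))) fun j => by
    have h1 := Patching.gen_pow_eq_one (ℓ := p) (v := Fin.append v w) (Fin.castAdd k j)
    simp only [Fin.append_left] at h1
    simp only [← map_pow, h1, map_one]

omit [IsDomain O] [IsDiscreteValuationRing O] in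
/-- The specialisation retracts the inclusion. -/
theorem twistAlg_comp_inclAlg (η : Fin k → O) (hη : ∀ i, η i ^ (p ^ w i) = 1) :
    (twistAlg (v := v) η hη).comp inclAlg = AlgHom.id O _ := by
  refine MonoidAlgebra.algHom_ext' (Patching.delta_hom_ext fun j => ?_) ?_
  · show twistAlg η hη (inclAlg (MonoidAlgebra.of O _ (Patching.genV j))) = _
    simp only [twistAlg, inclAlg, liftAlg_gen, Fin.append_left]
    rfl
  · exact Subsingleton.elim _ _

omit [IsScalarTower O A N] [Module.Finite O N] [Module.Free O N] [IsDomain O]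
  [IsDiscreteValuationRing O] in
/-- Modulo `t = η` the action factors through the specialisation at `η`. -/
theorem IsFreeLevel.actAlg_sub_mem (h : IsFreeLevel (O := O) (p := p) v w s t y) (η : Fin k → O)
    (hη : ∀ i, η i ^ (p ^ w i) = 1) (g : Patching.GroupAlgV O p (Fin.append v w)) :
    h.actAlg g - h.actAlg (inclAlg (twistAlg η hη g)) ∈
      Ideal.span (Set.range fun i => t i - algebraMap O A (η i)) := by
  rw [← Ideal.Quotient.eq]
  set I := Ideal.span (Set.range fun i => t i - algebraMap O A (η i))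
  refine DFunLike.congr_fun (f := (Ideal.Quotient.mkₐ O I).comp h.actAlg)
    (g := ((Ideal.Quotient.mkₐ O I).comp h.actAlg).comp (inclAlg.comp (twistAlg η hη))) ?_ g
  refine MonoidAlgebra.algHom_ext' (Patching.delta_hom_ext fun l => ?_) ?_
  · show Ideal.Quotient.mk I (h.actAlg (MonoidAlgebra.of O _ (Patching.genV l))) =
      Ideal.Quotient.mk I (h.actAlg (inclAlg (twistAlg η hη
        (MonoidAlgebra.of O _ (Patching.genV l)))))
    refine Fin.addCases (fun j => ?_) (fun i => ?_) l
    · simp only [twistAlg, inclAlg, IsFreeLevel.actAlg, liftAlg_gen, Fin.append_left]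
    · simp only [twistAlg, IsFreeLevel.actAlg, liftAlg_gen, Fin.append_right, AlgHom.commutes]
      exact Ideal.Quotient.eq.mpr (Ideal.subset_span ⟨i, rfl⟩)
  · exact Subsingleton.elim _ _

include hpO in
/-- The kernel of `t = η` comes from the kernel of the specialisation at `η`. -/
theorem IsFreeLevel.exists_of_mem_twistKer (h : IsFreeLevel (O := O) (p := p) v w s t y)
    (η : Fin k → O) (hη : ∀ i, η i ^ (p ^ w i) = 1) {z : N}
    (hz : z ∈ (twistKer t η : Submodule A N)) :
    ∃ c, h.basisMap c = z ∧ ∀ i, twistAlg η hη (c i) = 0 := by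
  have hsmul : ∀ g c, h.basisMap (g • c) = h.actAlg g • h.basisMap c := fun g c => by
    simp [IsFreeLevel.basisMap, Finset.smul_sum, mul_smul]
  refine Submodule.smul_induction_on hz ?_ ?_
  · intro a ha x _
    revert x
    induction ha using Submodule.span_induction with
    | mem b hb =>
      obtain ⟨i, rfl⟩ := hb
      intro x _
      obtain ⟨c, rfl⟩ := (h.basisMap_bijective hpO).2 x
      refine ⟨(MonoidAlgebra.of O _ (Patching.genV (Fin.natAdd r i)) - algebraMap O _ (η i) :
        Patching.GroupAlgV O p (Fin.append v w)) • c, ?_, fun l => ?_⟩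
      · rw [hsmul, map_sub, AlgHom.commutes]
        simp only [IsFreeLevel.actAlg, liftAlg_gen, Fin.append_right]
      · rw [Pi.smul_apply, smul_eq_mul, map_mul, map_sub, AlgHom.commutes]
        simp only [twistAlg, liftAlg_gen, Fin.append_right, sub_self, zero_mul]
    | zero => intro x _; exact ⟨0, by simp, by simp⟩
    | add a b _ _ iha ihb =>
      intro x hx
      obtain ⟨c₁, h₁, e₁⟩ := iha x hx
      obtain ⟨c₂, h₂, e₂⟩ := ihb x hx
      exact ⟨c₁ + c₂, by rw [map_add, h₁, h₂, add_smul], fun l => by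
        rw [Pi.add_apply, map_add, e₁, e₂, add_zero]⟩
    | smul g a _ iha =>
      intro x _
      obtain ⟨c₁, h₁, e₁⟩ := iha (g • x) trivial
      exact ⟨c₁, by rw [h₁, smul_eq_mul, mul_comm, mul_smul], e₁⟩
  · rintro a b ⟨c₁, rfl, h₁⟩ ⟨c₂, rfl, h₂⟩
    exact ⟨c₁ + c₂, map_add _ _ _, fun l => by rw [Pi.add_apply, map_add, h₁, h₂, add_zero]⟩

include hpO in
/-- A quotient `t = η` is free over `𝒪[Δ_T]` on the images of `y`. -/
theorem IsFreeLevel.twist (h : IsFreeLevel (O := O) (p := p) v w s t y) (η : Fin k → O)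
    (hη : ∀ i, η i ^ (p ^ w i) = 1) :
    Module.Free O (N ⧸ (twistKer t η : Submodule A N)) ∧
      Module.finrank O (N ⧸ (twistKer t η : Submodule A N)) = d * ∏ j, p ^ v j := by
  classical
  set K : Submodule A N := twistKer t η
  let F : (Fin d → Patching.GroupAlgV O p v) →ₗ[O] N ⧸ K :=
    (K.mkQ.restrictScalars O) ∘ₗ (h.basisMap ∘ₗ (inclAlg (w := w)).toLinearMap.compLeft (Fin d))
  have hF : Function.Bijective F := by
    constructor
    · refine (injective_iff_map_eq_zero F).mpr fun c hc => ?_
      obtain ⟨c', hc', hπ'⟩ :=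
        h.exists_of_mem_twistKer hpO η hη ((Submodule.Quotient.mk_eq_zero K).mp hc)
      funext i
      have h2 := congrArg (twistAlg η hη) (congrFun ((h.basisMap_bijective hpO).1 hc') i)
      rw [hπ' i] at h2
      exact (DFunLike.congr_fun (twistAlg_comp_inclAlg η hη) (c i)).symm.trans h2.symm
    · intro z
      obtain ⟨x, rfl⟩ := Submodule.Quotient.mk_surjective K z
      obtain ⟨c, rfl⟩ := (h.basisMap_bijective hpO).2 x
      refine ⟨fun i => twistAlg η hη (c i), (Submodule.Quotient.eq K).mpr ?_⟩
      show h.basisMap (fun i => inclAlg (twistAlg η hη (c i))) - h.basisMap c ∈ K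
      rw [← neg_mem_iff, neg_sub]
      change ∑ i, h.actAlg (c i) • y i - ∑ i, h.actAlg (inclAlg (twistAlg η hη (c i))) • y i ∈ K
      rw [← Finset.sum_sub_distrib]
      refine Submodule.sum_mem _ fun i _ => ?_
      rw [← sub_smul]
      exact Submodule.smul_mem_smul (h.actAlg_sub_mem η hη _) trivial
  let eF := LinearEquiv.ofBijective F hF
  refine ⟨Module.Free.of_equiv eF, ?_⟩
  rw [← eF.finrank_eq, Module.finrank_pi_fintype]
  simp [(MonoidAlgebra.coeffLinearEquiv O).finrank_eq]

section Level

variable {Rn : Type} [CommRing Rn] [IsLocalRing Rn] [IsNoetherianRing Rn]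
  [IsAdicComplete (maximalIdeal Rn) Rn] [Algebra O Rn] [Algebra Rn A] [IsScalarTower O Rn A]
  [Module Rn N] [IsScalarTower Rn A N] [IsScalarTower O Rn N]
  {ι σ : Type}

omit [IsScalarTower O Rn A] in
include hpO in
/-- An avoidance level from a module free over `𝒪[Δ_T × Δ_Q]`. -/
theorem nonempty_avoidLevel_of_isFreeLevel {n : ℕ} (hv : ∀ j, n ≤ v j) {ϖ : O}
    {C : ι → Finset O} {F : CoordRing O ι σ} (γ : CoordRing O ι σ →ₐ[O] Rn)
    (hγ : Function.Surjective γ) (s₀ : Fin r → Rn) (hs₀ : ∀ j, s₀ j - 1 ∈ maximalIdeal Rn)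
    (hs : ∀ j, algebraMap Rn A (s₀ j) = s j)
    (h : IsFreeLevel (O := O) (p := p) v w s t y) (η : Fin k → O)
    (hη : ∀ i, η i ^ (p ^ w i) = 1) (hη1 : ∀ i, η i - 1 ∈ Ideal.span {ϖ})
    (hF : ∀ x : N, γ F • x ∈ (twistKer t (fun _ => (1 : O)) : Submodule A N))
    (hrel : ∀ i (x : N),
      γ (∏ c ∈ C i, eigenRel i c) • x ∈ (twistKer t η : Submodule A N) ∧
        γ (minorAB i) • x ∈ (twistKer t η : Submodule A N) ∧
        γ (minorAC i) • x ∈ (twistKer t η : Submodule A N) ∧
        γ (minorBC i) • x ∈ (twistKer t η : Submodule A N)) :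
    Nonempty (AvoidLevel O ι σ p n r d ϖ C F) := by
  classical
  have h1 := h.twist hpO (fun _ => (1 : O)) (fun i => one_pow _)
  have h2 := h.twist hpO η hη
  have := h1.1
  have := h2.1
  set K₁ : Submodule A N := twistKer t (fun _ => (1 : O))
  set K₂ : Submodule A N := twistKer t η
  set e : A := algebraMap O A ϖ
  have hle : ∀ (a b : Fin k → O), (∀ i, a i - b i ∈ Ideal.span {ϖ}) →
      (twistKer t a : Submodule A N) ≤
        twistKer t b ⊔ Ideal.span {e} • (⊤ : Submodule A N) := by
    intro a b hab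
    rw [twistKer, twistKer, ← Submodule.sup_smul]
    refine Submodule.smul_mono_left (Ideal.span_le.mpr ?_)
    rintro _ ⟨i, rfl⟩
    obtain ⟨c, hc⟩ := Ideal.mem_span_singleton'.mp (hab i)
    have he : t i - algebraMap O A (a i) =
        (t i - algebraMap O A (b i)) + (-algebraMap O A c) * e := by
      have := congrArg (algebraMap O A) hc
      rw [map_mul, map_sub] at this
      linear_combination this
    show t i - algebraMap O A (a i) ∈ _
    rw [he]
    exact add_mem (Submodule.mem_sup_left (Ideal.subset_span ⟨i, rfl⟩))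
      (Submodule.mem_sup_right (Ideal.mul_mem_left _ _ (Ideal.mem_span_singleton_self _)))
  have heq : K₁ ⊔ Ideal.span {e} • ⊤ = K₂ ⊔ Ideal.span {e} • ⊤ :=
    le_antisymm
      (sup_le (hle _ _ fun i => by simpa using neg_mem (hη1 i)) le_sup_right)
      (sup_le (hle _ _ fun i => by simpa using hη1 i) le_sup_right)
  have hred : ∀ (K : Submodule A N) (z : N),
      (Submodule.Quotient.mk z : N ⧸ K) ∈
        Ideal.span {algebraMap O Rn ϖ} • (⊤ : Submodule Rn (N ⧸ K)) ↔
        z ∈ K ⊔ Ideal.span {e} • ⊤ := by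
    intro K z
    rw [Submodule.ideal_span_singleton_smul, Submodule.ideal_span_singleton_smul,
      Submodule.mem_sup]
    constructor
    · intro hz
      obtain ⟨x, -, hx⟩ := hz
      obtain ⟨x, rfl⟩ := Submodule.Quotient.mk_surjective K x
      refine ⟨z - e • x, ?_, e • x, ⟨x, trivial, rfl⟩, sub_add_cancel _ _⟩
      rw [← Submodule.Quotient.eq K, ← hx]
      show algebraMap O Rn ϖ • (Submodule.Quotient.mk x : N ⧸ K) = Submodule.Quotient.mk (e • x)
      rw [← Submodule.Quotient.mk_smul, algebraMap_smul, ← algebraMap_smul A ϖ x]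
    · rintro ⟨a, ha, b, ⟨x, -, rfl⟩, rfl⟩
      refine ⟨Submodule.Quotient.mk x, trivial, ?_⟩
      show algebraMap O Rn ϖ • (Submodule.Quotient.mk x : N ⧸ K) =
        Submodule.Quotient.mk (a + e • x)
      rw [Submodule.Quotient.mk_add, (Submodule.Quotient.mk_eq_zero K).mpr ha, zero_add,
        ← Submodule.Quotient.mk_smul, algebraMap_smul, ← algebraMap_smul A ϖ x]
  let f : (K : Submodule A N) → N →ₗ[Rn] ((N ⧸ K) ⧸
      Ideal.span {algebraMap O Rn ϖ} • (⊤ : Submodule Rn (N ⧸ K))) := fun K =>
    (Submodule.mkQ _) ∘ₗ (K.mkQ.restrictScalars Rn)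
  have hfsurj : ∀ K, Function.Surjective (f K) := fun K =>
    (Submodule.mkQ_surjective _).comp (Submodule.mkQ_surjective K)
  have hfker : ∀ K z, z ∈ LinearMap.ker (f K) ↔ z ∈ K ⊔ Ideal.span {e} • ⊤ := fun K z => by
    rw [← hred K z]
    exact Submodule.Quotient.mk_eq_zero _
  have hk : LinearMap.ker (f K₁) = LinearMap.ker (f K₂) := by
    ext z
    rw [hfker, hfker, heq]
  let cong := (((f K₁).quotKerEquivOfSurjective (hfsurj K₁)).symm.trans
    (Submodule.quotEquivOfEq _ _ hk)).trans ((f K₂).quotKerEquivOfSurjective (hfsurj K₂))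
  have hpow : ∀ (K : Submodule A N) j (x : N ⧸ K), s₀ j ^ (p ^ v j) • x = x := by
    intro K j x
    rw [← algebraMap_smul A (s₀ j ^ (p ^ v j)) x, map_pow, hs, h.s_pow, one_smul]
  have hkill : ∀ (K : Submodule A N) (g : CoordRing O ι σ), (∀ x : N, γ g • x ∈ K) →
      ∀ x : N ⧸ K, γ g • x = 0 := by
    intro K g hg x
    obtain ⟨x, rfl⟩ := Submodule.Quotient.mk_surjective K x
    rw [← Submodule.Quotient.mk_smul, (Submodule.Quotient.mk_eq_zero K).mpr (hg x)]
  exact ⟨{
    Rn := Rn
    γ := γ
    γ_surjective := hγ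
    v := v
    le_v := hv
    s := s₀
    s_mem := hs₀
    M := N ⧸ K₁
    M' := N ⧸ K₂
    s_pow := hpow K₁
    s_pow' := hpow K₂
    finrank_eq := h1.2
    finrank_eq' := h2.2
    y := fun i => Submodule.Quotient.mk (y i)
    span := fun z => by
      obtain ⟨z, rfl⟩ := Submodule.Quotient.mk_surjective K₁ z
      obtain ⟨c, hc⟩ := h.span z
      refine ⟨c, ?_⟩
      have hmk : ∀ (x : N), x ∈ Ideal.span (Set.range fun j => s₀ j - 1) • (⊤ : Submodule Rn N) →
          (Submodule.Quotient.mk x : N ⧸ K₁) ∈
            Ideal.span (Set.range fun j => s₀ j - 1) • (⊤ : Submodule Rn (N ⧸ K₁)) := by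
        intro x hx
        have := Submodule.mem_map_of_mem (f := K₁.mkQ.restrictScalars Rn) hx
        rw [Submodule.map_smul''] at this
        exact Submodule.smul_mono le_rfl le_top this
      rw [Ideal.span_union, Submodule.sup_smul, Submodule.mem_sup] at hc
      obtain ⟨a, ha, b, hb, hab⟩ := hc
      have hb' : (Submodule.Quotient.mk b : N ⧸ K₁) = 0 := by
        refine (Submodule.Quotient.mk_eq_zero K₁).mpr ?_
        simpa [K₁, twistKer] using hb
      have h3 : (Submodule.Quotient.mk (z - ∑ i, algebraMap O A (c i) • y i) : N ⧸ K₁) ∈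
          Ideal.span (Set.range fun j => s₀ j - 1) • (⊤ : Submodule Rn (N ⧸ K₁)) := by
        rw [← hab, Submodule.Quotient.mk_add, hb', add_zero]
        refine hmk a (Submodule.smul_induction_on ha (fun g hg x _ => ?_) fun _ _ => add_mem)
        revert x
        induction hg using Submodule.span_induction with
        | mem g hg =>
          obtain ⟨j, rfl⟩ := hg
          intro x _
          show (s j - 1) • x ∈ _
          rw [← hs, ← map_one (algebraMap Rn A), ← map_sub, algebraMap_smul]
          exact Submodule.smul_mem_smul (Ideal.subset_span ⟨j, rfl⟩) trivial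
        | zero => intro x _; rw [zero_smul]; exact zero_mem _
        | add a b _ _ iha ihb =>
          intro x hx; rw [add_smul]; exact add_mem (iha x hx) (ihb x hx)
        | smul g a _ iha =>
          intro x _
          rw [smul_eq_mul, mul_comm, mul_smul]
          exact iha (g • x) trivial
      rw [← Submodule.mkQ_apply, map_sub, map_sum] at h3
      simp only [map_smul, Submodule.mkQ_apply] at h3
      simpa only [algebraMap_smul] using h3
    cong := cong
    kills_rel := fun i x => ⟨hkill K₂ _ (fun z => (hrel i z).1) x,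
      hkill K₂ _ (fun z => (hrel i z).2.1) x, hkill K₂ _ (fun z => (hrel i z).2.2.1) x,
      hkill K₂ _ (fun z => (hrel i z).2.2.2) x⟩
    kills_F := hkill K₁ F hF }⟩

end Level

end Fermat.Agent.LevelLowering.Avoid
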